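import Fermat.Agent.S24.Bridge
import Fermat.Agent.S24.D9744.DegreeBound

/-!
# S24 skeleton, PART B5: `j` is transcendental, `F / ℚ̄(j)` is finite of degree `≤ [SL₂(ℤ):Γ₀(N)]`.

INTERFACE FILE: replace each `sorry`.
Route for the bound: for `b` in the `ℚ̄`-algebra generated by the `j(q^d)`, the polynomial
`∏_{γ ∈ SL₂(ℤ)/Γ₀(N)} (X - Theta(b) ∘ γ⁻¹)` has holomorphic `SL₂(ℤ)`-invariant coefficients of
moderate growth, hence in `ℂ[j]` (`exists_polynomial_of_invariant`); so `Theta b` has degree
`≤ n` over `ℂ(j)`; `ℚ̄`-linearly independent `q`-series stay `ℂ`-linearly independent, so `b`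
has degree `≤ n` over `ℚ̄(j)`; conclude with a primitive element.
-/

set_option autoImplicit false

open ModularCurve AlgebraicCurve IntermediateField
open scoped MatrixGroups

namespace Fermat.Agent.S24

variable (N : ℕ) [NeZero N]

/-- (D1) -/
theorem jBar_transcendental : Transcendental (AlgebraicClosure ℚ) (jBar N) :=
  D9744.transcendental_of_coe_eq_jq N (jBar N) rfl

/-- (D2) -/
theorem finiteDimensional_jBar :
    FiniteDimensional (AlgebraicClosure ℚ)⟮jBar N⟯ ↥(modularFunctionFieldBar N) :=
  (D9744.finite_and_finrank_le_index (jBar N) rfl).1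

/-- (D3) -/
theorem finrank_jBar_le :
    Module.finrank (AlgebraicClosure ℚ)⟮jBar N⟯ ↥(modularFunctionFieldBar N)
      ≤ Nat.card (Q0 N) :=
  (D9744.finite_and_finrank_le_index (jBar N) rfl).2

end Fermat.Agent.S24
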