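import Mathlib
import Fermat.Prelude.Def_ModularCurve_GenusNumerics

/-!
# Counting on `SL(2, ℤ) ⧸ Γ₀(N)`: basic coset criterion and elliptic fixed points

Part of the S24 counting package (helper5004).
-/

set_option autoImplicit false

open Matrix Matrix.SpecialLinearGroup ModularGroup CongruenceSubgroup
open scoped MatrixGroups

namespace Fermat.Agent.S24.Cnt

/-- lower-left entry of `γ₁⁻¹ * γ₂`. -/
theorem inv_mul_apply_one_zero (g₁ g₂ : SL(2, ℤ)) :
    (g₁⁻¹ * g₂) 1 0 = g₁ 0 0 * g₂ 1 0 - g₁ 1 0 * g₂ 0 0 := by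
  rw [SL2_inv_expl g₁]
  simp [Matrix.mul_apply, Fin.sum_univ_two]
  ring

/-- Coset criterion: `γ₁ Γ₀(N) = γ₂ Γ₀(N)` iff `a₁ c₂ ≡ c₁ a₂ (mod N)` (first columns). -/
theorem mk_eq_mk_iff (N : ℕ) (g₁ g₂ : SL(2, ℤ)) :
    (QuotientGroup.mk g₁ : SL(2, ℤ) ⧸ Gamma0 N) = QuotientGroup.mk g₂ ↔
      ((g₁ 0 0 * g₂ 1 0 - g₁ 1 0 * g₂ 0 0 : ℤ) : ZMod N) = 0 := by
  rw [QuotientGroup.eq, Gamma0_mem, inv_mul_apply_one_zero]

/-- The determinant relation. -/
theorem det_rel (g : SL(2, ℤ)) : g 0 0 * g 1 1 - g 0 1 * g 1 0 = 1 := by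
  have h := g.det_coe
  rw [Matrix.det_fin_two] at h
  exact h

/-- The lower unipotent matrix `[[1, 0], [x, 1]]`. -/
def lowerUnip (x : ℤ) : SL(2, ℤ) :=
  ⟨!![1, 0; x, 1], by simp [Matrix.det_fin_two_of]⟩

@[simp] theorem lowerUnip_apply_zero_zero (x : ℤ) : lowerUnip x 0 0 = 1 := rfl
@[simp] theorem lowerUnip_apply_one_zero (x : ℤ) : lowerUnip x 1 0 = x := rfl
@[simp] theorem lowerUnip_apply_zero_one (x : ℤ) : lowerUnip x 0 1 = 0 := rfl
@[simp] theorem lowerUnip_apply_one_one (x : ℤ) : lowerUnip x 1 1 = 1 := rfl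

theorem S_mul_apply_zero_zero (g : SL(2, ℤ)) : (S * g) 0 0 = -g 1 0 := by
  simp [S, Matrix.mul_apply, Fin.sum_univ_two]

theorem S_mul_apply_one_zero (g : SL(2, ℤ)) : (S * g) 1 0 = g 0 0 := by
  simp [S, Matrix.mul_apply, Fin.sum_univ_two]

theorem ST_mul_apply_zero_zero (g : SL(2, ℤ)) : (S * T * g) 0 0 = -g 1 0 := by
  simp [S, T, Matrix.mul_apply, Fin.sum_univ_two]

theorem ST_mul_apply_one_zero (g : SL(2, ℤ)) : (S * T * g) 1 0 = g 0 0 + g 1 0 := by
  simp [S, T, Matrix.mul_apply, Fin.sum_univ_two]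

theorem T_mul_apply_zero_zero (g : SL(2, ℤ)) : (T * g) 0 0 = g 0 0 + g 1 0 := by
  simp [T, Matrix.mul_apply, Fin.sum_univ_two]

theorem T_mul_apply_one_zero (g : SL(2, ℤ)) : (T * g) 1 0 = g 1 0 := by
  simp [T, Matrix.mul_apply, Fin.sum_univ_two]

theorem T_zpow_mul_apply_zero_zero (k : ℤ) (g : SL(2, ℤ)) :
    (T ^ k * g) 0 0 = g 0 0 + k * g 1 0 := by
  rw [coe_mul, coe_T_zpow]
  simp [Matrix.mul_apply, Fin.sum_univ_two]

theorem T_zpow_mul_apply_one_zero (k : ℤ) (g : SL(2, ℤ)) : (T ^ k * g) 1 0 = g 1 0 := by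
  simp

variable (N : ℕ)

/-- `S` fixes the coset of `γ` iff `a² + c² ≡ 0`. -/
theorem S_smul_mk_eq_iff (g : SL(2, ℤ)) :
    S • (QuotientGroup.mk g : SL(2, ℤ) ⧸ Gamma0 N) = QuotientGroup.mk g ↔
      ((g 0 0 : ℤ) : ZMod N) ^ 2 + ((g 1 0 : ℤ) : ZMod N) ^ 2 = 0 := by
  rw [MulAction.Quotient.smul_mk, smul_eq_mul, mk_eq_mk_iff, S_mul_apply_zero_zero,
    S_mul_apply_one_zero]
  push_cast
  constructor
  · intro h; linear_combination -h
  · intro h; linear_combination -h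

/-- `S * T` fixes the coset of `γ` iff `a² + a c + c² ≡ 0`. -/
theorem ST_smul_mk_eq_iff (g : SL(2, ℤ)) :
    (S * T) • (QuotientGroup.mk g : SL(2, ℤ) ⧸ Gamma0 N) = QuotientGroup.mk g ↔
      ((g 0 0 : ℤ) : ZMod N) ^ 2 + ((g 0 0 : ℤ) : ZMod N) * ((g 1 0 : ℤ) : ZMod N)
        + ((g 1 0 : ℤ) : ZMod N) ^ 2 = 0 := by
  rw [MulAction.Quotient.smul_mk, smul_eq_mul, mk_eq_mk_iff, ST_mul_apply_zero_zero,
    ST_mul_apply_one_zero]
  push_cast
  constructor
  · intro h; linear_combination -h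
  · intro h; linear_combination -h

/-- The determinant relation, reduced mod `N`. -/
theorem det_rel_zmod (g : SL(2, ℤ)) :
    ((g 0 0 : ℤ) : ZMod N) * ((g 1 1 : ℤ) : ZMod N)
      - ((g 0 1 : ℤ) : ZMod N) * ((g 1 0 : ℤ) : ZMod N) = 1 := by
  have h := congrArg (Int.cast : ℤ → ZMod N) (det_rel g)
  push_cast at h
  exact h

/-- **(C2)** The number of cosets of `Γ₀(N)` fixed by `S` is `ν₂(N)`. -/
theorem card_fixedBy_S :
    Nat.card (MulAction.fixedBy (SL(2, ℤ) ⧸ Gamma0 N) S) = ModularCurve.nuTwo N := by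
  unfold ModularCurve.nuTwo
  symm
  refine Nat.card_congr (Equiv.ofBijective
    (fun x : {x : ZMod N // x ^ 2 + 1 = 0} =>
      (⟨QuotientGroup.mk (lowerUnip (x.1.cast : ℤ)), ?_⟩ :
        MulAction.fixedBy (SL(2, ℤ) ⧸ Gamma0 N) S)) ⟨?_, ?_⟩)
  · rw [MulAction.mem_fixedBy, S_smul_mk_eq_iff]
    simp only [lowerUnip_apply_zero_zero, lowerUnip_apply_one_zero, Int.cast_one,
      ZMod.intCast_cast, ZMod.cast_id', id_eq]
    linear_combination x.2
  · intro x y hxy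
    have h := congrArg Subtype.val hxy
    simp only at h
    rw [mk_eq_mk_iff] at h
    simp only [lowerUnip_apply_zero_zero, lowerUnip_apply_one_zero, Int.cast_sub, Int.cast_mul,
      Int.cast_one, ZMod.intCast_cast, ZMod.cast_id', id_eq] at h
    apply Subtype.ext
    linear_combination -h
  · rintro ⟨q, hq⟩
    obtain ⟨g, rfl⟩ := QuotientGroup.mk_surjective q
    rw [MulAction.mem_fixedBy, S_smul_mk_eq_iff] at hq
    have hdet := det_rel_zmod N g
    set A : ZMod N := ((g 0 0 : ℤ) : ZMod N) with hA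
    set B : ZMod N := ((g 0 1 : ℤ) : ZMod N) with hB
    set C : ZMod N := ((g 1 0 : ℤ) : ZMod N) with hC
    set D : ZMod N := ((g 1 1 : ℤ) : ZMod N) with hD
    set u : ZMod N := A * D ^ 2 - 2 * B * C * D - A * B ^ 2 with hu
    have hAu : A * u = 1 := by
      rw [hu]; linear_combination (A * D - B * C + 1) * hdet - B ^ 2 * hq
    refine ⟨⟨C * u, by linear_combination u ^ 2 * hq - (A * u + 1) * hAu⟩, ?_⟩
    apply Subtype.ext
    simp only
    rw [mk_eq_mk_iff]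
    simp only [lowerUnip_apply_zero_zero, lowerUnip_apply_one_zero, Int.cast_sub, Int.cast_mul,
      Int.cast_one, ZMod.intCast_cast, ZMod.cast_id', id_eq]
    rw [← hA, ← hC]
    linear_combination -C * hAu

/-- **(C3)** The number of cosets of `Γ₀(N)` fixed by `S * T` is `ν₃(N)`. -/
theorem card_fixedBy_ST :
    Nat.card (MulAction.fixedBy (SL(2, ℤ) ⧸ Gamma0 N) (S * T)) = ModularCurve.nuThree N := by
  unfold ModularCurve.nuThree
  symm
  refine Nat.card_congr (Equiv.ofBijective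
    (fun x : {x : ZMod N // x ^ 2 + x + 1 = 0} =>
      (⟨QuotientGroup.mk (lowerUnip (x.1.cast : ℤ)), ?_⟩ :
        MulAction.fixedBy (SL(2, ℤ) ⧸ Gamma0 N) (S * T))) ⟨?_, ?_⟩)
  · rw [MulAction.mem_fixedBy, ST_smul_mk_eq_iff]
    simp only [lowerUnip_apply_zero_zero, lowerUnip_apply_one_zero, Int.cast_one,
      ZMod.intCast_cast, ZMod.cast_id', id_eq]
    linear_combination x.2
  · intro x y hxy
    have h := congrArg Subtype.val hxy
    simp only at h
    rw [mk_eq_mk_iff] at h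
    simp only [lowerUnip_apply_zero_zero, lowerUnip_apply_one_zero, Int.cast_sub, Int.cast_mul,
      Int.cast_one, ZMod.intCast_cast, ZMod.cast_id', id_eq] at h
    apply Subtype.ext
    linear_combination -h
  · rintro ⟨q, hq⟩
    obtain ⟨g, rfl⟩ := QuotientGroup.mk_surjective q
    rw [MulAction.mem_fixedBy, ST_smul_mk_eq_iff] at hq
    have hdet := det_rel_zmod N g
    set A : ZMod N := ((g 0 0 : ℤ) : ZMod N) with hA
    set B : ZMod N := ((g 0 1 : ℤ) : ZMod N) with hB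
    set C : ZMod N := ((g 1 0 : ℤ) : ZMod N) with hC
    set D : ZMod N := ((g 1 1 : ℤ) : ZMod N) with hD
    set u : ZMod N := A * D ^ 2 - 2 * B * C * D - (A + C) * B ^ 2 with hu
    have hAu : A * u = 1 := by
      rw [hu]; linear_combination (A * D - B * C + 1) * hdet - B ^ 2 * hq
    refine ⟨⟨C * u, by linear_combination u ^ 2 * hq - (A * u + 1 + C * u) * hAu⟩, ?_⟩
    apply Subtype.ext
    simp only
    rw [mk_eq_mk_iff]
    simp only [lowerUnip_apply_zero_zero, lowerUnip_apply_one_zero, Int.cast_sub, Int.cast_mul,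
      Int.cast_one, ZMod.intCast_cast, ZMod.cast_id', id_eq]
    rw [← hA, ← hC]
    linear_combination -C * hAu

end Fermat.Agent.S24.Cnt
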