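import Mathlib
import Fermat.Prelude.Def_ModularCurve_GenusNumerics
import Fermat.Agent.S24.CountingBasic

/-!
# The index of `Γ₀(N)` in `SL(2, ℤ)` is `ψ(N)`

Part of the S24 counting package (helper5004).
-/

set_option autoImplicit false

open Matrix Matrix.SpecialLinearGroup ModularGroup CongruenceSubgroup
open scoped MatrixGroups

namespace Fermat.Agent.S24.Cnt

/-- General principle: the quotient by a subgroup is counted by the range of any complete
invariant. -/
theorem card_quotient_eq_card_range {G : Type*} [Group G] (H : Subgroup G) {α : Type*}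
    (f : G → α) (hf : ∀ x y, f x = f y ↔ x⁻¹ * y ∈ H) :
    Nat.card (G ⧸ H) = Nat.card (Set.range f) := by
  refine Nat.card_congr (Equiv.ofBijective
    (fun q => Quotient.liftOn' q (fun g => (⟨f g, g, rfl⟩ : Set.range f)) ?_) ⟨?_, ?_⟩)
  · intro a b hab
    rw [QuotientGroup.leftRel_apply] at hab
    exact Subtype.ext ((hf a b).mpr hab)
  · intro q₁ q₂
    induction q₁ using QuotientGroup.induction_on with | _ a => ?_
    induction q₂ using QuotientGroup.induction_on with | _ b => ?_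
    intro h
    have h' : f a = f b := congrArg Subtype.val h
    exact QuotientGroup.eq.mpr ((hf a b).mp h')
  · rintro ⟨_, g, rfl⟩
    exact ⟨QuotientGroup.mk g, rfl⟩

theorem mem_Gamma0_iff_dvd (N : ℕ) (g : SL(2, ℤ)) : g ∈ Gamma0 N ↔ (N : ℤ) ∣ g 1 0 := by
  rw [Gamma0_mem, ZMod.intCast_zmod_eq_zero_iff_dvd]

theorem Gamma0_mul_le (M p : ℕ) : Gamma0 (M * p) ≤ Gamma0 M := by
  intro g hg
  rw [mem_Gamma0_iff_dvd] at hg ⊢
  exact dvd_trans ⟨(p : ℤ), by push_cast; ring⟩ hg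

/-- The invariant classifying cosets of `Γ₀(M p)` in `Γ₀(M)`. -/
noncomputable def stepInv (M p : ℕ) (g : SL(2, ℤ)) : Option (ZMod p) :=
  if ((g 0 0 : ℤ) : ZMod p) = 0 then none
  else some (((g 1 0 / (M : ℤ) : ℤ) : ZMod p) * ((g 0 0 : ℤ) : ZMod p)⁻¹)

theorem stepInv_eq_iff (M p : ℕ) (hM : M ≠ 0) [Fact p.Prime] (g₁ g₂ : SL(2, ℤ))
    (h₁ : g₁ ∈ Gamma0 M) (h₂ : g₂ ∈ Gamma0 M) :
    stepInv M p g₁ = stepInv M p g₂ ↔ g₁⁻¹ * g₂ ∈ Gamma0 (M * p) := by
  rw [mem_Gamma0_iff_dvd] at h₁ h₂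
  obtain ⟨k₁, hk₁⟩ := h₁
  obtain ⟨k₂, hk₂⟩ := h₂
  have hM' : (M : ℤ) ≠ 0 := by exact_mod_cast hM
  have hq₁ : g₁ 1 0 / (M : ℤ) = k₁ := by rw [hk₁]; exact Int.mul_ediv_cancel_left _ hM'
  have hq₂ : g₂ 1 0 / (M : ℤ) = k₂ := by rw [hk₂]; exact Int.mul_ediv_cancel_left _ hM'
  have key : g₁⁻¹ * g₂ ∈ Gamma0 (M * p) ↔
      ((g₁ 0 0 : ℤ) : ZMod p) * ((k₂ : ℤ) : ZMod p) = ((k₁ : ℤ) : ZMod p) * ((g₂ 0 0 : ℤ) : ZMod p) := by
    rw [mem_Gamma0_iff_dvd, inv_mul_apply_one_zero, hk₁, hk₂]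
    have : g₁ 0 0 * ((M : ℤ) * k₂) - (M : ℤ) * k₁ * g₂ 0 0
        = (M : ℤ) * (g₁ 0 0 * k₂ - k₁ * g₂ 0 0) := by ring
    rw [this]
    push_cast
    rw [mul_dvd_mul_iff_left hM', ← sub_eq_zero]
    rw [← ZMod.intCast_zmod_eq_zero_iff_dvd]
    push_cast
    rfl
  rw [key]
  -- coprimality facts
  have hk₁p : ((g₁ 0 0 : ℤ) : ZMod p) = 0 → ((k₁ : ℤ) : ZMod p) ≠ 0 := by
    intro ha hk
    have hdet := det_rel_zmod p g₁
    rw [ha, hk₁] at hdet
    push_cast at hdet
    rw [hk] at hdet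
    simp at hdet
  have hk₂p : ((g₂ 0 0 : ℤ) : ZMod p) = 0 → ((k₂ : ℤ) : ZMod p) ≠ 0 := by
    intro ha hk
    have hdet := det_rel_zmod p g₂
    rw [ha, hk₂] at hdet
    push_cast at hdet
    rw [hk] at hdet
    simp at hdet
  unfold stepInv
  rw [hq₁, hq₂]
  by_cases ha₁ : ((g₁ 0 0 : ℤ) : ZMod p) = 0 <;> by_cases ha₂ : ((g₂ 0 0 : ℤ) : ZMod p) = 0
  · simp [ha₁, ha₂]
  · simp only [ha₁, ha₂, if_true, if_false, zero_mul]
    constructor
    · intro h; exact absurd h (by simp)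
    · intro h
      exact absurd (mul_eq_zero.mp h.symm) (by simp [hk₁p ha₁, ha₂])
  · simp only [ha₁, ha₂, if_true, if_false, mul_zero]
    constructor
    · intro h; exact absurd h (by simp)
    · intro h
      exact absurd (mul_eq_zero.mp h) (by simp [hk₂p ha₂, ha₁])
  · simp only [ha₁, ha₂, if_false, Option.some.injEq]
    constructor
    · intro h
      field_simp at h
      linear_combination -h
    · intro h
      field_simp
      linear_combination -h

theorem lowerUnip_mem_Gamma0 (M : ℕ) (x : ℤ) : lowerUnip ((M : ℤ) * x) ∈ Gamma0 M := by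
  rw [mem_Gamma0_iff_dvd]
  exact ⟨x, rfl⟩

theorem stepInv_lowerUnip (M p : ℕ) (hM : M ≠ 0) [Fact p.Prime] (x : ZMod p) :
    stepInv M p (lowerUnip ((M : ℤ) * (x.cast : ℤ))) = some x := by
  have hM' : (M : ℤ) ≠ 0 := by exact_mod_cast hM
  unfold stepInv
  simp only [lowerUnip_apply_zero_zero, lowerUnip_apply_one_zero, Int.cast_one]
  rw [Int.mul_ediv_cancel_left _ hM', if_neg one_ne_zero]
  simp

theorem relIndex_Gamma0_mul_of_dvd (M p : ℕ) (hM : M ≠ 0) [Fact p.Prime] (hpM : p ∣ M) :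
    (Gamma0 (M * p)).relIndex (Gamma0 M) = p := by
  rw [Subgroup.relIndex, Subgroup.index_eq_card]
  rw [card_quotient_eq_card_range ((Gamma0 (M * p)).subgroupOf (Gamma0 M))
    (fun g : Gamma0 M => stepInv M p g.1)
    (fun x y => by
      rw [Subgroup.mem_subgroupOf]
      simpa using stepInv_eq_iff M p hM x.1 y.1 x.2 y.2)]
  have hrange : Set.range (fun g : Gamma0 M => stepInv M p g.1) = Set.range (some : ZMod p → _) := by
    ext o
    constructor
    · rintro ⟨g, rfl⟩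
      have hc : ((g.1 1 0 : ℤ) : ZMod p) = 0 := by
        rw [ZMod.intCast_zmod_eq_zero_iff_dvd]
        exact dvd_trans (by exact_mod_cast hpM) ((mem_Gamma0_iff_dvd M g.1).mp g.2)
      have ha : ((g.1 0 0 : ℤ) : ZMod p) ≠ 0 := by
        intro ha
        have hdet := det_rel_zmod p g.1
        rw [ha, hc] at hdet
        simp at hdet
      simp only [stepInv, if_neg ha]
      exact ⟨_, rfl⟩
    · rintro ⟨x, rfl⟩
      exact ⟨⟨_, lowerUnip_mem_Gamma0 M _⟩, stepInv_lowerUnip M p hM x⟩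
  rw [hrange, Nat.card_range_of_injective (Option.some_injective _), Nat.card_zmod]

theorem relIndex_Gamma0_mul_of_not_dvd (M p : ℕ) (hM : M ≠ 0) [Fact p.Prime] (hpM : ¬ p ∣ M) :
    (Gamma0 (M * p)).relIndex (Gamma0 M) = p + 1 := by
  rw [Subgroup.relIndex, Subgroup.index_eq_card]
  rw [card_quotient_eq_card_range ((Gamma0 (M * p)).subgroupOf (Gamma0 M))
    (fun g : Gamma0 M => stepInv M p g.1)
    (fun x y => by
      rw [Subgroup.mem_subgroupOf]
      simpa using stepInv_eq_iff M p hM x.1 y.1 x.2 y.2)]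
  have hrange : Set.range (fun g : Gamma0 M => stepInv M p g.1) = Set.univ := by
    rw [Set.eq_univ_iff_forall]
    intro o
    cases o with
    | none =>
      have hcop : IsCoprime (p : ℤ) (M : ℤ) := by
        rw [Int.isCoprime_iff_gcd_eq_one, Int.gcd_natCast_natCast]
        exact (Nat.Prime.coprime_iff_not_dvd (Fact.out : p.Prime)).mpr hpM
      obtain ⟨u, v, huv⟩ := hcop
      let g : SL(2, ℤ) := ⟨!![(p : ℤ), -v; (M : ℤ), u], by
        rw [Matrix.det_fin_two_of]; linear_combination huv⟩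
      have hg : g ∈ Gamma0 M := by
        rw [mem_Gamma0_iff_dvd]
        exact dvd_refl _
      refine ⟨⟨g, hg⟩, ?_⟩
      have ha : ((g 0 0 : ℤ) : ZMod p) = 0 := by
        show (((p : ℤ) : ℤ) : ZMod p) = 0
        simp
      simp only [stepInv, if_pos ha]
    | some x =>
      exact ⟨⟨_, lowerUnip_mem_Gamma0 M _⟩, stepInv_lowerUnip M p hM x⟩
  rw [hrange, Nat.card_congr (Equiv.Set.univ _), Finite.card_option, Nat.card_zmod]

open ModularCurve in
theorem dedekindPsi_mul_of_dvd (M p : ℕ) (hM : M ≠ 0) (hp : p.Prime) (hpM : p ∣ M) :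
    dedekindPsi (M * p) = p * dedekindPsi M := by
  unfold dedekindPsi
  have hset : {d ∈ (M * p).divisors | Squarefree d} = {d ∈ M.divisors | Squarefree d} := by
    ext d
    simp only [Finset.mem_filter, Nat.mem_divisors]
    constructor
    · rintro ⟨⟨hd, -⟩, hsq⟩
      refine ⟨⟨?_, hM⟩, hsq⟩
      by_cases hpd : p ∣ d
      · obtain ⟨d', rfl⟩ := hpd
        have hd' : d' ∣ M := by
          rw [mul_comm M p] at hd
          exact (Nat.mul_dvd_mul_iff_left hp.pos).mp hd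
        have hcop : Nat.Coprime p d' := Nat.coprime_of_squarefree_mul hsq
        exact Nat.Coprime.mul_dvd_of_dvd_of_dvd hcop hpM hd'
      · exact (Nat.Coprime.dvd_mul_right ((Nat.Prime.coprime_iff_not_dvd hp).mpr hpd).symm).mp hd
    · rintro ⟨⟨hd, -⟩, hsq⟩
      exact ⟨⟨dvd_mul_of_dvd_left hd p, mul_ne_zero hM hp.ne_zero⟩, hsq⟩
  rw [hset, Finset.mul_sum]
  refine Finset.sum_congr rfl fun d hd => ?_
  simp only [Finset.mem_filter, Nat.mem_divisors] at hd
  rw [mul_comm M p, Nat.mul_div_assoc _ hd.1.1]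

open ModularCurve in
theorem dedekindPsi_mul_of_not_dvd (M p : ℕ) (hM : M ≠ 0) (hp : p.Prime) (hpM : ¬ p ∣ M) :
    dedekindPsi (M * p) = (p + 1) * dedekindPsi M := by
  unfold dedekindPsi
  rw [← Finset.sum_filter_add_sum_filter_not _ (fun d => p ∣ d)]
  have hset₁ : {d ∈ {d ∈ (M * p).divisors | Squarefree d} | ¬ p ∣ d}
      = {d ∈ M.divisors | Squarefree d} := by
    ext d
    simp only [Finset.mem_filter, Nat.mem_divisors]
    constructor
    · rintro ⟨⟨⟨hd, -⟩, hsq⟩, hpd⟩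
      exact ⟨⟨(Nat.Coprime.dvd_mul_right
        ((Nat.Prime.coprime_iff_not_dvd hp).mpr hpd).symm).mp hd, hM⟩, hsq⟩
    · rintro ⟨⟨hd, -⟩, hsq⟩
      exact ⟨⟨⟨dvd_mul_of_dvd_left hd p, mul_ne_zero hM hp.ne_zero⟩, hsq⟩,
        fun hpd => hpM (dvd_trans hpd hd)⟩
  have hset₂ : {d ∈ {d ∈ (M * p).divisors | Squarefree d} | p ∣ d}
      = Finset.image (fun d => d * p) {d ∈ M.divisors | Squarefree d} := by
    ext d
    simp only [Finset.mem_filter, Nat.mem_divisors, Finset.mem_image]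
    constructor
    · rintro ⟨⟨⟨hd, -⟩, hsq⟩, hpd⟩
      obtain ⟨d', rfl⟩ := hpd
      refine ⟨d', ⟨⟨?_, hM⟩, ?_⟩, mul_comm _ _⟩
      · rw [mul_comm M p] at hd
        exact (Nat.mul_dvd_mul_iff_left hp.pos).mp hd
      · exact Squarefree.of_mul_right hsq
    · rintro ⟨d', ⟨⟨hd', -⟩, hsq⟩, rfl⟩
      refine ⟨⟨⟨Nat.mul_dvd_mul hd' (dvd_refl p), mul_ne_zero hM hp.ne_zero⟩, ?_⟩,
        dvd_mul_left p d'⟩
      have hcop : Nat.Coprime d' p :=
        ((Nat.Prime.coprime_iff_not_dvd hp).mpr fun hpd => hpM (dvd_trans hpd hd')).symm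
      exact (Nat.squarefree_mul hcop).mpr ⟨hsq, hp.squarefree⟩
  rw [hset₁, hset₂, Finset.sum_image (fun x _ y _ h => Nat.eq_of_mul_eq_mul_right hp.pos h)]
  rw [add_mul, one_mul, Finset.mul_sum, add_comm]
  congr 1
  · refine Finset.sum_congr rfl fun d hd => ?_
    simp only [Finset.mem_filter, Nat.mem_divisors] at hd
    rw [mul_comm M p, Nat.mul_div_assoc _ hd.1.1]
  · refine Finset.sum_congr rfl fun d hd => ?_
    simp only [Finset.mem_filter, Nat.mem_divisors] at hd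
    exact Nat.mul_div_mul_right M d hp.pos

/-- **(C1)** The index of `Γ₀(N)` in `SL(2, ℤ)` is the Dedekind psi function `ψ(N)`. -/
theorem index_Gamma0 (N : ℕ) (hN : N ≠ 0) :
    (Gamma0 N).index = ModularCurve.dedekindPsi N := by
  induction N using Nat.strong_induction_on with
  | _ N ih =>
    rcases eq_or_ne N 1 with rfl | hN1
    · have : Gamma0 1 = ⊤ := by
        ext g
        simp only [Subgroup.mem_top, iff_true]
        rw [mem_Gamma0_iff_dvd]
        simp
      rw [this, Subgroup.index_top, ModularCurve.dedekindPsi_one]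
    · set p := N.minFac with hp_def
      have hp : p.Prime := Nat.minFac_prime hN1
      have : Fact p.Prime := ⟨hp⟩
      obtain ⟨M, hMeq⟩ : p ∣ N := Nat.minFac_dvd N
      have hNM : N = M * p := by rw [hMeq, mul_comm]
      have hM0 : M ≠ 0 := by
        rintro rfl
        exact hN (by rw [hNM, zero_mul])
      have hMlt : M < N := by
        rw [hNM]
        exact lt_mul_of_one_lt_right (Nat.pos_of_ne_zero hM0) hp.one_lt
      have ihM := ih M hMlt hM0
      rw [hNM, ← Subgroup.relIndex_mul_index (Gamma0_mul_le M p), ihM]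
      by_cases hpM : p ∣ M
      · rw [relIndex_Gamma0_mul_of_dvd M p hM0 hpM, dedekindPsi_mul_of_dvd M p hM0 hp hpM]
      · rw [relIndex_Gamma0_mul_of_not_dvd M p hM0 hpM,
          dedekindPsi_mul_of_not_dvd M p hM0 hp hpM]

/-- **(C1')** The number of cosets. -/
theorem card_quotient_Gamma0 (N : ℕ) (hN : N ≠ 0) :
    Nat.card (SL(2, ℤ) ⧸ Gamma0 N) = ModularCurve.dedekindPsi N := by
  rw [← Subgroup.index_eq_card, index_Gamma0 N hN]

end Fermat.Agent.S24.Cnt
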