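import Fermat.Agent.S24.OrbitPlaces

/-!
# S24, PART B4 glue (helper7947): PART P for a field `M` with a group action

`G` acts on a field `M` by ring automorphisms (`act : G →* (M ≃+* M)`), `Θ : F →+* M`, and the
subgroup `H ≤ G` is exactly the pointwise stabiliser of `Θ F`.  The embeddings
`σ (γ H) = act γ ∘ Θ` are then indexed by `G ⧸ H`, and PART P (`card_placesOver_eq_numOrbits`)
becomes a statement about the orbits of one element `g : G` on `G ⧸ H`.

Everything is generic (no modular input).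
-/

set_option autoImplicit false
open AlgebraicCurve IntermediateField

namespace Fermat.Agent.S24.B4Glue

variable {K F : Type*} [Field K] [Field F] [Algebra K F]

section cosetEmb

variable {G M : Type*} [Group G] [Field M]

/-- The embedding `f ↦ act γ (Θ f)` attached to the coset `γ H`. -/
noncomputable def cosetEmb (H : Subgroup G) (act : G →* (M ≃+* M)) (Θ : F →+* M)
    (hH : ∀ γ ∈ H, ∀ f, act γ (Θ f) = Θ f) : G ⧸ H → F →+* M :=
  Quotient.lift (fun γ : G => ((act γ : M ≃+* M) : M →+* M).comp Θ) (by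
    intro γ γ' h
    have h' : γ⁻¹ * γ' ∈ H := QuotientGroup.leftRel_apply.mp h
    refine RingHom.ext fun f => ?_
    show act γ (Θ f) = act γ' (Θ f)
    have : γ' = γ * (γ⁻¹ * γ') := by group
    rw [this, map_mul]
    show act γ (Θ f) = act γ (act (γ⁻¹ * γ') (Θ f))
    rw [hH _ h' f])

theorem cosetEmb_mk (H : Subgroup G) (act : G →* (M ≃+* M)) (Θ : F →+* M)
    (hH : ∀ γ ∈ H, ∀ f, act γ (Θ f) = Θ f) (γ : G) (f : F) :
    cosetEmb H act Θ hH (γ : G ⧸ H) f = act γ (Θ f) := rfl

theorem cosetEmb_injective (H : Subgroup G) (act : G →* (M ≃+* M)) (Θ : F →+* M)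
    (hH : ∀ γ ∈ H, ∀ f, act γ (Θ f) = Θ f)
    (hinj : ∀ γ, (∀ f, act γ (Θ f) = Θ f) → γ ∈ H) :
    Function.Injective (cosetEmb H act Θ hH) := by
  intro q q' h
  induction q using QuotientGroup.induction_on with
  | H γ =>
  induction q' using QuotientGroup.induction_on with
  | H γ' =>
  rw [QuotientGroup.eq]
  apply hinj
  intro f
  have h1 : act γ (Θ f) = act γ' (Θ f) := by
    have := congrArg (fun s : F →+* M => s f) h
    simpa [cosetEmb_mk] using this
  rw [map_mul]
  show act γ⁻¹ (act γ' (Θ f)) = Θ f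
  rw [← h1]
  show (act γ⁻¹ * act γ) (Θ f) = Θ f
  rw [← map_mul, inv_mul_cancel, map_one]
  rfl

end cosetEmb

section orbit

variable {G X : Type*} [Group G] [MulAction G X]

/-- If the orbit of `q` under `zpowers g` is finite of size `k`, then `g ^ k • q = q`. -/
theorem pow_card_orbit_smul (g : G) (q : X) [Finite (MulAction.orbit (Subgroup.zpowers g) q)] :
    g ^ Nat.card (MulAction.orbit (Subgroup.zpowers g) q) • q = q := by
  classical
  set Z := Subgroup.zpowers g
  set S := MulAction.stabilizer Z q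
  have e := MulAction.orbitEquivQuotientStabilizer Z q
  have : Finite (Z ⧸ S) := Finite.of_equiv _ e
  have hcard : Nat.card (MulAction.orbit Z q) = Nat.card (Z ⧸ S) := Nat.card_congr e
  have : S.Normal := inferInstance
  let gz : Z := ⟨g, Subgroup.mem_zpowers g⟩
  have h1 : ((gz : Z) : Z ⧸ S) ^ Nat.card (Z ⧸ S) = 1 := pow_card_eq_one'
  rw [← QuotientGroup.mk_pow, QuotientGroup.eq_one_iff] at h1
  have h2 : (gz ^ Nat.card (Z ⧸ S)) • q = q := h1
  rw [hcard]
  exact h2

/-- The orbit size of `q` under `zpowers g` divides `m` as soon as `g ^ m • q = q`. -/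
theorem card_orbit_dvd (g : G) (q : X) [Finite (MulAction.orbit (Subgroup.zpowers g) q)]
    (m : ℕ) (hm : g ^ m • q = q) :
    Nat.card (MulAction.orbit (Subgroup.zpowers g) q) ∣ m := by
  classical
  set Z := Subgroup.zpowers g
  set S := MulAction.stabilizer Z q
  have e := MulAction.orbitEquivQuotientStabilizer Z q
  have : Finite (Z ⧸ S) := Finite.of_equiv _ e
  have hcard : Nat.card (MulAction.orbit Z q) = Nat.card (Z ⧸ S) := Nat.card_congr e
  have : S.Normal := inferInstance
  let gz : Z := ⟨g, Subgroup.mem_zpowers g⟩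
  have hgen : ∀ y : Z ⧸ S, y ∈ Subgroup.zpowers ((gz : Z) : Z ⧸ S) := by
    intro y
    induction y using QuotientGroup.induction_on with
    | H z =>
    obtain ⟨n, hn⟩ := Subgroup.mem_zpowers_iff.mp z.2
    refine Subgroup.mem_zpowers_iff.mpr ⟨n, ?_⟩
    rw [← QuotientGroup.mk_zpow]
    congr 1
    exact Subtype.ext hn
  have hord : orderOf ((gz : Z) : Z ⧸ S) = Nat.card (Z ⧸ S) :=
    orderOf_eq_card_of_forall_mem_zpowers hgen
  rw [hcard, ← hord]
  apply orderOf_dvd_of_pow_eq_one
  rw [← QuotientGroup.mk_pow, QuotientGroup.eq_one_iff]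
  exact hm

end orbit

/-- **PART P for a field with a group action.**  `σ (γ H) = act γ ∘ Θ`. -/
theorem card_placesOver_eq_numOrbits_of_action [IsAlgClosed K] [CharZero K]
    (x : F) (hx : Transcendental K x) [FiniteDimensional K⟮x⟯ F] (c : K)
    {M : Type*} [Field M] (w : Valuation M (WithZero (Multiplicative ℤ)))
    {G : Type*} [Group G] (H : Subgroup G) [Finite (G ⧸ H)]
    (hcard : Nat.card (G ⧸ H) = Module.finrank K⟮x⟯ F)
    (act : G →* (M ≃+* M)) (Θ : F →+* M)
    (hH : ∀ γ ∈ H, ∀ f, act γ (Θ f) = Θ f)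
    (hinj : ∀ γ, (∀ f, act γ (Θ f) = Θ f) → γ ∈ H)
    (hK : ∀ γ (a : K), act γ (Θ (algebraMap K F a)) = Θ (algebraMap K F a))
    (hxinv : ∀ γ, act γ (Θ x) = Θ x)
    (m : ℕ) (hm : 0 < m)
    (hwx : w (Θ (x - algebraMap K F c)) = WithZero.exp (-(m : ℤ)))
    (g : G) (hgm : ∀ γ : G, γ⁻¹ * g ^ m * γ ∈ H)
    (hgw : ∀ y : M, w (act g y) = w y)
    (hdiv : ∀ k : ℕ, 0 < k → k ∣ m → ∀ y : M, y ≠ 0 → act (g ^ k) y = y →
      ((m / k : ℕ) : ℤ) ∣ WithZero.log (w y)) :
    Nat.card (placesOver x c) = numOrbits (G ⧸ H) g := by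
  classical
  have hgmq : ∀ q : G ⧸ H, g ^ m • q = q := by
    intro q
    induction q using QuotientGroup.induction_on with
    | H γ =>
    show ((g ^ m * γ : G) : G ⧸ H) = (γ : G ⧸ H)
    rw [eq_comm, QuotientGroup.eq]
    simpa [mul_assoc] using hgm γ
  refine card_placesOver_eq_numOrbits x hx c w hcard (cosetEmb H act Θ hH)
    (cosetEmb_injective H act Θ hH hinj) ?_ ?_ m hm ?_ g hgmq ?_ ?_
  · intro q q' a
    induction q using QuotientGroup.induction_on with
    | H γ =>
    induction q' using QuotientGroup.induction_on with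
    | H γ' =>
    rw [cosetEmb_mk, cosetEmb_mk, hK, hK]
  · intro q q'
    induction q using QuotientGroup.induction_on with
    | H γ =>
    induction q' using QuotientGroup.induction_on with
    | H γ' =>
    rw [cosetEmb_mk, cosetEmb_mk, hxinv, hxinv]
  · intro q
    induction q using QuotientGroup.induction_on with
    | H γ =>
    rw [cosetEmb_mk, map_sub, map_sub, hK, hxinv, ← map_sub, hwx]
  · intro q f
    induction q using QuotientGroup.induction_on with
    | H γ =>
    show w (cosetEmb H act Θ hH ((g * γ : G) : G ⧸ H) f) = _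
    rw [cosetEmb_mk, cosetEmb_mk, map_mul]
    exact hgw _
  · intro q f hf
    have hk := pow_card_orbit_smul g q
    have hkm := card_orbit_dvd g q m (hgmq q)
    set k := Nat.card (MulAction.orbit (Subgroup.zpowers g) q) with hkdef
    have hk0 : 0 < k := Nat.pos_of_dvd_of_pos hkm hm
    induction q using QuotientGroup.induction_on with
    | H γ =>
    have hmem : γ⁻¹ * g ^ k * γ ∈ H := by
      have h1 : ((g ^ k * γ : G) : G ⧸ H) = (γ : G ⧸ H) := hk
      rw [eq_comm, QuotientGroup.eq] at h1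
      simpa [mul_assoc] using h1
    rw [cosetEmb_mk]
    refine hdiv k hk0 hkm _ ?_ ?_
    · intro h0
      have : Θ f = 0 := by
        have := congrArg (act γ).symm h0
        simpa using this
      exact hf ((map_eq_zero Θ).mp this)
    · have h2 : g ^ k * γ = γ * (γ⁻¹ * g ^ k * γ) := by group
      show (act (g ^ k) * act γ) (Θ f) = act γ (Θ f)
      rw [← map_mul, h2, map_mul]
      show act γ (act (γ⁻¹ * g ^ k * γ) (Θ f)) = act γ (Θ f)
      rw [hH _ hmem f]

section degree

variable {G M : Type*} [Group G] [Field M]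

/-- The fixed locus `{z | act γ (Θ z) = Θ z}` contains `K⟮x⟯`. -/
theorem act_theta_eq_of_mem_adjoin (x : F) (act : G →* (M ≃+* M)) (Θ : F →+* M)
    (hK : ∀ γ (a : K), act γ (Θ (algebraMap K F a)) = Θ (algebraMap K F a))
    (hxinv : ∀ γ, act γ (Θ x) = Θ x) (γ : G) {z : F} (hz : z ∈ K⟮x⟯) :
    act γ (Θ z) = Θ z := by
  induction hz using IntermediateField.adjoin_induction with
  | mem y hy =>
    rw [Set.mem_singleton_iff] at hy
    rw [hy]; exact hxinv γ
  | algebraMap a => exact hK γ a
  | add y z _ _ hy hz => rw [map_add, map_add, hy, hz]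
  | inv y _ hy => rw [map_inv₀, map_inv₀, hy]
  | mul y z _ _ hy hz => rw [map_mul, map_mul, hy, hz]

/-- **Degree lower bound**: the embeddings `act γ ∘ Θ`, `γ H ∈ G ⧸ H`, are pairwise distinct
`K⟮x⟯`-embeddings, hence `[G : H] ≤ [F : K(x)]`. -/
theorem card_quotient_le_finrank (x : F) [FiniteDimensional K⟮x⟯ F]
    (H : Subgroup G) [Finite (G ⧸ H)]
    (act : G →* (M ≃+* M)) (Θ : F →+* M)
    (hH : ∀ γ ∈ H, ∀ f, act γ (Θ f) = Θ f)
    (hinj : ∀ γ, (∀ f, act γ (Θ f) = Θ f) → γ ∈ H)
    (hK : ∀ γ (a : K), act γ (Θ (algebraMap K F a)) = Θ (algebraMap K F a))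
    (hxinv : ∀ γ, act γ (Θ x) = Θ x) :
    Nat.card (G ⧸ H) ≤ Module.finrank K⟮x⟯ F := by
  classical
  letI : Algebra K⟮x⟯ M := (Θ.comp (algebraMap K⟮x⟯ F)).toAlgebra
  have halg : ∀ z : K⟮x⟯, algebraMap K⟮x⟯ M z = Θ (z : F) := fun z => rfl
  let τ : G ⧸ H → (F →ₐ[K⟮x⟯] M) := fun q =>
    { cosetEmb H act Θ hH q with
      commutes' := by
        intro z
        induction q using QuotientGroup.induction_on with
        | H γ =>
        show act γ (Θ (z : F)) = algebraMap K⟮x⟯ M z
        rw [halg, act_theta_eq_of_mem_adjoin x act Θ hK hxinv γ z.2] }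
  have hτ : Function.Injective τ := by
    intro q q' h
    apply cosetEmb_injective H act Θ hH hinj
    refine RingHom.ext fun f => ?_
    exact congrArg (fun s : F →ₐ[K⟮x⟯] M => s f) h
  calc Nat.card (G ⧸ H) ≤ Nat.card (F →ₐ[K⟮x⟯] M) := Nat.card_le_card_of_injective τ hτ
    _ ≤ Module.finrank K⟮x⟯ F := card_algHom_le_finrank K⟮x⟯ F M

end degree

section corollaries

/-- If there are exactly `n` places over `c` and their orders sum to `n`, all orders are `1`. -/
theorem ord_eq_one_of_card_eq (x : F) (c : K) (n : ℕ)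
    (hS : ∃ S : Finset (Place K F), (∀ v, v ∈ S ↔ 0 < v.ord (x - algebraMap K F c)) ∧
      ∑ v ∈ S, v.ord (x - algebraMap K F c) = (n : ℤ))
    (hcard : Nat.card (placesOver x c) = n)
    (v : Place K F) (hv : 0 < v.ord (x - algebraMap K F c)) :
    v.ord (x - algebraMap K F c) = 1 := by
  classical
  obtain ⟨S, hmem, hsum⟩ := hS
  have hSeq : (placesOver x c) = (S : Set (Place K F)) := by
    ext u
    simp only [placesOver, Set.mem_ofPred_eq, Finset.mem_coe, hmem]
  have hcardS : S.card = n := by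
    rw [← hcard, hSeq, Nat.card_coe_set_eq, Set.ncard_coe_finset]
  have hge : ∀ u ∈ S, (1 : ℤ) ≤ u.ord (x - algebraMap K F c) := fun u hu => (hmem u).mp hu
  have hsum1 : ∑ u ∈ S, (1 : ℤ) = ∑ u ∈ S, u.ord (x - algebraMap K F c) := by
    rw [hsum, Finset.sum_const, hcardS]; simp
  have := (Finset.sum_eq_sum_iff_of_le hge).mp hsum1 v ((hmem v).mpr hv)
  exact this.symm

theorem adjoin_inv_eq (x : F) : K⟮x⁻¹⟯ = K⟮x⟯ := by
  apply le_antisymm
  · rw [IntermediateField.adjoin_simple_le_iff]
    exact inv_mem (IntermediateField.mem_adjoin_simple_self K x)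
  · rw [IntermediateField.adjoin_simple_le_iff]
    have := inv_mem (IntermediateField.mem_adjoin_simple_self K x⁻¹)
    rwa [inv_inv] at this

theorem adjoin_sub_algebraMap_eq (x : F) (c : K) : K⟮x - algebraMap K F c⟯ = K⟮x⟯ := by
  apply le_antisymm
  · rw [IntermediateField.adjoin_simple_le_iff]
    exact sub_mem (IntermediateField.mem_adjoin_simple_self K x) (IntermediateField.algebraMap_mem _ c)
  · rw [IntermediateField.adjoin_simple_le_iff]
    have := add_mem (IntermediateField.mem_adjoin_simple_self K (x - algebraMap K F c))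
      (IntermediateField.algebraMap_mem K⟮x - algebraMap K F c⟯ c)
    rwa [sub_add_cancel] at this

theorem finrank_congr_adjoin {E E' : IntermediateField K F} (h : E = E') :
    Module.finrank E F = Module.finrank E' F := by
  subst h; rfl

theorem finiteDimensional_congr_adjoin {E E' : IntermediateField K F} (h : E = E')
    [FiniteDimensional E F] : FiniteDimensional E' F := by
  subst h; infer_instance

theorem transcendental_inv {x : F} (hx : Transcendental K x) : Transcendental K x⁻¹ := by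
  intro h
  exact hx (by simpa using h.inv)

theorem placesOver_inv_zero (x : F) : placesOver x⁻¹ (0 : K) = placesOverInfty (K := K) x := by
  ext v
  simp only [placesOver, placesOverInfty, Set.mem_ofPred_eq, map_zero, sub_zero, Place.ord_inv]
  omega

/-- **PART P at a pole** (`x ↦ x⁻¹`, `c = 0`), for a field with a group action. -/
theorem card_placesOverInfty_eq_numOrbits_of_action [IsAlgClosed K] [CharZero K]
    (x : F) (hx : Transcendental K x) [FiniteDimensional K⟮x⟯ F]
    {M : Type*} [Field M] (w : Valuation M (WithZero (Multiplicative ℤ)))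
    {G : Type*} [Group G] (H : Subgroup G) [Finite (G ⧸ H)]
    (hcard : Nat.card (G ⧸ H) = Module.finrank K⟮x⟯ F)
    (act : G →* (M ≃+* M)) (Θ : F →+* M)
    (hH : ∀ γ ∈ H, ∀ f, act γ (Θ f) = Θ f)
    (hinj : ∀ γ, (∀ f, act γ (Θ f) = Θ f) → γ ∈ H)
    (hK : ∀ γ (a : K), act γ (Θ (algebraMap K F a)) = Θ (algebraMap K F a))
    (hxinv : ∀ γ, act γ (Θ x) = Θ x)
    (m : ℕ) (hm : 0 < m)
    (hwx : w (Θ x) = WithZero.exp (m : ℤ))
    (g : G) (hgm : ∀ γ : G, γ⁻¹ * g ^ m * γ ∈ H)
    (hgw : ∀ y : M, w (act g y) = w y)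
    (hdiv : ∀ k : ℕ, 0 < k → k ∣ m → ∀ y : M, y ≠ 0 → act (g ^ k) y = y →
      ((m / k : ℕ) : ℤ) ∣ WithZero.log (w y)) :
    Nat.card (placesOverInfty (K := K) x) = numOrbits (G ⧸ H) g := by
  have : FiniteDimensional K⟮x⁻¹⟯ F := finiteDimensional_congr_adjoin (adjoin_inv_eq x).symm
  rw [← placesOver_inv_zero]
  refine card_placesOver_eq_numOrbits_of_action x⁻¹ (transcendental_inv hx) (0 : K) w H
    (hcard.trans (finrank_congr_adjoin (adjoin_inv_eq x).symm)) act Θ hH hinj hK ?_ m hm ?_ g hgm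
    hgw hdiv
  · intro γ
    rw [map_inv₀, map_inv₀, hxinv]
  · rw [map_zero, sub_zero, map_inv₀, map_inv₀, hwx, ← WithZero.exp_neg]

end corollaries

end Fermat.Agent.S24.B4Glue
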