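import Fermat.Agent.S24.Defs
import Fermat.Agent.S24.OP2848.Surj

/-!
# S24 skeleton, PART P: the abstract orbit lemma (generic; no modular input).

`n = [F : K(x)]` pairwise distinct embeddings `σ q : F →+* M` (`q ∈ Q`, `|Q| = n`) agreeing on
`K(x)`, a `ℤ`-valued valuation `w` on `M` with `w (σ q (x - c)) = exp (-m)`, and an element `g`
of a group acting on `Q` with `g ^ m` acting trivially, `w ∘ σ (g • q) = w ∘ σ q`, and
`(m / |orbit of q|) ∣ log (w (σ q f))`.  Then places of `F` over `x = c` ↔ orbits of `g` on `Q`.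

Proof (helper2848): every `w ∘ σ q` is a place over `c` (`OP2848.placeOfVal`); the norm trick
(`OP2848.exists_place_eq`) shows every place over `c` arises; `e(v_q) ≤ |orbit q|` by the
divisibility; `∑ e = n` (`OP2848.exists_finset_zeros_sum_ord`, due to helper4344) forces a
bijection.
-/

set_option autoImplicit false
open AlgebraicCurve IntermediateField

namespace Fermat.Agent.S24

namespace OP2848

open WithZero

variable {K F : Type*} [Field K] [Field F] [Algebra K F]

theorem finrank_congr_intermediate {L L' : IntermediateField K F} (h : L = L') :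
    Module.finrank L F = Module.finrank L' F := by
  subst h; rfl

theorem finiteDimensional_congr_intermediate {L L' : IntermediateField K F} (h : L = L')
    [FiniteDimensional L' F] : FiniteDimensional L F := by
  subst h; infer_instance

theorem adjoin_sub_const (x : F) (c : K) : K⟮x - algebraMap K F c⟯ = K⟮x⟯ := by
  apply le_antisymm
  · rw [adjoin_simple_le_iff]
    exact sub_mem (mem_adjoin_simple_self K x) (IntermediateField.algebraMap_mem _ c)
  · rw [adjoin_simple_le_iff]
    have h2 : (x - algebraMap K F c) + algebraMap K F c ∈ K⟮x - algebraMap K F c⟯ :=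
      add_mem (mem_adjoin_simple_self K _) (IntermediateField.algebraMap_mem _ c)
    rwa [sub_add_cancel] at h2

theorem transcendental_sub_const {x : F} (hx : Transcendental K x) (c : K) :
    Transcendental K (x - algebraMap K F c) := by
  intro h
  apply hx
  have h3 := h.add (isAlgebraic_algebraMap (R := K) (A := F) c)
  rwa [sub_add_cancel] at h3

/-- A `ℤᵐ⁰`-valued valuation is trivial on the image of an algebraically closed field. -/
theorem val_const_le_one [IsAlgClosed K] {M : Type*} [Field M] (w : Valuation M ℤᵐ⁰)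
    (φ : F →+* M) (a : K) : w (φ (algebraMap K F a)) ≤ 1 := by
  rcases eq_or_ne a 0 with rfl | ha
  · simp
  have hne : ∀ b : K, b ≠ 0 → w (φ (algebraMap K F b)) ≠ 0 := fun b hb =>
    (Valuation.ne_zero_iff w).mpr (by simpa using hb)
  set y := w (φ (algebraMap K F a)) with hy
  have hy0 : y ≠ 0 := hne a ha
  set n : ℕ := (log y).natAbs + 1 with hn
  obtain ⟨b, hb⟩ := IsAlgClosed.exists_pow_nat_eq a (Nat.succ_pos _ : 0 < n)
  have hb0 : b ≠ 0 := by
    rintro rfl
    rw [zero_pow (Nat.succ_ne_zero _)] at hb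
    exact ha hb.symm
  have h1 : log y = n • log (w (φ (algebraMap K F b))) := by
    rw [hy, ← hb, map_pow, map_pow, map_pow, log_pow]
  have h2 : (n : ℤ) ∣ log y := ⟨log (w (φ (algebraMap K F b))), by rw [h1]; simp⟩
  have h3 : log y = 0 := by
    apply Int.eq_zero_of_dvd_of_natAbs_lt_natAbs h2
    rw [Int.natAbs_natCast]
    omega
  rw [← exp_log hy0, h3, exp_zero]

end OP2848

open OP2848 WithZero in
/-- PART P. -/
theorem card_placesOver_eq_numOrbits {K F : Type*} [Field K] [Field F] [Algebra K F]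
    [IsAlgClosed K] [CharZero K]
    (x : F) (hx : Transcendental K x) [FiniteDimensional K⟮x⟯ F] (c : K)
    {M : Type*} [Field M] (w : Valuation M (WithZero (Multiplicative ℤ)))
    {Q : Type*} [Finite Q] (hQ : Nat.card Q = Module.finrank K⟮x⟯ F)
    (σ : Q → F →+* M) (hσ : Function.Injective σ)
    (hbase : ∀ q q' (a : K), σ q (algebraMap K F a) = σ q' (algebraMap K F a))
    (hbasex : ∀ q q', σ q x = σ q' x)
    (m : ℕ) (hm : 0 < m)
    (hwx : ∀ q, w (σ q (x - algebraMap K F c)) = WithZero.exp (-(m : ℤ)))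
    {G : Type*} [Group G] [MulAction G Q] (g : G) (hg : ∀ q : Q, g ^ m • q = q)
    (hgw : ∀ q (f : F), w (σ (g • q) f) = w (σ q f))
    (hdiv : ∀ q (f : F), f ≠ 0 →
      ((m / Nat.card (MulAction.orbit (Subgroup.zpowers g) q) : ℕ) : ℤ) ∣
        WithZero.log (w (σ q f))) :
    Nat.card (placesOver x c) = numOrbits Q g := by
  classical
  haveI : Fintype Q := Fintype.ofFinite Q
  set s : F := x - algebraMap K F c with hs_def
  have hs : Transcendental K s := transcendental_sub_const hx c
  have hadj : K⟮s⟯ = K⟮x⟯ := adjoin_sub_const x c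
  haveI : FiniteDimensional K⟮s⟯ F := finiteDimensional_congr_intermediate hadj
  have hfin : Module.finrank K⟮s⟯ F = Module.finrank K⟮x⟯ F := finrank_congr_intermediate hadj
  have hs0 : s ≠ 0 := by
    rintro h
    exact hs (h ▸ isAlgebraic_zero)
  have hbases : ∀ q q', σ q s = σ q' s := fun q q' => by
    rw [hs_def, map_sub, map_sub, hbasex q q', hbase q q']
  have hK : ∀ q (a : K), (w.comap (σ q)) (algebraMap K F a) ≤ 1 := fun q a =>
    val_const_le_one w (σ q) a
  have hws' : ∀ q, w (σ q s) = exp (-(m : ℤ)) := hwx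
  have hws : ∀ q, (w.comap (σ q)) s < 1 := fun q => by
    rw [Valuation.comap_apply, hws' q, ← exp_zero, exp_lt_exp]
    omega
  let vq : Q → Place K F := fun q => placeOfVal (w.comap (σ q)) (hK q) s hs0 (hws q)
  obtain ⟨S, hS, hsum⟩ := exists_finset_zeros_sum_ord s hs
  have hplaces : placesOver x c = (S : Set (Place K F)) := by
    ext v
    rw [Finset.mem_coe, hS]
    rfl
  have hvqS : ∀ q, vq q ∈ S := fun q =>
    (hS _).mpr ((placeOfVal_ord_pos_iff (w.comap (σ q)) (hK q) s hs0 (hws q) hs0).mpr (hws q))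
  -- the place only depends on the orbit
  have hvg : ∀ q, vq (g • q) = vq q := by
    intro q
    apply Place.ext
    ext f
    show (w.comap (σ (g • q))) f ≤ 1 ↔ (w.comap (σ q)) f ≤ 1
    rw [Valuation.comap_apply, Valuation.comap_apply, hgw]
  have hvginv : ∀ q, vq (g⁻¹ • q) = vq q := by
    intro q
    have h := hvg (g⁻¹ • q)
    rw [smul_inv_smul] at h
    exact h.symm
  have hvz : ∀ k : ℤ, ∀ q, vq (g ^ k • q) = vq q := by
    intro k
    induction k using Int.induction_on with
    | zero => intro q; simp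
    | succ k ih =>
      intro q
      rw [zpow_add_one, mul_smul, ih, hvg]
    | pred k ih =>
      intro q
      rw [zpow_sub_one, mul_smul, ih, hvginv]
  have hvorb : ∀ q q', q' ∈ MulAction.orbit (Subgroup.zpowers g) q → vq q' = vq q := by
    rintro q q' ⟨⟨h, hh⟩, rfl⟩
    obtain ⟨k, rfl⟩ := Subgroup.mem_zpowers_iff.mp hh
    exact hvz k q
  -- ramification is bounded by the orbit size
  have he : ∀ q, (vq q).ord s ≤ (Nat.card (MulAction.orbit (Subgroup.zpowers g) q) : ℤ) := by
    intro q
    obtain ⟨d, hd, ⟨π, hπ0, hπ⟩, hlog⟩ :=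
      exists_log_val_eq (w.comap (σ q)) (hK q) s hs0 (hws q)
    have h1 := hlog s hs0
    rw [Valuation.comap_apply, hws' q, log_exp] at h1
    have h2 := hdiv q π hπ0
    rw [Valuation.comap_apply] at hπ
    rw [hπ] at h2
    have hdvd : Nat.card (MulAction.orbit (Subgroup.zpowers g) q) ∣ m := by
      haveI : Fintype (MulAction.orbit (Subgroup.zpowers g) q) := Fintype.ofFinite _
      rw [Nat.card_eq_fintype_card, ← MulAction.minimalPeriod_eq_card]
      apply Function.IsPeriodicPt.minimalPeriod_dvd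
      show (g • ·)^[m] q = q
      rw [smul_iterate_apply]
      exact hg q
    set N := Nat.card (MulAction.orbit (Subgroup.zpowers g) q) with hN
    set k := m / N with hk
    have hkN : k * N = m := Nat.div_mul_cancel hdvd
    have h3 : (k : ℤ) ∣ d := (dvd_neg).mp h2
    have h4 : (k : ℤ) ≤ d := Int.le_of_dvd hd h3
    have hk0 : 0 < k := by
      rcases Nat.eq_zero_or_pos k with h0 | h0
      · rw [h0] at hkN; omega
      · exact h0
    have h5 : (k : ℤ) * (N : ℤ) = d * (vq q).ord s := by
      have : ((k * N : ℕ) : ℤ) = (m : ℤ) := by rw [hkN]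
      push_cast at this
      linarith
    have hepos : 0 < (vq q).ord s := (hS _).mp (hvqS q)
    have h6 : (k : ℤ) * (vq q).ord s ≤ (k : ℤ) * (N : ℤ) := by
      rw [h5]
      exact mul_le_mul_of_nonneg_right h4 hepos.le
    exact le_of_mul_le_mul_left h6 (by exact_mod_cast hk0)
  -- every place over `c` is some `vq q`
  have hsurj : ∀ v ∈ S, ∃ q, v = vq q := fun v hv =>
    exists_place_eq s hs w (by rw [← Nat.card_eq_fintype_card, hQ, hfin]) σ hσ hbase hbases hs0
      hK hws v ((hS v).mp hv)
  -- counting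
  let Ω := MulAction.orbitRel.Quotient (Subgroup.zpowers g) Q
  haveI : Fintype Ω := Fintype.ofFinite Ω
  let Φ : Ω → Place K F := fun ω => vq (Quotient.out ω)
  let Nω : Ω → ℤ := fun ω => (Nat.card (MulAction.orbit (Subgroup.zpowers g) (Quotient.out ω)) : ℤ)
  have hcardQ : (Nat.card Q : ℤ) = ∑ ω : Ω, Nω ω := by
    rw [Nat.card_congr (MulAction.selfEquivSigmaOrbits (Subgroup.zpowers g) Q), Nat.card_sigma]
    push_cast
    rfl
  have hΦsurj : ∀ v ∈ S, ∃ ω : Ω, Φ ω = v := by
    intro v hv
    obtain ⟨q, rfl⟩ := hsurj v hv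
    refine ⟨Quotient.mk (MulAction.orbitRel (Subgroup.zpowers g) Q) q, ?_⟩
    apply hvorb
    have h : (MulAction.orbitRel (Subgroup.zpowers g) Q)
        (Quotient.out (Quotient.mk (MulAction.orbitRel (Subgroup.zpowers g) Q) q)) q :=
      Quotient.exact (Quotient.out_eq _)
    exact MulAction.orbitRel_apply.mp h
  have hQpos : 0 < Nat.card Q := by rw [hQ]; exact Module.finrank_pos
  obtain ⟨q₀⟩ : Nonempty Q := (Nat.card_pos_iff.mp hQpos).1
  haveI : Nonempty Ω := ⟨Quotient.mk (MulAction.orbitRel (Subgroup.zpowers g) Q) q₀⟩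
  choose! ωv hωv using hΦsurj
  have hinj : Set.InjOn ωv (S : Set (Place K F)) := by
    intro v hv v' hv' h
    rw [← hωv v hv, ← hωv v' hv', h]
  let T : Finset Ω := S.image ωv
  have hTcard : T.card = S.card := Finset.card_image_of_injOn hinj
  have hNpos : ∀ ω : Ω, 0 < Nω ω := by
    intro ω
    have : Nonempty (MulAction.orbit (Subgroup.zpowers g) (Quotient.out ω)) :=
      ⟨⟨_, MulAction.mem_orbit_self _⟩⟩
    have h0 : 0 < Nat.card (MulAction.orbit (Subgroup.zpowers g) (Quotient.out ω)) := Nat.card_pos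
    show (0 : ℤ) < (Nat.card (MulAction.orbit (Subgroup.zpowers g) (Quotient.out ω)) : ℤ)
    exact_mod_cast h0
  have hT : T = Finset.univ := by
    by_contra hne
    obtain ⟨ω₁, hω₁⟩ : ∃ ω₁, ω₁ ∉ T := by
      by_contra h
      push Not at h
      exact hne (Finset.eq_univ_iff_forall.mpr h)
    have h1 : ∑ v ∈ S, v.ord s ≤ ∑ v ∈ S, Nω (ωv v) := by
      apply Finset.sum_le_sum
      intro v hv
      have := he (Quotient.out (ωv v))
      have h2 : vq (Quotient.out (ωv v)) = v := hωv v hv
      rw [h2] at this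
      exact this
    have h2 : ∑ v ∈ S, Nω (ωv v) = ∑ ω ∈ T, Nω ω := (Finset.sum_image hinj).symm
    have h3 : ∑ ω ∈ T, Nω ω < ∑ ω : Ω, Nω ω :=
      Finset.sum_lt_sum_of_subset (Finset.subset_univ T) (Finset.mem_univ ω₁) hω₁ (hNpos ω₁)
        (fun j _ _ => (hNpos j).le)
    rw [← hcardQ, hQ, ← hfin, ← hsum] at h3
    linarith
  rw [hplaces, numOrbits]
  show Nat.card ↥(S : Set (Place K F)) = Nat.card Ω
  rw [Nat.card_coe_set_eq, Set.ncard_coe_finset, Nat.card_eq_fintype_card, ← hTcard, hT,
    Finset.card_univ]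

end Fermat.Agent.S24
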