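import Fermat.Agent.S24.Defs
import Fermat.Agent.S24.A564.RHAssembly

/-!
# S24 skeleton, PART A: Riemann–Hurwitz count for a function field over an algebraically
closed field of characteristic zero (generic; no modular input).

All four statements are proved (no gaps); the work is in `Fermat/Agent/S24/A564/`.
-/

set_option autoImplicit false
open AlgebraicCurve KaehlerDifferential IntermediateField

namespace Fermat.Agent.S24

variable {K F : Type*} [Field K] [Field F] [Algebra K F]

/-- PART A. `Ω[F⁄K] ≠ 0`. -/
theorem exists_differential_ne_zero [IsAlgClosed K] [CharZero K]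
    (x : F) (hx : Transcendental K x) [FiniteDimensional K⟮x⟯ F] :
    ∃ ω : Ω[F⁄K], ω ≠ 0 :=
  A564.KR.exists_differential_ne_zero' x hx

/-- PART A (Riemann–Hurwitz in counting form). If `F/K(x)` is finite of degree `n` and is
unramified over every finite `c ∉ S`, then every canonical divisor `D` has
`deg D = -2n + ∑_{c ∈ S} (n - #places over c) + (n - #places over ∞)`. -/
theorem degree_eq_of_ramification [IsAlgClosed K] [CharZero K]
    (x : F) (hx : Transcendental K x) [FiniteDimensional K⟮x⟯ F]
    (S : Finset K)
    (hunr : ∀ c : K, c ∉ S → ∀ v : Place K F,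
      0 < v.ord (x - algebraMap K F c) → v.ord (x - algebraMap K F c) = 1)
    (ω : Ω[F⁄K]) (hω : ω ≠ 0) (D : Divisor K F) (hD : ∀ v, D v = v.ordDifferential ω) :
    Divisor.degree D = -2 * (Module.finrank K⟮x⟯ F : ℤ)
      + ∑ c ∈ S, ((Module.finrank K⟮x⟯ F : ℤ) - (Nat.card (placesOver x c) : ℤ))
      + ((Module.finrank K⟮x⟯ F : ℤ) - (Nat.card (placesOverInfty (K := K) x) : ℤ)) :=
  A564.degree_eq_of_ramification_aux x hx S hunr ω hω D hD

/-- PART A, EXPORT (needed by PART B): finitely many places over `x = c`. -/
theorem finite_placesOver [IsAlgClosed K] [CharZero K]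
    (x : F) (hx : Transcendental K x) [FiniteDimensional K⟮x⟯ F] (c : K) :
    (placesOver x c).Finite := by
  obtain ⟨Z, hZ, -⟩ := A564.zeros_sum_of_adjoin_eq (x - algebraMap K F c)
    (A564.transcendental_sub_const hx c) K⟮x⟯ (A564.adjoin_simple_sub_const x c)
  have h1 : placesOver x c = ((Z : Finset (Place K F)) : Set (Place K F)) := by
    ext v
    simp [placesOver, hZ v]
  rw [h1]
  exact Z.finite_toSet

/-- PART A, EXPORT (needed by PART B): the fundamental identity `∑ e = n` over `x = c`
(all residue degrees are `1`). -/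
theorem sum_ord_placesOver [IsAlgClosed K] [CharZero K]
    (x : F) (hx : Transcendental K x) [FiniteDimensional K⟮x⟯ F] (c : K) :
    ∑ᶠ v ∈ placesOver x c, v.ord (x - algebraMap K F c) = (Module.finrank K⟮x⟯ F : ℤ) := by
  obtain ⟨Z, hZ, hs⟩ := A564.zeros_sum_of_adjoin_eq (x - algebraMap K F c)
    (A564.transcendental_sub_const hx c) K⟮x⟯ (A564.adjoin_simple_sub_const x c)
  have h1 : placesOver x c = ((Z : Finset (Place K F)) : Set (Place K F)) := by
    ext v
    simp [placesOver, hZ v]
  rw [h1, finsum_mem_coe_finset, hs]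

end Fermat.Agent.S24
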