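import Fermat.Agent.S24.Defs
import Fermat.Agent.S24.OrbitPlaces
import Fermat.Agent.S24.RiemannHurwitz
import Fermat.Agent.S24.Degree
import Fermat.Agent.S24.B4Glue

/-!
# S24 skeleton, PART B (top): the modular input, assembled from
`LevelOneJ` (B1), `ModField` (B2), `JLevel` (B3), `Bridge` (B4), `Degree` (B5), PART P
(`card_placesOver_eq_numOrbits`) and the PART A exports (`finite_placesOver`,
`sum_ord_placesOver`).

Embeddings: `σ (γ Γ₀(N)) f = modAut N γ (Theta N f)`; valuations and groups: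
`(ordAt N I, 2, S)`, `(ordAt N rhoH, 3, S * T)`, `(ordAt N τ₀, 1, 1)`, and at the cusp
`(ordInf N, N, T)` for `x = (jBar N)⁻¹`, `c = 0`.

GLUE proved by helper927 from the skeleton-v2 statements (origin/helper24 76b4b501) and the
generic action glue `B4Glue.lean` of helper7947.  Auxiliary names are prefixed `b6_`.
-/

set_option autoImplicit false
set_option linter.style.haveILetI false
set_option linter.unusedSectionVars false
open ModularCurve AlgebraicCurve IntermediateField
open scoped MatrixGroups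

namespace Fermat.Agent.S24

variable (N : ℕ) [NeZero N]

/-! ### The action and the embedding -/

/-- The action of `SL(2,ℤ)` on `ModMer N` as a monoid hom. -/
noncomputable def b6_act : SL(2, ℤ) →* (ModMer N ≃+* ModMer N) where
  toFun γ := modAut N γ
  map_one' := RingEquiv.ext fun φ => modAut_one N φ
  map_mul' γ δ := RingEquiv.ext fun φ => modAut_mul N γ δ φ

@[simp]
theorem b6_act_apply (γ : SL(2, ℤ)) (φ : ModMer N) : b6_act N γ φ = modAut N γ φ := rfl

theorem b6_dmul_one (τ : UpperHalfPlane) : dmul 1 τ = τ := by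
  apply UpperHalfPlane.ext
  rw [coe_dmul Nat.one_pos]
  simp

theorem b6_jdHol_one_apply (τ : UpperHalfPlane) :
    (jdHol N 1 (one_dvd N)).1 τ = jC τ := by
  rw [jdHol_apply, b6_dmul_one]

theorem b6_Theta_jBar :
    Theta N (jBar N) = algebraMap (ModHol N) (ModMer N) (jdHol N 1 (one_dvd N)) := by
  rw [← JdBar_one, Theta_JdBar]

theorem b6_hK (γ : SL(2, ℤ)) (a : AlgebraicClosure ℚ) :
    b6_act N γ (Theta N (algebraMap (AlgebraicClosure ℚ) ↥(modularFunctionFieldBar N) a))
      = Theta N (algebraMap (AlgebraicClosure ℚ) ↥(modularFunctionFieldBar N) a) := by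
  rw [b6_act_apply, Theta_algebraMap, modAut_constM]

theorem b6_modHolAut_jdHol_one (γ : SL(2, ℤ)) :
    modHolAut N γ (jdHol N 1 (one_dvd N)) = jdHol N 1 (one_dvd N) := by
  apply Subtype.ext
  funext τ
  rw [modHolAut_apply, b6_jdHol_one_apply, b6_jdHol_one_apply, jC_smul]

theorem b6_hxinv (γ : SL(2, ℤ)) :
    b6_act N γ (Theta N (jBar N)) = Theta N (jBar N) := by
  rw [b6_act_apply, b6_Theta_jBar, modAut_algebraMap, b6_modHolAut_jdHol_one]

theorem b6_hH (γ : SL(2, ℤ)) (hγ : γ ∈ CongruenceSubgroup.Gamma0 N)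
    (f : ↥(modularFunctionFieldBar N)) :
    b6_act N γ (Theta N f) = Theta N f := by
  have h := ringHom_ext_FN N (((modAut N γ : ModMer N ≃+* ModMer N) : ModMer N →+* ModMer N).comp
    (Theta N)) (Theta N) (fun c => b6_hK N γ c) (fun d _ hd => by
      show modAut N γ (Theta N (JdBar N d hd)) = Theta N (JdBar N d hd)
      rw [Theta_JdBar, modAut_algebraMap, modHolAut_jdHol N d hd γ hγ])
  exact congrArg (fun s : ↥(modularFunctionFieldBar N) →+* ModMer N => s f) h

theorem b6_hinj (γ : SL(2, ℤ))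
    (h : ∀ f : ↥(modularFunctionFieldBar N), b6_act N γ (Theta N f) = Theta N f) :
    γ ∈ CongruenceSubgroup.Gamma0 N := by
  apply mem_Gamma0_of_modHolAut_jdHol N γ
  have h1 := h (JdBar N N dvd_rfl)
  rw [b6_act_apply, Theta_JdBar, modAut_algebraMap] at h1
  exact IsFractionRing.injective (ModHol N) (ModMer N) h1

instance b6_finite_Q0 : Finite (Q0 N) :=
  Subgroup.finite_quotient_of_finiteIndex

/-! ### Group theory in `SL(2,ℤ)` -/

theorem b6_neg_one_mem : (-1 : SL(2, ℤ)) ∈ CongruenceSubgroup.Gamma0 N := by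
  rw [CongruenceSubgroup.Gamma0_mem]
  simp

theorem b6_S_sq : ModularGroup.S ^ 2 = (-1 : SL(2, ℤ)) := by
  ext i j
  fin_cases i <;> fin_cases j <;>
    simp [pow_two, ModularGroup.S, Matrix.mul_apply, Fin.sum_univ_two]

theorem b6_ST_cube : (ModularGroup.S * ModularGroup.T) ^ 3 = (-1 : SL(2, ℤ)) := by
  ext i j
  fin_cases i <;> fin_cases j <;>
    simp [pow_succ, ModularGroup.S, ModularGroup.T, Matrix.mul_apply, Fin.sum_univ_two]

theorem b6_conj_neg_one_mem (γ : SL(2, ℤ)) :
    γ⁻¹ * (-1 : SL(2, ℤ)) * γ ∈ CongruenceSubgroup.Gamma0 N := by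
  have : γ⁻¹ * (-1 : SL(2, ℤ)) * γ = -1 := by
    rw [mul_neg, mul_one, neg_mul, inv_mul_cancel]
  rw [this]
  exact b6_neg_one_mem N

theorem b6_conj_T_pow_mem (γ : SL(2, ℤ)) :
    γ⁻¹ * ModularGroup.T ^ N * γ ∈ CongruenceSubgroup.Gamma0 N := by
  have h1 : ModularGroup.T ^ N ∈ CongruenceSubgroup.Gamma N := by
    have := CongruenceSubgroup.ModularGroup_T_pow_mem_Gamma (N : ℤ) (N : ℤ) dvd_rfl
    simpa using this
  have h2 : γ⁻¹ * ModularGroup.T ^ N * γ ∈ CongruenceSubgroup.Gamma N := by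
    have := (CongruenceSubgroup.Gamma_normal N).conj_mem _ h1 γ⁻¹
    simpa using this
  rw [CongruenceSubgroup.Gamma_mem] at h2
  rw [CongruenceSubgroup.Gamma0_mem]
  exact h2.2.2.1

/-! ### Local data -/

theorem b6_iotaC_injective : Function.Injective iotaC := iotaC.injective

/-- The holomorphic function `j - c`. -/
noncomputable def b6_jSub (c : ℂ) : ModHol N := jdHol N 1 (one_dvd N) - constHol N c

theorem b6_jSub_apply (c : ℂ) (τ : UpperHalfPlane) : (b6_jSub N c).1 τ = jC τ - c := by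
  show (jdHol N 1 (one_dvd N)).1 τ - c = jC τ - c
  rw [b6_jdHol_one_apply]

theorem b6_jSub_ne_zero (c : ℂ) : b6_jSub N c ≠ 0 := by
  intro h
  have h1 : (b6_jSub N c).1 UpperHalfPlane.I = 0 := by rw [h]; rfl
  have h2 : (b6_jSub N c).1 rhoH = 0 := by rw [h]; rfl
  rw [b6_jSub_apply, jC_I] at h1
  rw [b6_jSub_apply, jC_rhoH] at h2
  have : (1728 : ℂ) = 0 := by linear_combination h1 - h2
  norm_num at this

theorem b6_Theta_sub (c : AlgebraicClosure ℚ) :
    Theta N (jBar N - algebraMap (AlgebraicClosure ℚ) ↥(modularFunctionFieldBar N) c)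
      = algebraMap (ModHol N) (ModMer N) (b6_jSub N (iotaC c)) := by
  rw [map_sub, b6_Theta_jBar, Theta_algebraMap, b6_jSub, map_sub]
  rfl

theorem b6_ordAt_sub (c : AlgebraicClosure ℚ) (τ₀ : UpperHalfPlane) (n : ℕ)
    (h : analyticOrderAt (fun z : ℂ => jC (UpperHalfPlane.ofComplex z) - iotaC c) (τ₀ : ℂ) = n) :
    ordAt N τ₀ (Theta N (jBar N - algebraMap (AlgebraicClosure ℚ) ↥(modularFunctionFieldBar N) c))
      = WithZero.exp (-(n : ℤ)) := by
  rw [b6_Theta_sub, ordAt_algebraMap N τ₀ _ (b6_jSub_ne_zero N _)]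
  have hfun : (fun z : ℂ => (b6_jSub N (iotaC c)).1 (UpperHalfPlane.ofComplex z))
      = fun z : ℂ => jC (UpperHalfPlane.ofComplex z) - iotaC c := by
    funext z
    rw [b6_jSub_apply]
  rw [hfun, analyticOrderNatAt, h]
  simp

theorem b6_iotaC_ofNat (n : ℕ) [n.AtLeastTwo] :
    iotaC (OfNat.ofNat n : AlgebraicClosure ℚ) = (OfNat.ofNat n : ℂ) :=
  map_ofNat iotaC n

theorem b6_numOrbits_one {G : Type*} [Group G] (X : Type*) [MulAction G X] :
    numOrbits X (1 : G) = Nat.card X := by
  unfold numOrbits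
  apply Nat.card_congr
  refine Equiv.ofBijective (fun q => Quotient.liftOn' q id ?_) ⟨?_, ?_⟩
  · rintro a b ⟨⟨g, hg⟩, rfl⟩
    rw [Subgroup.zpowers_one_eq_bot, Subgroup.mem_bot] at hg
    subst hg
    show (1 : G) • b = b
    exact one_smul G b
  · intro q q' h
    induction q using Quotient.inductionOn' with
    | h a =>
    induction q' using Quotient.inductionOn' with
    | h b =>
    have : a = b := h
    rw [this]
  · intro a
    exact ⟨Quotient.mk'' a, rfl⟩

/-! ### The skeleton statements -/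

/-- PART B: `[F : K(j)] = [SL(2,ℤ) : Γ₀(N)]`. -/
theorem finrank_jBar :
    Module.finrank (AlgebraicClosure ℚ)⟮jBar N⟯ ↥(modularFunctionFieldBar N)
      = Nat.card (Q0 N) := by
  haveI := finiteDimensional_jBar N
  exact le_antisymm (finrank_jBar_le N)
    (B4Glue.card_quotient_le_finrank (jBar N) (CongruenceSubgroup.Gamma0 N) (b6_act N) (Theta N)
      (b6_hH N) (b6_hinj N) (b6_hK N) (b6_hxinv N))

/-- PART B (via PART P at `τ = i`). -/
theorem card_placesOver_1728 :
    Nat.card (placesOver (jBar N) (1728 : AlgebraicClosure ℚ))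
      = numOrbits (Q0 N) ModularGroup.S := by
  haveI := finiteDimensional_jBar N
  refine B4Glue.card_placesOver_eq_numOrbits_of_action (jBar N) (jBar_transcendental N)
    (1728 : AlgebraicClosure ℚ) (ordAt N UpperHalfPlane.I) (CongruenceSubgroup.Gamma0 N)
    (finrank_jBar N).symm (b6_act N) (Theta N) (b6_hH N) (b6_hinj N) (b6_hK N) (b6_hxinv N)
    2 (by norm_num) ?_ ModularGroup.S ?_ ?_ ?_
  · have h := b6_ordAt_sub N (1728 : AlgebraicClosure ℚ) UpperHalfPlane.I 2 (by
      rw [b6_iotaC_ofNat]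
      exact_mod_cast analyticOrderAt_jC_sub_1728 UpperHalfPlane.I jC_I)
    exact_mod_cast h
  · intro γ
    rw [b6_S_sq]
    exact b6_conj_neg_one_mem N γ
  · intro y
    rw [b6_act_apply, ordAt_modAut]
    congr 2
    rw [inv_smul_eq_iff, S_smul_I]
  · intro k hk hkm y hy hinv
    have hk2 : k ≤ 2 := Nat.le_of_dvd (by norm_num) hkm
    interval_cases k
    · rw [pow_one, b6_act_apply] at hinv
      simpa using two_dvd_log_ordAt_I N y hy hinv
    · simp

/-- PART B (via PART P at `τ = ρ`). -/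
theorem card_placesOver_zero :
    Nat.card (placesOver (jBar N) (0 : AlgebraicClosure ℚ))
      = numOrbits (Q0 N) (ModularGroup.S * ModularGroup.T) := by
  haveI := finiteDimensional_jBar N
  refine B4Glue.card_placesOver_eq_numOrbits_of_action (jBar N) (jBar_transcendental N)
    (0 : AlgebraicClosure ℚ) (ordAt N rhoH) (CongruenceSubgroup.Gamma0 N)
    (finrank_jBar N).symm (b6_act N) (Theta N) (b6_hH N) (b6_hinj N) (b6_hK N) (b6_hxinv N)
    3 (by norm_num) ?_ (ModularGroup.S * ModularGroup.T) ?_ ?_ ?_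
  · have h := b6_ordAt_sub N (0 : AlgebraicClosure ℚ) rhoH 3 (by
      rw [map_zero]
      simp only [sub_zero]
      exact_mod_cast analyticOrderAt_jC_zero rhoH jC_rhoH)
    exact_mod_cast h
  · intro γ
    rw [b6_ST_cube]
    exact b6_conj_neg_one_mem N γ
  · intro y
    rw [b6_act_apply, ordAt_modAut]
    congr 2
    rw [inv_smul_eq_iff, ST_smul_rhoH]
  · intro k hk hkm y hy hinv
    have hk3 : k ≤ 3 := Nat.le_of_dvd (by norm_num) hkm
    interval_cases k
    · rw [pow_one, b6_act_apply] at hinv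
      simpa using three_dvd_log_ordAt_rhoH N y hy hinv
    · norm_num at hkm
    · simp

/-- PART B (via PART P at the cusp `∞`, for `x = j⁻¹`, `c = 0`). -/
theorem card_placesOverInfty :
    Nat.card (placesOverInfty (K := AlgebraicClosure ℚ) (jBar N))
      = numOrbits (Q0 N) ModularGroup.T := by
  haveI := finiteDimensional_jBar N
  refine B4Glue.card_placesOverInfty_eq_numOrbits_of_action (jBar N) (jBar_transcendental N)
    (ordInf N) (CongruenceSubgroup.Gamma0 N)
    (finrank_jBar N).symm (b6_act N) (Theta N) (b6_hH N) (b6_hinj N) (b6_hK N) (b6_hxinv N)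
    N (Nat.pos_of_ne_zero (NeZero.ne N)) ?_ ModularGroup.T ?_ ?_ ?_
  · rw [b6_Theta_jBar]
    have hN : (N : ℂ) ≠ 0 := Nat.cast_ne_zero.mpr (NeZero.ne N)
    have h := ordInf_algebraMap N (jdHol N 1 (one_dvd N)) (-(N : ℤ)) 1 one_ne_zero (by
      have hfun : (fun τ : UpperHalfPlane => (jdHol N 1 (one_dvd N)).1 τ *
          Complex.exp (-(2 * Real.pi * Complex.I * ((-(N : ℤ) : ℤ) : ℂ) * τ / N)))
          = fun τ : UpperHalfPlane => jC τ * Complex.exp (2 * Real.pi * Complex.I * τ) := by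
        funext τ
        rw [b6_jdHol_one_apply]
        congr 2
        push_cast
        field_simp
      rw [hfun]
      exact jC_mul_q_tendsto)
    rw [h, neg_neg]
  · intro γ
    exact b6_conj_T_pow_mem N γ
  · intro y
    rw [b6_act_apply, ordInf_modAut_T]
  · intro k hk hkN y hy hinv
    rw [b6_act_apply] at hinv
    exact dvd_log_ordInf N y hy k hkN hinv

/-- PART B (via PART P at a point `τ₀` with `j τ₀ = c`, `m = 1`, `g = 1`). -/
theorem ord_eq_one_of_ne (c : AlgebraicClosure ℚ) (h0 : c ≠ 0) (h1 : c ≠ 1728)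
    (v : Place (AlgebraicClosure ℚ) ↥(modularFunctionFieldBar N))
    (hv : 0 < v.ord (jBar N - algebraMap _ _ c)) :
    v.ord (jBar N - algebraMap _ _ c) = 1 := by
  classical
  haveI := finiteDimensional_jBar N
  have hx := jBar_transcendental N
  obtain ⟨τ₀, hτ₀⟩ := jC_surjective (iotaC c)
  have hc0 : jC τ₀ ≠ 0 := by
    rw [hτ₀]
    intro h
    exact h0 (b6_iotaC_injective (by rw [h, map_zero]))
  have hc1 : jC τ₀ ≠ 1728 := by
    rw [hτ₀]
    intro h
    exact h1 (b6_iotaC_injective (by rw [h, b6_iotaC_ofNat]))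
  have hcard : Nat.card (placesOver (jBar N) c) = Nat.card (Q0 N) := by
    rw [← b6_numOrbits_one (G := SL(2, ℤ)) (Q0 N)]
    refine B4Glue.card_placesOver_eq_numOrbits_of_action (jBar N) hx
      c (ordAt N τ₀) (CongruenceSubgroup.Gamma0 N)
      (finrank_jBar N).symm (b6_act N) (Theta N) (b6_hH N) (b6_hinj N) (b6_hK N) (b6_hxinv N)
      1 (by norm_num) ?_ 1 ?_ ?_ ?_
    · have h := b6_ordAt_sub N c τ₀ 1 (by
        rw [← hτ₀]
        exact_mod_cast analyticOrderAt_jC_sub τ₀ hc0 hc1)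
      exact_mod_cast h
    · intro γ
      simp
    · intro y
      simp
    · intro k hk hkm y hy hinv
      have : k = 1 := Nat.dvd_one.mp hkm
      subst this
      simp
  have hfin := finite_placesOver (jBar N) hx c
  have hsum := sum_ord_placesOver (jBar N) hx c
  refine B4Glue.ord_eq_one_of_card_eq (jBar N) c (Nat.card (Q0 N)) ⟨hfin.toFinset, ?_, ?_⟩
    hcard v hv
  · intro u
    rw [Set.Finite.mem_toFinset]
    rfl
  · rw [finsum_mem_eq_finite_toFinset_sum _ hfin] at hsum
    rw [hsum, finrank_jBar]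

end Fermat.Agent.S24
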