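import Fermat.Agent.S24.ModField
import Fermat.Agent.S24.H9157.JGrowth

/-!
# S24 skeleton, PART B3: the functions `τ ↦ j(dτ)`, `d ∣ N`, as elements of `ModHol N`.

INTERFACE FILE: definitions FIXED; replace each `sorry`.  Mathlib only (no Prelude).

All three statements are proved (helper9157) from the Mathlib-only file `H9157/JGrowth.lean`
(Hermite reduction `j(d·γτ) = j((gτ+B)/D)`, `j·q → 1` at `i∞`); no B1 interface statement is used.
-/

set_option autoImplicit false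

open UpperHalfPlane Complex Filter
open scoped MatrixGroups Manifold Topology Real

namespace Fermat.Agent.S24

noncomputable section

/-- `τ ↦ dτ` on the upper half plane (identity for the junk value `d = 0`). -/
def dmul (d : ℕ) (τ : ℍ) : ℍ :=
  if h : 0 < d then ⟨(d : ℂ) * τ, by
    have hd : (0 : ℝ) < d := by exact_mod_cast h
    simpa using mul_pos hd τ.im_pos⟩
  else τ

theorem coe_dmul {d : ℕ} (hd : 0 < d) (τ : ℍ) : ((dmul d τ : ℍ) : ℂ) = (d : ℂ) * τ := by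
  simp [dmul, hd]

/-! ### Auxiliary lemmas (helper9157) -/

theorem h9157_jC_eq_jj : jC = H9157.jj := rfl

theorem h9157_dmul_eq_scale {d : ℕ} (hd : 0 < d) (τ : ℍ) : dmul d τ = H9157.scale d hd τ := by
  apply UpperHalfPlane.ext
  rw [coe_dmul hd]
  rfl

theorem h9157_jj_vadd (n : ℤ) (τ : ℍ) : H9157.jj ((n : ℝ) +ᵥ τ) = H9157.jj τ := by
  rw [← UpperHalfPlane.modular_T_zpow_smul τ n, H9157.jj_smul]

theorem h9157_mdiff_jC_dmul (d : ℕ) (hd : 0 < d) : MDiff (fun τ => jC (dmul d τ)) := by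
  rw [UpperHalfPlane.mdifferentiable_iff]
  have hj : DifferentiableOn ℂ (jC ∘ ofComplex) {z | 0 < z.im} :=
    UpperHalfPlane.mdifferentiable_iff.mp (h9157_jC_eq_jj ▸ H9157.mdiff_jj)
  have hmaps : Set.MapsTo (fun z : ℂ => (d : ℂ) * z) {z | 0 < z.im} {z | 0 < z.im} := by
    intro z hz
    have hd' : (0 : ℝ) < d := by exact_mod_cast hd
    simpa using mul_pos hd' hz
  have h2 : DifferentiableOn ℂ (fun z : ℂ => (jC ∘ ofComplex) ((d : ℂ) * z)) {z | 0 < z.im} :=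
    hj.comp ((differentiable_id.const_mul (d : ℂ)).differentiableOn) hmaps
  refine h2.congr (fun z hz => ?_)
  simp only [Function.comp_apply]
  congr 1
  apply UpperHalfPlane.ext
  rw [coe_dmul hd, ofComplex_apply_of_im_pos hz, ofComplex_apply_of_im_pos (hmaps hz)]

theorem h9157_aff_vadd (g D : ℕ) (B : ℤ) (hg : 0 < g) (hD : 0 < D) (k : ℕ) (τ : ℍ) :
    H9157.aff g D B hg hD (((D * k : ℕ) : ℝ) +ᵥ τ)
      = (((g * k : ℕ) : ℤ) : ℝ) +ᵥ H9157.aff g D B hg hD τ := by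
  apply UpperHalfPlane.ext
  have hD' : (D : ℂ) ≠ 0 := by exact_mod_cast hD.ne'
  simp only [H9157.coe_aff, UpperHalfPlane.coe_vadd]
  push_cast
  field_simp
  ring

/-- (L1) `τ ↦ j(dτ)` is a holomorphic modular function of level `Γ(N)` when `d ∣ N`:
holomorphic; every translate `τ ↦ j(d·γτ)` is `N`-periodic (`γ T^N γ⁻¹ ∈ Γ(N)` and `j(d·)` is
`Γ₀(N)`-invariant); moderate growth from `jC_global_bound`. -/
theorem isModHol_jC_dmul (N d : ℕ) [NeZero N] (hd : d ∣ N) :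
    IsModHol N (fun τ => jC (dmul d τ)) := by
  have hd0 : 0 < d := Nat.pos_of_dvd_of_pos hd (NeZero.pos N)
  refine ⟨h9157_mdiff_jC_dmul d hd0, fun γ => ?_⟩
  obtain ⟨g, D, B, hg, hD, hgD, -, h⟩ := H9157.exists_jj_scale_smul_eq d hd0 γ
  have hfun : ∀ τ, jC (dmul d (γ • τ)) = H9157.jj (H9157.aff g D B hg hD τ) := fun τ => by
    rw [h9157_dmul_eq_scale hd0]
    exact h τ
  obtain ⟨k, hk⟩ : D ∣ N := Dvd.dvd.trans ⟨g, by rw [← hgD]; ring⟩ hd
  refine ⟨fun τ => ?_, ?_⟩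
  · show jC (dmul d (γ • ((N : ℝ) +ᵥ τ))) = jC (dmul d (γ • τ))
    rw [hfun, hfun, hk, h9157_aff_vadd, h9157_jj_vadd]
  · have ht := H9157.tendsto_norm_jj_aff g D B hg hD
    have hev : ∀ᶠ τ : ℍ in atImInfty,
        ‖H9157.jj (H9157.aff g D B hg hD τ)‖ * Real.exp (-2 * π * ((g : ℝ) / D) * τ.im) ≤ 2 :=
      ht.eventually (eventually_le_nhds (by norm_num : (1 : ℝ) < 2))
    obtain ⟨A, hA⟩ := (UpperHalfPlane.atImInfty_mem _).mp hev
    refine ⟨2, A, 2 * π * ((g : ℝ) / D), fun τ hτ => ?_⟩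
    have h3 := hA τ hτ
    simp only [Set.mem_ofPred_eq] at h3
    show ‖jC (dmul d (γ • τ))‖ ≤ _
    rw [hfun]
    have e1 : Real.exp (-2 * π * ((g : ℝ) / D) * τ.im)
        = (Real.exp (2 * π * ((g : ℝ) / D) * τ.im))⁻¹ := by
      rw [← Real.exp_neg]
      congr 1
      ring
    rw [e1, ← div_eq_mul_inv, div_le_iff₀ (Real.exp_pos _)] at h3
    exact h3

/-- The function `τ ↦ j(dτ)` as an element of `ModHol N`. -/
def jdHol (N d : ℕ) [NeZero N] (hd : d ∣ N) : ModHol N :=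
  ⟨fun τ => jC (dmul d τ), isModHol_jC_dmul N d hd⟩

@[simp]
theorem jdHol_apply (N d : ℕ) [NeZero N] (hd : d ∣ N) (τ : ℍ) :
    (jdHol N d hd).1 τ = jC (dmul d τ) := rfl

/-- (L2) `τ ↦ j(dτ)` is invariant under `Γ₀(N)` (`d ∣ N`). -/
theorem modHolAut_jdHol (N d : ℕ) [NeZero N] (hd : d ∣ N) (γ : SL(2, ℤ))
    (hγ : γ ∈ CongruenceSubgroup.Gamma0 N) :
    modHolAut N γ (jdHol N d hd) = jdHol N d hd := by
  have hd0 : 0 < d := Nat.pos_of_dvd_of_pos hd (NeZero.pos N)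
  apply Subtype.ext
  funext τ
  show jC (dmul d (γ⁻¹ • τ)) = jC (dmul d τ)
  obtain ⟨g, D, B, hg, hD, hgD, hgcd, h⟩ := H9157.exists_jj_scale_smul_eq d hd0 γ⁻¹
  have hγ' : γ⁻¹ ∈ CongruenceSubgroup.Gamma0 N := inv_mem hγ
  have hdvd : (d : ℤ) ∣ (γ⁻¹ 1 0) := by
    rw [CongruenceSubgroup.Gamma0_mem, ZMod.intCast_zmod_eq_zero_iff_dvd] at hγ'
    exact (Int.natCast_dvd_natCast.mpr hd).trans hγ'
  have hgd : g = d := by
    rw [hgcd]
    exact Int.gcd_eq_natAbs_right hdvd |>.trans (by simp)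
  have hD1 : D = 1 := by
    rw [hgd] at hgD
    exact Nat.eq_of_mul_eq_mul_left hd0 (by rw [hgD, mul_one])
  subst hD1
  rw [h9157_jC_eq_jj, h9157_dmul_eq_scale hd0, h τ, h9157_dmul_eq_scale hd0]
  have e : H9157.aff g 1 B hg hD τ = (B : ℝ) +ᵥ H9157.scale d hd0 τ := by
    apply UpperHalfPlane.ext
    simp only [H9157.coe_aff, UpperHalfPlane.coe_vadd, H9157.coe_scale, hgd]
    push_cast
    ring
  rw [e, h9157_jj_vadd]

/-- (L3) Conversely `τ ↦ j(Nτ)` is invariant under `γ` only if `γ ∈ Γ₀(N)`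
(compare growth at `i∞`: `jC_global_bound`, `jC_lower_bound`). -/
theorem mem_Gamma0_of_modHolAut_jdHol (N : ℕ) [NeZero N] (γ : SL(2, ℤ))
    (h : modHolAut N γ (jdHol N N dvd_rfl) = jdHol N N dvd_rfl) :
    γ ∈ CongruenceSubgroup.Gamma0 N := by
  have hN : 0 < N := NeZero.pos N
  have h1 : γ⁻¹ ∈ CongruenceSubgroup.Gamma0 N := by
    apply H9157.mem_Gamma0_of_jj_scale_smul_eq N hN
    intro τ
    have h2 := congrArg (fun f : ModHol N => f.1 τ) h
    simp only [modHolAut_apply, jdHol_apply] at h2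
    rw [h9157_dmul_eq_scale hN, h9157_dmul_eq_scale hN] at h2
    exact h2
  simpa using inv_mem h1

end

end Fermat.Agent.S24
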