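/-
S24 helper module (helper6564): "kernel formal = kernel analytic".
A polynomial relation between the formal series `j(q^d)` (Prelude `qExpand d jq`, coefficients
extended along `ι : L →+* ℂ`) holds if and only if the corresponding relation between the
analytic functions `τ ↦ j(dτ)` holds on the upper half plane.
Imports: Mathlib, Prelude definition modules, and `JqBridge`.
-/
import Mathlib
import Fermat.Prelude.Def_ModularCurve_X0
import Fermat.Prelude.Def_ModularCurve_LaurentCoeff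
import Fermat.Prelude.Thm_ModularCurve_coeffMap_qExpand
import Fermat.Agent.S24.JqBridge

set_option autoImplicit false

noncomputable section

namespace Fermat.Agent.S24.JqB

open Filter Topology Metric

/-! ### Convergent power series: Cauchy products -/

/-- Absolute convergence of a formal power series on the punctured unit disc. -/
def PConv (p : PowerSeries ℂ) : Prop :=
  ∀ q : ℂ, q ≠ 0 → ‖q‖ < 1 → Summable fun n : ℕ => ‖PowerSeries.coeff n p * q ^ n‖

/-- Evaluation of a formal power series. -/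
def pEval (p : PowerSeries ℂ) (q : ℂ) : ℂ := ∑' n : ℕ, PowerSeries.coeff n p * q ^ n

theorem coeff_mul_mul_pow (p p' : PowerSeries ℂ) (q : ℂ) (n : ℕ) :
    PowerSeries.coeff n (p * p') * q ^ n =
      ∑ kl ∈ Finset.HasAntidiagonal.antidiagonal n,
        (PowerSeries.coeff kl.1 p * q ^ kl.1) * (PowerSeries.coeff kl.2 p' * q ^ kl.2) := by
  rw [PowerSeries.coeff_mul, Finset.sum_mul]
  refine Finset.sum_congr rfl fun kl hkl => ?_
  rw [← Finset.HasAntidiagonal.mem_antidiagonal.mp hkl, pow_add]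
  ring

theorem PConv.mul {p p' : PowerSeries ℂ} (h : PConv p) (h' : PConv p') : PConv (p * p') := by
  intro q hq0 hq1
  have := summable_norm_sum_mul_antidiagonal_of_summable_norm (h q hq0 hq1) (h' q hq0 hq1)
  simpa only [coeff_mul_mul_pow] using this

theorem pEval_mul {p p' : PowerSeries ℂ} (h : PConv p) (h' : PConv p') {q : ℂ} (hq0 : q ≠ 0)
    (hq1 : ‖q‖ < 1) : pEval (p * p') q = pEval p q * pEval p' q := by
  have := tsum_mul_tsum_eq_tsum_sum_antidiagonal_of_summable_norm (h q hq0 hq1) (h' q hq0 hq1)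
  rw [pEval, pEval, pEval, this]
  exact tsum_congr fun n => coeff_mul_mul_pow p p' q n

/-! ### Convergent Laurent series -/

/-- Absolute convergence of a formal Laurent series on the punctured unit disc. -/
def LConv (x : LaurentSeries ℂ) : Prop :=
  ∀ q : ℂ, q ≠ 0 → ‖q‖ < 1 → Summable fun k : ℤ => ‖x.coeff k * q ^ k‖

/-- Evaluation of a formal Laurent series. -/
def lEval (x : LaurentSeries ℂ) (q : ℂ) : ℂ := ∑' k : ℤ, x.coeff k * q ^ k

theorem coeff_rep_add (n : ℤ) (p : PowerSeries ℂ) (m : ℕ) :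
    (HahnSeries.single n (1 : ℂ) * HahnSeries.ofPowerSeries ℤ ℂ p).coeff (n + m) = PowerSeries.coeff m p := by
  rw [HahnSeries.coeff_single_mul, one_mul, add_sub_cancel_left, HahnSeries.ofPowerSeries_apply_coeff]

theorem coeff_rep_of_lt (n : ℤ) (p : PowerSeries ℂ) {k : ℤ} (hk : k < n) :
    (HahnSeries.single n (1 : ℂ) * HahnSeries.ofPowerSeries ℤ ℂ p).coeff k = 0 := by
  rw [HahnSeries.coeff_single_mul, one_mul]
  exact ModularCurve.ofPowerSeries_coeff_of_neg _ (by omega)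

theorem rep_injective (n : ℤ) : Function.Injective fun m : ℕ => n + (m : ℤ) := fun a b hab => by
  have : (a : ℤ) = b := by simpa using hab
  exact_mod_cast this

theorem rep_term_zero (n : ℤ) (p : PowerSeries ℂ) (q : ℂ) (k : ℤ)
    (hk : k ∉ Set.range fun m : ℕ => n + (m : ℤ)) :
    (HahnSeries.single n (1 : ℂ) * HahnSeries.ofPowerSeries ℤ ℂ p).coeff k * q ^ k = 0 := by
  have hk' : k < n := by
    by_contra hcon
    exact hk ⟨(k - n).toNat, by
      have : ((k - n).toNat : ℤ) = k - n := Int.toNat_of_nonneg (by omega)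
      simp only [this]; ring⟩
  rw [coeff_rep_of_lt n p hk', zero_mul]

theorem rep_term (n : ℤ) (p : PowerSeries ℂ) {q : ℂ} (hq0 : q ≠ 0) (m : ℕ) :
    (HahnSeries.single n (1 : ℂ) * HahnSeries.ofPowerSeries ℤ ℂ p).coeff (n + m) * q ^ (n + (m : ℤ)) =
      q ^ n * (PowerSeries.coeff m p * q ^ m) := by
  rw [coeff_rep_add, zpow_add₀ hq0, zpow_natCast]
  ring

theorem summable_rep_iff (n : ℤ) (p : PowerSeries ℂ) {q : ℂ} (hq0 : q ≠ 0) :
    (Summable fun k : ℤ => ‖(HahnSeries.single n (1 : ℂ) * HahnSeries.ofPowerSeries ℤ ℂ p).coeff k * q ^ k‖) ↔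
      Summable fun m : ℕ => ‖PowerSeries.coeff m p * q ^ m‖ := by
  have hzero : ∀ k : ℤ, k ∉ Set.range (fun m : ℕ => n + (m : ℤ)) →
      ‖(HahnSeries.single n (1 : ℂ) * HahnSeries.ofPowerSeries ℤ ℂ p).coeff k * q ^ k‖ = 0 := fun k hk => by
    rw [rep_term_zero n p q k hk, norm_zero]
  rw [← (rep_injective n).summable_iff hzero]
  have e : ((fun k : ℤ => ‖(HahnSeries.single n (1 : ℂ) * HahnSeries.ofPowerSeries ℤ ℂ p).coeff k * q ^ k‖) ∘
      fun m : ℕ => n + (m : ℤ)) = fun m : ℕ => ‖q ^ n‖ * ‖PowerSeries.coeff m p * q ^ m‖ := by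
    funext m
    simp only [Function.comp_apply]
    rw [rep_term n p hq0, norm_mul]
  rw [e]
  exact summable_mul_left_iff (norm_ne_zero_iff.mpr (zpow_ne_zero n hq0))

theorem LConv_rep_iff (n : ℤ) (p : PowerSeries ℂ) :
    LConv (HahnSeries.single n (1 : ℂ) * HahnSeries.ofPowerSeries ℤ ℂ p) ↔ PConv p :=
  forall_congr' fun _ => forall_congr' fun hq0 => forall_congr' fun _ => summable_rep_iff n p hq0

theorem lEval_rep (n : ℤ) (p : PowerSeries ℂ) {q : ℂ} (hq0 : q ≠ 0) :
    lEval (HahnSeries.single n (1 : ℂ) * HahnSeries.ofPowerSeries ℤ ℂ p) q = q ^ n * pEval p q := by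
  rw [lEval, pEval, ← tsum_mul_left]
  rw [← (rep_injective n).tsum_eq (f := fun k : ℤ =>
    (HahnSeries.single n (1 : ℂ) * HahnSeries.ofPowerSeries ℤ ℂ p).coeff k * q ^ k)]
  · exact tsum_congr fun m => rep_term n p hq0 m
  · intro k hk
    by_contra hcon
    exact hk (rep_term_zero n p q k hcon)

theorem LConv.mul {x y : LaurentSeries ℂ} (hx : LConv x) (hy : LConv y) : LConv (x * y) := by
  rw [← x.single_order_mul_powerSeriesPart] at hx ⊢
  rw [← y.single_order_mul_powerSeriesPart] at hy ⊢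
  have e : (HahnSeries.single x.order (1 : ℂ) * HahnSeries.ofPowerSeries ℤ ℂ x.powerSeriesPart) *
      (HahnSeries.single y.order (1 : ℂ) * HahnSeries.ofPowerSeries ℤ ℂ y.powerSeriesPart) =
      HahnSeries.single (x.order + y.order) (1 : ℂ) *
        HahnSeries.ofPowerSeries ℤ ℂ (x.powerSeriesPart * y.powerSeriesPart) := by
    rw [map_mul, mul_mul_mul_comm, HahnSeries.single_mul_single, one_mul]
  rw [e, LConv_rep_iff]
  exact ((LConv_rep_iff _ _).mp hx).mul ((LConv_rep_iff _ _).mp hy)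

theorem lEval_mul {x y : LaurentSeries ℂ} (hx : LConv x) (hy : LConv y) {q : ℂ} (hq0 : q ≠ 0)
    (hq1 : ‖q‖ < 1) : lEval (x * y) q = lEval x q * lEval y q := by
  rw [← x.single_order_mul_powerSeriesPart] at hx ⊢
  rw [← y.single_order_mul_powerSeriesPart] at hy ⊢
  have e : (HahnSeries.single x.order (1 : ℂ) * HahnSeries.ofPowerSeries ℤ ℂ x.powerSeriesPart) *
      (HahnSeries.single y.order (1 : ℂ) * HahnSeries.ofPowerSeries ℤ ℂ y.powerSeriesPart) =
      HahnSeries.single (x.order + y.order) (1 : ℂ) *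
        HahnSeries.ofPowerSeries ℤ ℂ (x.powerSeriesPart * y.powerSeriesPart) := by
    rw [map_mul, mul_mul_mul_comm, HahnSeries.single_mul_single, one_mul]
  rw [e, lEval_rep _ _ hq0, lEval_rep _ _ hq0, lEval_rep _ _ hq0,
    pEval_mul ((LConv_rep_iff _ _).mp hx) ((LConv_rep_iff _ _).mp hy) hq0 hq1, zpow_add₀ hq0]
  ring

theorem LConv.add {x y : LaurentSeries ℂ} (hx : LConv x) (hy : LConv y) : LConv (x + y) := by
  intro q hq0 hq1
  refine Summable.of_nonneg_of_le (fun _ => norm_nonneg _) (fun k => ?_)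
    ((hx q hq0 hq1).add (hy q hq0 hq1))
  rw [HahnSeries.coeff_add, add_mul]
  exact norm_add_le _ _

theorem lEval_add {x y : LaurentSeries ℂ} (hx : LConv x) (hy : LConv y) {q : ℂ} (hq0 : q ≠ 0)
    (hq1 : ‖q‖ < 1) : lEval (x + y) q = lEval x q + lEval y q := by
  rw [lEval, lEval, lEval, ← (hx q hq0 hq1).of_norm.tsum_add (hy q hq0 hq1).of_norm]
  exact tsum_congr fun k => by rw [HahnSeries.coeff_add, add_mul]

theorem LConv_single_zero (c : ℂ) : LConv (HahnSeries.single (0 : ℤ) c) := by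
  intro q _ _
  refine summable_of_ne_finset_zero (s := {0}) fun k hk => ?_
  rw [HahnSeries.coeff_single_of_ne (by simpa using hk), zero_mul, norm_zero]

theorem lEval_single_zero (c : ℂ) (q : ℂ) : lEval (HahnSeries.single (0 : ℤ) c) q = c := by
  rw [lEval, tsum_eq_single (0 : ℤ) fun k hk => by rw [HahnSeries.coeff_single_of_ne hk, zero_mul]]
  simp

theorem lEval_zero (q : ℂ) : lEval 0 q = 0 := by
  simp [lEval]

/-! ### Compatibility with `qExpand` -/

theorem LConv_qExpand (d : ℕ) [NeZero d] {x : LaurentSeries ℂ} (hx : LConv x) :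
    LConv (ModularCurve.qExpand ℂ d x) := by
  intro q hq0 hq1
  have hd : (d : ℤ) ≠ 0 := by exact_mod_cast NeZero.ne d
  have hinj : Function.Injective fun k : ℤ => (d : ℤ) * k := mul_right_injective₀ hd
  have hzero : ∀ k : ℤ, k ∉ Set.range (fun k : ℤ => (d : ℤ) * k) →
      ‖(ModularCurve.qExpand ℂ d x).coeff k * q ^ k‖ = 0 := fun k hk => by
    rw [ModularCurve.qExpand_coeff_of_not_dvd d x (fun ⟨m, hm⟩ => hk ⟨m, hm.symm⟩), zero_mul,
      norm_zero]
  rw [← hinj.summable_iff hzero]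
  have hqd0 : q ^ d ≠ 0 := pow_ne_zero _ hq0
  have hqd1 : ‖q ^ d‖ < 1 := by
    rw [norm_pow]
    exact pow_lt_one₀ (norm_nonneg _) hq1 (NeZero.ne d)
  refine (hx (q ^ d) hqd0 hqd1).congr fun k => ?_
  simp only [Function.comp_apply]
  rw [ModularCurve.qExpand_coeff_mul, zpow_mul, zpow_natCast]

theorem lEval_qExpand (d : ℕ) [NeZero d] (x : LaurentSeries ℂ) (q : ℂ) :
    lEval (ModularCurve.qExpand ℂ d x) q = lEval x (q ^ d) := by
  have hd : (d : ℤ) ≠ 0 := by exact_mod_cast NeZero.ne d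
  have hinj : Function.Injective fun k : ℤ => (d : ℤ) * k := mul_right_injective₀ hd
  rw [lEval, lEval,
    ← hinj.tsum_eq (f := fun k : ℤ => (ModularCurve.qExpand ℂ d x).coeff k * q ^ k)]
  · exact tsum_congr fun k => by rw [ModularCurve.qExpand_coeff_mul, zpow_mul, zpow_natCast]
  · intro k hk
    by_contra hcon
    apply hk
    show (ModularCurve.qExpand ℂ d x).coeff k * q ^ k = 0
    rw [ModularCurve.qExpand_coeff_of_not_dvd d x (fun ⟨m, hm⟩ => hcon ⟨m, hm.symm⟩), zero_mul]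

/-! ### The series `jq` with complex coefficients -/

/-- The formal `j` with complex coefficients. -/
def jqC : LaurentSeries ℂ := ModularCurve.coeffMap (algebraMap ℚ ℂ) ModularCurve.jq

theorem jqC_eq_rep : jqC = HahnSeries.single (-1 : ℤ) (1 : ℂ) *
    HahnSeries.ofPowerSeries ℤ ℂ (PowerSeries.map (Int.castRingHom ℂ) ModularCurve.jNum) := by
  ext k
  rw [jqC, ModularCurve.coeffMap_coeff]
  by_cases hk : k < -1
  · rw [ModularCurve.coeff_jq_of_lt hk, coeff_rep_of_lt _ _ hk, map_zero]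
  · obtain ⟨m, rfl⟩ : ∃ m : ℕ, k = (m : ℤ) - 1 := ⟨(k + 1).toNat, by omega⟩
    rw [jq_coeff_natCast_sub_one, show (m : ℤ) - 1 = -1 + m by ring, coeff_rep_add,
      PowerSeries.coeff_map]
    simp

theorem PConv_jNum : PConv (PowerSeries.map (Int.castRingHom ℂ) ModularCurve.jNum) := by
  intro q _ hq1
  refine (summable_norm_jNum (norm_nonneg q) hq1).congr fun m => ?_
  rw [PowerSeries.coeff_map, eq_intCast, norm_mul, norm_pow]

theorem pEval_jNum {q : ℂ} (hq1 : ‖q‖ < 1) :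
    pEval (PowerSeries.map (Int.castRingHom ℂ) ModularCurve.jNum) q = jNumFun q := by
  rw [pEval, ← (hasSum_jNum hq1).tsum_eq]
  exact tsum_congr fun m => by rw [PowerSeries.coeff_map, eq_intCast]

theorem LConv_jqC : LConv jqC := by
  rw [jqC_eq_rep, LConv_rep_iff]
  exact PConv_jNum

/-- `j` as a function of the nome `q` (on the punctured unit disc). -/
def jOfQ (q : ℂ) : ℂ := jNumFun q / q

theorem lEval_jqC {q : ℂ} (hq0 : q ≠ 0) (hq1 : ‖q‖ < 1) : lEval jqC q = jOfQ q := by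
  rw [jqC_eq_rep, lEval_rep _ _ hq0, pEval_jNum hq1, jOfQ, zpow_neg_one, mul_comm,
    div_eq_mul_inv]

open UpperHalfPlane ModularForm
open scoped MatrixGroups

local notation "𝕢" => Function.Periodic.qParam

theorem jOfQ_qParam (τ : ℍ) : jOfQ (𝕢 1 τ) = E₄ τ ^ 3 / discriminant τ := by
  have hq0 : 𝕢 1 (τ : ℂ) ≠ 0 := Function.Periodic.qParam_ne_zero _
  rw [jOfQ, jNumFun_qParam]
  field_simp

/-! ### Injectivity of evaluation -/

theorem coeff_eq_zero_of_hasSum_qParam {c : ℕ → ℂ}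
    (h : ∀ τ : ℍ, HasSum (fun m : ℕ => c m * 𝕢 1 τ ^ m) 0) (m : ℕ) : c m = 0 := by
  have h1 := ModularFormClass.qExpansion_coeff_unique (c := c) one_pos one_mem_strictPeriods_SL
    (f := (0 : ModularForm 𝒮ℒ 4)) (by simpa using h) m
  rw [h1]
  have : ((0 : ModularForm 𝒮ℒ 4) : ℍ → ℂ) = 0 := rfl
  rw [this, qExpansion_zero]
  simp

theorem eq_zero_of_lEval_qParam {x : LaurentSeries ℂ} (hx : LConv x)
    (h : ∀ τ : ℍ, lEval x (𝕢 1 τ) = 0) : x = 0 := by
  obtain ⟨n, p, rfl⟩ : ∃ (n : ℤ) (p : PowerSeries ℂ),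
      x = HahnSeries.single n (1 : ℂ) * HahnSeries.ofPowerSeries ℤ ℂ p :=
    ⟨x.order, x.powerSeriesPart, x.single_order_mul_powerSeriesPart.symm⟩
  rw [LConv_rep_iff] at hx
  have hp : p = 0 := by
    ext m
    rw [map_zero]
    refine coeff_eq_zero_of_hasSum_qParam (c := fun m => PowerSeries.coeff m p) (fun τ => ?_) m
    have hq0 : 𝕢 1 (τ : ℂ) ≠ 0 := Function.Periodic.qParam_ne_zero _
    have hq1 : ‖𝕢 1 (τ : ℂ)‖ < 1 := Function.Periodic.norm_qParam_lt_one one_pos τ.im_pos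
    have h2 := h τ
    rw [lEval_rep _ _ hq0] at h2
    have h3 : pEval p (𝕢 1 τ) = 0 := by
      rcases mul_eq_zero.mp h2 with h4 | h4
      · exact absurd h4 (zpow_ne_zero _ hq0)
      · exact h4
    rw [← h3]
    exact (hx _ hq0 hq1).of_norm.hasSum
  rw [hp]
  simp

/-! ### The main theorem -/

section Main

variable {L : Type*} [Field L] [Algebra ℚ L] (ι : L →+* ℂ) {I : Type*} (d : I → ℕ)
  [∀ i, NeZero (d i)]

omit [Algebra ℚ L] in
theorem eval₂_qExpand_jqC (P : MvPolynomial I L) :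
    LConv (MvPolynomial.eval₂ ((HahnSeries.C : ℂ →+* LaurentSeries ℂ).comp ι)
        (fun i => ModularCurve.qExpand ℂ (d i) jqC) P) ∧
      ∀ q : ℂ, q ≠ 0 → ‖q‖ < 1 →
        lEval (MvPolynomial.eval₂ ((HahnSeries.C : ℂ →+* LaurentSeries ℂ).comp ι)
          (fun i => ModularCurve.qExpand ℂ (d i) jqC) P) q =
          MvPolynomial.eval₂ ι (fun i => jOfQ (q ^ d i)) P := by
  induction P using MvPolynomial.induction_on with
  | C a =>
    simp only [MvPolynomial.eval₂_C, RingHom.comp_apply, HahnSeries.C_apply]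
    exact ⟨LConv_single_zero _, fun q _ _ => lEval_single_zero _ q⟩
  | add p p' hp hp' =>
    rw [MvPolynomial.eval₂_add]
    refine ⟨hp.1.add hp'.1, fun q hq0 hq1 => ?_⟩
    rw [lEval_add hp.1 hp'.1 hq0 hq1, hp.2 q hq0 hq1, hp'.2 q hq0 hq1, MvPolynomial.eval₂_add]
  | mul_X p i hp =>
    rw [MvPolynomial.eval₂_mul, MvPolynomial.eval₂_X]
    have hi : LConv (ModularCurve.qExpand ℂ (d i) jqC) := LConv_qExpand (d i) LConv_jqC
    refine ⟨hp.1.mul hi, fun q hq0 hq1 => ?_⟩
    have hqd0 : q ^ d i ≠ 0 := pow_ne_zero _ hq0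
    have hqd1 : ‖q ^ d i‖ < 1 := by
      rw [norm_pow]
      exact pow_lt_one₀ (norm_nonneg _) hq1 (NeZero.ne (d i))
    rw [lEval_mul hp.1 hi hq0 hq1, hp.2 q hq0 hq1, lEval_qExpand, lEval_jqC hqd0 hqd1,
      MvPolynomial.eval₂_mul, MvPolynomial.eval₂_X]

theorem coeffMap_aeval_qExpand_jq (P : MvPolynomial I L) :
    ModularCurve.coeffMap ι (MvPolynomial.aeval
        (fun i => ModularCurve.coeffEmb L (ModularCurve.qExpand ℚ (d i) ModularCurve.jq)) P) =
      MvPolynomial.eval₂ ((HahnSeries.C : ℂ →+* LaurentSeries ℂ).comp ι)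
        (fun i => ModularCurve.qExpand ℂ (d i) jqC) P := by
  rw [MvPolynomial.aeval_def, MvPolynomial.eval₂_comp_left]
  congr 1
  · ext a : 1
    simp only [RingHom.comp_apply, HahnSeries.C_apply]
    rw [ModularCurve.algebraMap_laurentSeries_eq_single, ModularCurve.coeffMap_single]
  · funext i
    simp only [Function.comp_apply]
    rw [ModularCurve.coeffEmb, ModularCurve.coeffMap_coeffMap, ModularCurve.coeffMap_qExpand, jqC,
      ModularCurve.coeffMap_congr (Subsingleton.elim (ι.comp (algebraMap ℚ L)) (algebraMap ℚ ℂ))]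

/-- **Kernel formal = kernel analytic** (in the nome `q`). -/
theorem aeval_coeffEmb_qExpand_jq_eq_zero_iff (P : MvPolynomial I L) :
    MvPolynomial.aeval
        (fun i => ModularCurve.coeffEmb L (ModularCurve.qExpand ℚ (d i) ModularCurve.jq)) P = 0 ↔
      ∀ τ : ℍ, MvPolynomial.eval₂ ι (fun i => jOfQ (𝕢 1 τ ^ d i)) P = 0 := by
  have hinj : Function.Injective (ModularCurve.coeffMap ι : LaurentSeries L → LaurentSeries ℂ) := by
    intro x y hxy
    ext k
    have h1 := congrArg (fun z : LaurentSeries ℂ => z.coeff k) hxy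
    simp only [ModularCurve.coeffMap_coeff] at h1
    exact ι.injective h1
  obtain ⟨hc, he⟩ := eval₂_qExpand_jqC ι d P
  rw [← map_eq_zero_iff _ hinj, coeffMap_aeval_qExpand_jq]
  constructor
  · intro h τ
    have hq0 : 𝕢 1 (τ : ℂ) ≠ 0 := Function.Periodic.qParam_ne_zero _
    have hq1 : ‖𝕢 1 (τ : ℂ)‖ < 1 := Function.Periodic.norm_qParam_lt_one one_pos τ.im_pos
    rw [← he _ hq0 hq1, h, lEval_zero]
  · intro h
    refine eq_zero_of_lEval_qParam hc fun τ => ?_
    have hq0 : 𝕢 1 (τ : ℂ) ≠ 0 := Function.Periodic.qParam_ne_zero _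
    have hq1 : ‖𝕢 1 (τ : ℂ)‖ < 1 := Function.Periodic.norm_qParam_lt_one one_pos τ.im_pos
    rw [he _ hq0 hq1, h τ]

/-- Multiplication by a positive natural number on the upper half plane. -/
def dil (n : ℕ) [NeZero n] (τ : ℍ) : ℍ :=
  ⟨(n : ℂ) * (τ : ℂ), by
    have h : ((n : ℂ) * (τ : ℂ)).im = (n : ℝ) * τ.im := by simp
    rw [h]
    exact mul_pos (by exact_mod_cast Nat.pos_of_ne_zero (NeZero.ne n)) τ.im_pos⟩

@[simp]
theorem coe_dil (n : ℕ) [NeZero n] (τ : ℍ) : ((dil n τ : ℍ) : ℂ) = (n : ℂ) * (τ : ℂ) := rfl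

theorem qParam_dil (n : ℕ) [NeZero n] (τ : ℍ) : 𝕢 1 (dil n τ : ℂ) = 𝕢 1 (τ : ℂ) ^ n := by
  rw [coe_dil, Function.Periodic.qParam, Function.Periodic.qParam, ← Complex.exp_nat_mul]
  congr 1
  push_cast
  ring

theorem jOfQ_qParam_pow (n : ℕ) [NeZero n] (τ : ℍ) :
    jOfQ (𝕢 1 (τ : ℂ) ^ n) = E₄ (dil n τ) ^ 3 / discriminant (dil n τ) := by
  rw [← qParam_dil, jOfQ_qParam]

/-- **Kernel formal = kernel analytic**: a polynomial `P` over `L` kills the formal series
`j(q^(d i))` if and only if `P^ι` kills the holomorphic functions `τ ↦ j(d i • τ)`. -/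
theorem aeval_coeffEmb_qExpand_jq_eq_zero_iff' (P : MvPolynomial I L) :
    MvPolynomial.aeval
        (fun i => ModularCurve.coeffEmb L (ModularCurve.qExpand ℚ (d i) ModularCurve.jq)) P = 0 ↔
      ∀ τ : ℍ, MvPolynomial.eval₂ ι
        (fun i => E₄ (dil (d i) τ) ^ 3 / discriminant (dil (d i) τ)) P = 0 := by
  rw [aeval_coeffEmb_qExpand_jq_eq_zero_iff ι d P]
  simp only [jOfQ_qParam_pow]

end Main

end Fermat.Agent.S24.JqB
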