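import Mathlib
import Fermat.Prelude.Def_ModularCurve_ArithmeticGalois
import Fermat.Agent.S24.JLevel
import Fermat.Agent.S24.JqKernel

/-!
# S24, PART B4 auxiliary file (helper8917)

* `B4h8917.ringHom_ext'` : ring homs out of `modularFunctionFieldBar N` are determined by their
  values on constants and on the generators `j(q^d)` (after helper924's `FNExt`).
* `B4h8917.exists_ringHom_of_relations` : universal property of `modularFunctionFieldBar N`
  (after helper144's `FieldHom`).
* `B4h8917.rel_iff` : a polynomial relation among the formal `j(q^d)` holds iff it holds among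
  the elements `jdHol N d` of `ModHol N` (uses helper6564's `JqKernel`).
* `B4h8917.exists_theta` : existence of the bridge `F →+* ModMer N`.
-/

set_option autoImplicit false

open ModularCurve IntermediateField UpperHalfPlane
open scoped MatrixGroups

namespace Fermat.Agent.S24.B4h8917

noncomputable section

local notation "K" => AlgebraicClosure ℚ

/-- The index type: divisors of `N`. -/
abbrev Dv (N : ℕ) : Type := {d : ℕ // d ∣ N}

theorem Dv.neZero {N : ℕ} [NeZero N] (d : Dv N) : NeZero d.1 :=
  ⟨ne_zero_of_dvd_ne_zero (NeZero.ne N) d.2⟩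

/-- The series `j(q^d) ∈ ℚ̄((q))`. -/
def jqB (N : ℕ) [NeZero N] (d : Dv N) : LaurentSeries K :=
  coeffEmb K (@qExpand ℚ _ d.1 d.neZero jq)

theorem jqB_mem (N : ℕ) [NeZero N] (d : Dv N) : jqB N d ∈ modularFunctionFieldBar N :=
  coeffEmb_mem_laurentBaseChange K (@jqd_mem_full N d.1 d.neZero d.2)

/-- `j(q^d)` as an element of the function field. -/
def jBD (N : ℕ) [NeZero N] (d : Dv N) : ↥(modularFunctionFieldBar N) :=
  ⟨jqB N d, jqB_mem N d⟩

theorem coeffEmb_algebraMap_rat (L : Type*) [Field L] [Algebra ℚ L] (r : ℚ) :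
    coeffEmb L (algebraMap ℚ (LaurentSeries ℚ) r)
      = algebraMap L (LaurentSeries L) (algebraMap ℚ L r) := by
  rw [algebraMap_laurentSeries_eq_single, algebraMap_laurentSeries_eq_single, coeffEmb,
    coeffMap_single]

/-- Two ring homomorphisms out of `ℚ̄(X₀(N))` which agree on constants and on the generators
`j(q^d)`, `d ∣ N`, are equal. -/
theorem ringHom_ext' {N : ℕ} [NeZero N] {L : Type*} [Semiring L]
    (f g : ↥(modularFunctionFieldBar N) →+* L)
    (hc : ∀ a : K, f (algebraMap _ _ a) = g (algebraMap _ _ a))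
    (hgen : ∀ d : Dv N, f (jBD N d) = g (jBD N d)) :
    f = g := by
  let E : Subfield ↥(modularFunctionFieldBar N) := f.eqLocusField g
  let E' : Subfield (LaurentSeries K) :=
    E.map (modularFunctionFieldBar N).val.toRingHom
  have hinner : (modularFunctionFieldFull N).toSubfield
      ≤ E'.comap (coeffEmb K) := by
    have h0 : (modularFunctionFieldFull N).toSubfield
        = Subfield.closure (Set.range (algebraMap ℚ (LaurentSeries ℚ)) ∪ divisorExpansions N) :=
      rfl
    rw [h0, Subfield.closure_le]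
    rintro w (⟨r, rfl⟩ | ⟨d, hne, hd, rfl⟩)
    · show coeffEmb _ (algebraMap ℚ _ r) ∈ E'
      rw [coeffEmb_algebraMap_rat]
      exact ⟨algebraMap _ _ (algebraMap ℚ _ r), hc _, rfl⟩
    · exact ⟨jBD N ⟨d, hd⟩, hgen ⟨d, hd⟩, rfl⟩
  have hle : (modularFunctionFieldBar N).toSubfield ≤ E' := by
    have h0 : (modularFunctionFieldBar N).toSubfield
        = Subfield.closure (Set.range (algebraMap K (LaurentSeries K))
          ∪ (⇑(coeffEmb K) '' (modularFunctionFieldFull N : Set _))) := rfl
    rw [h0, Subfield.closure_le]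
    rintro x (⟨a, rfl⟩ | ⟨z, hz, rfl⟩)
    · exact ⟨algebraMap _ _ a, hc a, rfl⟩
    · exact hinner hz
  ext y
  obtain ⟨y', hy', hyy'⟩ := hle y.2
  have : y' = y := Subtype.ext hyy'
  rw [← this]
  exact hy'

/-- The function field is generated over `ℚ̄` by the `j(q^d)`, `d ∣ N`. -/
theorem bar_eq_adjoin (N : ℕ) [NeZero N] :
    modularFunctionFieldBar N = IntermediateField.adjoin K (Set.range (jqB N)) := by
  have key : ∀ x, x ∈ IntermediateField.adjoin ℚ (divisorExpansions N) →
      coeffEmb K x ∈ IntermediateField.adjoin K (Set.range (jqB N)) := by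
    intro x hx
    induction hx using IntermediateField.adjoin_induction with
    | mem y hy =>
      obtain ⟨d, hd0, hdN, rfl⟩ := hy
      exact IntermediateField.subset_adjoin K _ ⟨⟨d, hdN⟩, rfl⟩
    | algebraMap r =>
      rw [coeffEmb_algebraMap_rat]
      exact (IntermediateField.adjoin K (Set.range (jqB N))).algebraMap_mem _
    | add y z _ _ hy hz =>
      rw [map_add]
      exact add_mem hy hz
    | inv y _ hy =>
      rw [map_inv₀]
      exact inv_mem hy
    | mul y z _ _ hy hz =>
      rw [map_mul]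
      exact mul_mem hy hz
  apply le_antisymm
  · show IntermediateField.adjoin K _ ≤ _
    rw [IntermediateField.adjoin_le_iff]
    rintro _ ⟨x, hx, rfl⟩
    exact key x hx
  · rw [IntermediateField.adjoin_le_iff]
    rintro _ ⟨d, rfl⟩
    exact jqB_mem N d

open IntermediateField.algebraAdjoinAdjoin in
/-- **Universal property of the modular function field.** -/
theorem exists_ringHom_of_relations (N : ℕ) [NeZero N] {M : Type*} [Field M]
    (φ : K →+* M) (g : Dv N → M)
    (hrel : ∀ P : MvPolynomial (Dv N) K,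
      MvPolynomial.aeval (jqB N) P = 0 ↔ MvPolynomial.eval₂ φ g P = 0) :
    ∃ σ : ↥(modularFunctionFieldBar N) →+* M,
      (∀ c : K, σ (algebraMap K ↥(modularFunctionFieldBar N) c) = φ c) ∧
      (∀ d : Dv N, σ (jBD N d) = g d) := by
  classical
  set S : Set (LaurentSeries K) := Set.range (jqB N) with hS
  let s' : Dv N → Algebra.adjoin K S := fun d => ⟨jqB N d, Algebra.subset_adjoin ⟨d, rfl⟩⟩
  let f : MvPolynomial (Dv N) K →ₐ[K] Algebra.adjoin K S := MvPolynomial.aeval s'
  have hfval : ∀ P, ((f P : Algebra.adjoin K S) : LaurentSeries K)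
      = MvPolynomial.aeval (jqB N) P := by
    intro P
    have h : (Subalgebra.val (Algebra.adjoin K S)).comp f = MvPolynomial.aeval (jqB N) := by
      apply MvPolynomial.algHom_ext
      intro d
      simp [f, s']
    exact congrArg (fun ψ : MvPolynomial (Dv N) K →ₐ[K] LaurentSeries K => ψ P) h
  have hfsurj : Function.Surjective f := by
    rintro ⟨x, hx⟩
    rw [hS, Algebra.adjoin_range_eq_range_aeval] at hx
    obtain ⟨P, rfl⟩ := hx
    exact ⟨P, Subtype.ext (hfval P)⟩
  have hker : RingHom.ker (f : MvPolynomial (Dv N) K →+* Algebra.adjoin K S)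
      ≤ RingHom.ker (MvPolynomial.eval₂Hom φ g) := by
    intro P hP
    rw [RingHom.mem_ker] at hP ⊢
    have h0 : MvPolynomial.aeval (jqB N) P = 0 := by
      rw [← hfval P]
      exact congrArg Subtype.val hP
    exact (hrel P).mp h0
  let ψ : Algebra.adjoin K S →+* M :=
    RingHom.liftOfSurjective (f : MvPolynomial (Dv N) K →+* Algebra.adjoin K S) hfsurj
      ⟨MvPolynomial.eval₂Hom φ g, hker⟩
  have hψ : ∀ P, ψ (f P) = MvPolynomial.eval₂ φ g P := fun P =>
    RingHom.liftOfRightInverse_comp_apply _ _ _ ⟨MvPolynomial.eval₂Hom φ g, hker⟩ P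
  have hψinj : Function.Injective ψ := by
    rw [injective_iff_map_eq_zero]
    intro x hx
    obtain ⟨P, rfl⟩ := hfsurj x
    rw [hψ] at hx
    have h0 := (hrel P).mpr hx
    apply Subtype.ext
    rw [hfval P, h0]
    rfl
  let τ : ↥(IntermediateField.adjoin K S) →+* M := IsFractionRing.lift hψinj
  have hτ : ∀ x : Algebra.adjoin K S,
      τ (algebraMap (Algebra.adjoin K S) ↥(IntermediateField.adjoin K S) x) = ψ x :=
    fun x => IsFractionRing.lift_algebraMap hψinj x
  have hF := bar_eq_adjoin N
  let e : ↥(modularFunctionFieldBar N) ≃ₐ[K] ↥(IntermediateField.adjoin K S) :=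
    IntermediateField.equivOfEq hF
  refine ⟨τ.comp (e : ↥(modularFunctionFieldBar N) →+* ↥(IntermediateField.adjoin K S)), ?_, ?_⟩
  · intro c
    have h1 : e (algebraMap K ↥(modularFunctionFieldBar N) c)
        = algebraMap (Algebra.adjoin K S) ↥(IntermediateField.adjoin K S)
            (f (MvPolynomial.C c)) := by
      apply Subtype.ext
      simp only [f, MvPolynomial.aeval_C]
      rfl
    show τ (e (algebraMap K ↥(modularFunctionFieldBar N) c)) = φ c
    rw [h1, hτ, hψ, MvPolynomial.eval₂_C]
  · intro d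
    have h1 : e (jBD N d)
        = algebraMap (Algebra.adjoin K S) ↥(IntermediateField.adjoin K S)
            (f (MvPolynomial.X d)) := by
      apply Subtype.ext
      simp only [f, MvPolynomial.aeval_X]
      rfl
    show τ (e (jBD N d)) = g d
    rw [h1, hτ, hψ, MvPolynomial.eval₂_X]

/-! ### The analytic side -/

/-- The fixed embedding `ℚ̄ → ℂ` (same definition as `iotaC` of the interface file). -/
def iotaB : K →+* ℂ :=
  haveI : Algebra.IsAlgebraic ℚ K := AlgebraicClosure.isAlgebraic ℚ
  (IsAlgClosed.lift (R := ℚ) (S := K) (M := ℂ)).toRingHom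

/-- Evaluation at a point as a ring hom on `ModHol N`. -/
def evalHol (N : ℕ) (τ : ℍ) : ModHol N →+* ℂ :=
  (Pi.evalRingHom (fun _ : ℍ => ℂ) τ).comp (ModHol N).subtype

theorem evalHol_apply (N : ℕ) (τ : ℍ) (f : ModHol N) : evalHol N τ f = f.1 τ := rfl

theorem dmul_eq_dil (d : ℕ) [NeZero d] (τ : ℍ) : dmul d τ = JqB.dil d τ := by
  apply UpperHalfPlane.ext
  rw [coe_dmul (Nat.pos_of_ne_zero (NeZero.ne d))]
  rfl

theorem jC_dmul (d : ℕ) [NeZero d] (τ : ℍ) :
    jC (dmul d τ) = ModularForm.E₄ (JqB.dil d τ) ^ 3 / ModularForm.discriminant (JqB.dil d τ) := by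
  rw [dmul_eq_dil]
  rfl

/-- Relations among the formal `j(q^d)` = relations among the functions `j(dτ)` in `ModHol N`. -/
theorem rel_iff (N : ℕ) [NeZero N] (φ : K →+* ℂ) (P : MvPolynomial (Dv N) K) :
    MvPolynomial.aeval (jqB N) P = 0 ↔
      MvPolynomial.eval₂ ((constHol N).comp φ) (fun d : Dv N => jdHol N d.1 d.2) P = 0 := by
  have h1 := @JqB.aeval_coeffEmb_qExpand_jq_eq_zero_iff' K _ _ φ (Dv N) (fun d => d.1)
    (fun d => d.neZero) P
  have h2 : (MvPolynomial.aeval (jqB N) P = 0) ↔ ∀ τ : ℍ, MvPolynomial.eval₂ φ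
      (fun i : Dv N => ModularForm.E₄ (@JqB.dil i.1 i.neZero τ) ^ 3
        / ModularForm.discriminant (@JqB.dil i.1 i.neZero τ)) P = 0 := h1
  rw [h2]
  have h3 : ∀ τ : ℍ, evalHol N τ (MvPolynomial.eval₂ ((constHol N).comp φ)
      (fun d : Dv N => jdHol N d.1 d.2) P) = MvPolynomial.eval₂ φ
      (fun i : Dv N => ModularForm.E₄ (@JqB.dil i.1 i.neZero τ) ^ 3
        / ModularForm.discriminant (@JqB.dil i.1 i.neZero τ)) P := by
    intro τ
    rw [MvPolynomial.eval₂_comp_left]
    congr 1
    funext i
    have := i.neZero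
    simp only [Function.comp_apply, evalHol_apply, jdHol_apply]
    exact jC_dmul i.1 τ
  constructor
  · intro h
    apply Subtype.ext
    funext τ
    have := h τ
    rw [← h3 τ] at this
    exact this
  · intro h τ
    rw [← h3 τ, h, map_zero]

/-- Existence of the bridge. -/
theorem exists_theta (N : ℕ) [NeZero N] [IsDomain (ModHol N)] (φ : K →+* ℂ) :
    ∃ σ : ↥(modularFunctionFieldBar N) →+* ModMer N,
      (∀ c : K, σ (algebraMap K ↥(modularFunctionFieldBar N) c) = constM N (φ c)) ∧
      (∀ d : Dv N, σ (jBD N d) = algebraMap (ModHol N) (ModMer N) (jdHol N d.1 d.2)) := by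
  refine exists_ringHom_of_relations N ((constM N).comp φ)
    (fun d => algebraMap (ModHol N) (ModMer N) (jdHol N d.1 d.2)) (fun P => ?_)
  rw [rel_iff N φ P]
  have h1 : MvPolynomial.eval₂ ((constM N).comp φ)
      (fun d : Dv N => algebraMap (ModHol N) (ModMer N) (jdHol N d.1 d.2)) P
      = algebraMap (ModHol N) (ModMer N) (MvPolynomial.eval₂ ((constHol N).comp φ)
        (fun d : Dv N => jdHol N d.1 d.2) P) := by
    rw [MvPolynomial.eval₂_comp_left]
    rfl
  rw [h1]
  exact (map_eq_zero_iff _ (IsFractionRing.injective (ModHol N) (ModMer N))).symm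

end

end Fermat.Agent.S24.B4h8917
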