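import Mathlib

/-!
# S24, PART B1: the analytic `j`-function of level one (Mathlib only).

Interface statements of the S24 skeleton (`jC`, `rhoH`, `ModerateGrowth`, (J1)-(J8)), all proved.
Auxiliary material lives in the namespace `Fermat.Agent.S24.L1JAux` (bracket identity
`4 E₄ · D E₆ - 6 E₆ · D E₄ = -3456 Δ`, zeros of `E₄`, `E₆`, surjectivity of `j`, derivative of `j`,
growth of `j`, invariant functions are polynomials in `j`).
-/

set_option autoImplicit false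

namespace Fermat.Agent.S24.L1JAux

open UpperHalfPlane ModularForm ModularFormClass MatrixGroups EisensteinSeries
open scoped Manifold Topology Real
open Filter

noncomputable section

local notation "𝕢" => Function.Periodic.qParam
local notation "Dn" => Derivative.normalizedDerivOfComplex
local notation "Δ" => ModularForm.discriminant

/-- The derivative of the `q`-parameter. -/
theorem hasDerivAt_qParam_one (z : ℂ) :
    HasDerivAt (𝕢 1) (2 * π * Complex.I * 𝕢 1 z) z := by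
  have h1 : HasDerivAt (fun w : ℂ => 2 * π * Complex.I * w / (1 : ℝ)) (2 * π * Complex.I) z := by
    simpa using ((hasDerivAt_id z).const_mul (2 * π * Complex.I))
  have h2 := h1.cexp
  have hfun : (𝕢 1) = fun w : ℂ => Complex.exp (2 * π * Complex.I * w / (1 : ℝ)) := by
    funext w
    simp [Function.Periodic.qParam]
  rw [hfun]
  simpa [mul_comm] using h2

/-- For a level-one modular form, `D f τ = q · F'(q)` where `F` is the cusp function. -/
theorem D_eq_qParam_mul_deriv_cuspFunction {k : ℤ} (f : ModularForm 𝒮ℒ k) (τ : ℍ) :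
    Dn f τ = 𝕢 1 τ * deriv (cuspFunction 1 f) (𝕢 1 τ) := by
  have hq : ‖𝕢 1 (τ : ℂ)‖ < 1 := Function.Periodic.norm_qParam_lt_one one_pos τ.im_pos
  have hF : HasDerivAt (cuspFunction 1 f) (deriv (cuspFunction 1 f) (𝕢 1 τ)) (𝕢 1 τ) :=
    (ModularFormClass.differentiableAt_cuspFunction f one_pos one_mem_strictPeriods_SL
      hq).hasDerivAt
  have hcomp := hF.comp (τ : ℂ) (hasDerivAt_qParam_one τ)
  have hev : (f ∘ ofComplex) =ᶠ[𝓝 (τ : ℂ)] (cuspFunction 1 f ∘ 𝕢 1) := by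
    filter_upwards [isOpen_upperHalfPlaneSet.mem_nhds τ.im_pos] with w hw
    have := SlashInvariantFormClass.eq_cuspFunction (h := 1) f ⟨w, hw⟩ one_mem_strictPeriods_SL
      one_ne_zero
    simp only [Function.comp_apply, ofComplex_apply_of_im_pos hw]
    exact this.symm
  have hd : deriv (f ∘ ofComplex) τ =
      deriv (cuspFunction 1 f) (𝕢 1 τ) * (2 * π * Complex.I * 𝕢 1 τ) :=
    (hcomp.congr_of_eventuallyEq hev).deriv
  have hpi : (2 * π * Complex.I : ℂ) ≠ 0 := by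
    simp [Real.pi_ne_zero]
  rw [Derivative.normalizedDerivOfComplex, hd]
  field_simp

/-- Level-one forms are slash-invariant under every element of `SL(2, ℤ)`. -/
theorem slash_SL_eq {k : ℤ} (f : ModularForm 𝒮ℒ k) (γ : SL(2, ℤ)) :
    (f : ℍ → ℂ) ∣[k] γ = f := by
  rw [ModularForm.SL_slash]
  exact SlashInvariantFormClass.slash_action_eq f _ (MonoidHom.mem_range.mpr ⟨γ, rfl⟩)

/-- The transformation law in pointwise form. -/
theorem apply_smul_eq {k : ℤ} (f : ModularForm 𝒮ℒ k) (γ : SL(2, ℤ)) (τ : ℍ) :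
    f (γ • τ) = denom γ τ ^ k * f τ := by
  have h := congrFun (slash_SL_eq f γ) τ
  rw [ModularForm.SL_slash_apply] at h
  have hd : denom γ τ ≠ 0 := denom_ne_zero γ τ
  rw [← h, zpow_neg]
  field_simp

/-- The bracket `[E₄, E₆] = 4 E₄ · D E₆ - 6 E₆ · D E₄`. -/
def brk (τ : ℍ) : ℂ := 4 * E₄ τ * Dn E₆ τ - 6 * E₆ τ * Dn E₄ τ

theorem brk_eq_serre (τ : ℍ) :
    brk τ = 4 * E₄ τ * Derivative.serreDerivative ((6 : ℤ) : ℂ) E₆ τ
      - 6 * E₆ τ * Derivative.serreDerivative ((4 : ℤ) : ℂ) E₄ τ := by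
  simp only [brk, Derivative.serreDerivative_apply]
  push_cast
  ring

theorem brk_mdiff : MDiff brk := by
  have h4 : MDiff (E₄ : ℍ → ℂ) := ModularFormClass.holo E₄
  have h6 : MDiff (E₆ : ℍ → ℂ) := ModularFormClass.holo E₆
  have hd4 := Derivative.normalizedDerivOfComplex_mdifferentiable h4
  have hd6 := Derivative.normalizedDerivOfComplex_mdifferentiable h6
  have h : MDiff (fun τ : ℍ => (4 : ℂ) * (E₄ τ * Dn E₆ τ) - (6 : ℂ) * (E₆ τ * Dn E₄ τ)) :=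
    (mdifferentiable_const.mul (h4.mul hd6)).sub (mdifferentiable_const.mul (h6.mul hd4))
  convert h using 1
  funext τ
  simp only [brk]
  ring

theorem brk_slash (γ : SL(2, ℤ)) : brk ∣[(12 : ℤ)] γ = brk := by
  ext τ
  have h4 := apply_smul_eq E₄ γ τ
  have h6 := apply_smul_eq E₆ γ τ
  have hs6 := congrFun (Derivative.serreDerivative_slash_invariant (ModularFormClass.holo E₆)
    (slash_SL_eq E₆ γ)) τ
  have hs4 := congrFun (Derivative.serreDerivative_slash_invariant (ModularFormClass.holo E₄)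
    (slash_SL_eq E₄ γ)) τ
  rw [ModularForm.SL_slash_apply] at hs6 hs4 ⊢
  have hd : denom γ τ ≠ 0 := denom_ne_zero γ τ
  rw [brk_eq_serre, brk_eq_serre, ← hs6, ← hs4, h4, h6]
  generalize denom γ τ = d at hd ⊢
  have e1 : d ^ (4 : ℤ) = d ^ 4 := by norm_cast
  have e2 : d ^ (6 : ℤ) = d ^ 6 := by norm_cast
  have e3 : d ^ (-((6 : ℤ) + 2)) = (d ^ 8)⁻¹ := by
    rw [zpow_neg]; norm_cast
  have e4 : d ^ (-((4 : ℤ) + 2)) = (d ^ 6)⁻¹ := by
    rw [zpow_neg]; norm_cast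
  have e5 : d ^ (-(12 : ℤ)) = (d ^ 12)⁻¹ := by
    rw [zpow_neg]; norm_cast
  rw [e1, e2, e3, e4, e5]
  field_simp

/-! ### Behaviour at the cusp -/

theorem cusp_E₄_zero : cuspFunction 1 E₄ 0 = 1 := by
  have h := E_qExpansion_coeff_zero (k := 4) (by norm_num) ⟨2, rfl⟩
  simpa [qExpansion_coeff] using h

theorem cusp_E₆_zero : cuspFunction 1 E₆ 0 = 1 := by
  have h := E_qExpansion_coeff_zero (k := 6) (by norm_num) ⟨3, rfl⟩
  simpa [qExpansion_coeff] using h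

theorem deriv_cusp_E₄_zero : deriv (cuspFunction 1 E₄) 0 = 240 := by
  have h := E₄_qExpansion_coeff_one
  simpa [qExpansion_coeff] using h

theorem deriv_cusp_E₆_zero : deriv (cuspFunction 1 E₆) 0 = -504 := by
  have h := E₆_qExpansion_coeff_one
  simpa [qExpansion_coeff] using h

/-- The auxiliary function of `q` with `brk τ = q · Hq q`. -/
def Hq (q : ℂ) : ℂ :=
  4 * cuspFunction 1 E₄ q * deriv (cuspFunction 1 E₆) q
    - 6 * cuspFunction 1 E₆ q * deriv (cuspFunction 1 E₄) q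

theorem Hq_zero : Hq 0 = -3456 := by
  simp only [Hq, cusp_E₄_zero, cusp_E₆_zero, deriv_cusp_E₄_zero, deriv_cusp_E₆_zero]
  norm_num

theorem continuousAt_Hq : ContinuousAt Hq 0 := by
  have a4 : AnalyticAt ℂ (cuspFunction 1 E₄) 0 :=
    ModularFormClass.analyticAt_cuspFunction_zero E₄ one_pos one_mem_strictPeriods_SL
  have a6 : AnalyticAt ℂ (cuspFunction 1 E₆) 0 :=
    ModularFormClass.analyticAt_cuspFunction_zero E₆ one_pos one_mem_strictPeriods_SL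
  have c4 := a4.continuousAt
  have c6 := a6.continuousAt
  have d4 := a4.deriv.continuousAt
  have d6 := a6.deriv.continuousAt
  unfold Hq
  exact ((continuousAt_const.mul c4).mul d6).sub ((continuousAt_const.mul c6).mul d4)

theorem brk_eq_cusp (τ : ℍ) : brk τ = 𝕢 1 τ * Hq (𝕢 1 τ) := by
  rw [brk, Hq, D_eq_qParam_mul_deriv_cuspFunction, D_eq_qParam_mul_deriv_cuspFunction,
    SlashInvariantFormClass.eq_cuspFunction (h := 1) E₄ τ one_mem_strictPeriods_SL one_ne_zero,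
    SlashInvariantFormClass.eq_cuspFunction (h := 1) E₆ τ one_mem_strictPeriods_SL one_ne_zero]
  ring

theorem tendsto_Hq : Tendsto (fun τ : ℍ => Hq (𝕢 1 τ)) atImInfty (𝓝 (-3456)) := by
  have h := continuousAt_Hq.tendsto.comp (qParam_tendsto_atImInfty one_pos)
  rw [Hq_zero] at h
  exact h

theorem brk_isZeroAtImInfty : IsZeroAtImInfty brk := by
  have h := (qParam_tendsto_atImInfty one_pos).mul tendsto_Hq
  rw [zero_mul] at h
  refine h.congr fun τ => ?_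
  rw [brk_eq_cusp]

/-- The bracket as a cusp form of weight `12`. -/
def brkForm : CuspForm 𝒮ℒ 12 where
  toFun := brk
  slash_action_eq' A hA := by
    obtain ⟨A, rfl⟩ := hA
    exact brk_slash A
  holo' := brk_mdiff
  zero_at_cusps' hc := by
    rw [Subgroup.IsArithmetic.isCusp_iff_isCusp_SL2Z] at hc
    rw [OnePoint.isZeroAt_iff_forall_SL2Z hc]
    intro γ _
    rw [brk_slash]
    exact brk_isZeroAtImInfty

theorem tendsto_discriminant_div_q :
    Tendsto (fun τ : ℍ => Δ τ / 𝕢 1 τ) atImInfty (𝓝 1) := by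
  have hdiff : DifferentiableAt ℂ (cuspFunction 1 Δ) 0 :=
    ModularFormClass.differentiableAt_cuspFunction CuspForm.discriminant one_pos
      one_mem_strictPeriods_SL (q := 0) (by simp)
  have hderiv : deriv (cuspFunction 1 Δ) 0 = 1 := by
    have h := discriminant_qExpansion_coeff_one
    simpa [qExpansion_coeff] using h
  have hzero : cuspFunction 1 Δ 0 = 0 :=
    CuspFormClass.cuspFunction_apply_zero CuspForm.discriminant one_pos one_mem_strictPeriods_SL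
  have hslope := hasDerivAt_iff_tendsto_slope.mp hdiff.hasDerivAt
  rw [hderiv] at hslope
  have hq : Tendsto (fun τ : ℍ => 𝕢 1 (τ : ℂ)) atImInfty (𝓝[≠] 0) :=
    (Function.Periodic.qParam_tendsto one_pos).comp tendsto_coe_atImInfty
  refine (hslope.comp hq).congr fun τ => ?_
  have hΔ : cuspFunction 1 Δ (𝕢 1 τ) = Δ τ :=
    SlashInvariantFormClass.eq_cuspFunction (h := 1) CuspForm.discriminant τ
      one_mem_strictPeriods_SL one_ne_zero
  simp only [Function.comp_apply, slope, hzero, sub_zero, vsub_eq_sub, hΔ, smul_eq_mul]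
  rw [div_eq_inv_mul]

/-- **The bracket identity** `4 E₄ · D E₆ - 6 E₆ · D E₄ = -3456 Δ`. -/
theorem bracket_eq (τ : ℍ) : brk τ = -3456 * Δ τ := by
  obtain ⟨c, hc⟩ := CuspForm.exists_smul_discriminant_of_weight_eq_twelve brkForm
  have hcτ : ∀ τ : ℍ, c * Δ τ = brk τ := fun τ => congrFun (congrArg DFunLike.coe hc) τ
  suffices hc' : c = -3456 by rw [← hcτ, hc']
  have h1 : Tendsto (fun τ : ℍ => c * (Δ τ / 𝕢 1 τ)) atImInfty (𝓝 (c * 1)) :=
    tendsto_discriminant_div_q.const_mul c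
  have h2 : Tendsto (fun τ : ℍ => c * (Δ τ / 𝕢 1 τ)) atImInfty (𝓝 (-3456)) := by
    refine tendsto_Hq.congr fun τ => ?_
    have hq : 𝕢 1 (τ : ℂ) ≠ 0 := Function.Periodic.qParam_ne_zero _
    rw [← mul_div_assoc, hcτ, brk_eq_cusp]
    field_simp
  have := tendsto_nhds_unique h1 h2
  simpa using this

/-! ### Elliptic points -/

theorem S_smul_I : ModularGroup.S • UpperHalfPlane.I = UpperHalfPlane.I :=
  ModularGroup.stabilizer_I.mpr (by simp)

theorem ST_smul_ρ : (ModularGroup.S * ModularGroup.T) • ρ = ρ :=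
  ModularGroup.stabilizer_ρ.mpr (by simp)

/-- `E₆(i) = 0`. -/
theorem E₆_I : E₆ UpperHalfPlane.I = 0 := by
  have h := apply_smul_eq E₆ ModularGroup.S UpperHalfPlane.I
  rw [S_smul_I, ModularGroup.denom_S] at h
  have hI : ((UpperHalfPlane.I : ℍ) : ℂ) ^ (6 : ℤ) = -1 := by
    rw [UpperHalfPlane.coe_I]
    have : (Complex.I : ℂ) ^ (6 : ℕ) = -1 := by
      rw [show (6 : ℕ) = 2 * 3 by norm_num, pow_mul, Complex.I_sq]
      norm_num
    exact_mod_cast this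
  rw [hI] at h
  linear_combination (1 / 2 : ℂ) * h

theorem denom_ST (z : ℍ) :
    denom ((ModularGroup.S * ModularGroup.T : SL(2, ℤ))) z = (z : ℂ) + 1 := by
  rw [ModularGroup.denom_apply]
  have h10 : (ModularGroup.S * ModularGroup.T : SL(2, ℤ)) 1 0 = 1 := by decide
  have h11 : (ModularGroup.S * ModularGroup.T : SL(2, ℤ)) 1 1 = 1 := by decide
  rw [h10, h11]
  simp

/-- `E₄(ρ) = 0`. -/
theorem E₄_ρ : E₄ ρ = 0 := by
  have h := apply_smul_eq E₄ (ModularGroup.S * ModularGroup.T) ρ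
  rw [ST_smul_ρ, denom_ST] at h
  have h2 : ((ρ : ℂ) + 1) ^ (4 : ℤ) = -(ρ : ℂ) - 1 := by
    have hsq := ρ_sq
    have : ((ρ : ℂ) + 1) ^ (4 : ℕ) = -(ρ : ℂ) - 1 := by
      linear_combination ((ρ : ℂ) ^ 2 + 3 * (ρ : ℂ) + 2) * hsq
    exact_mod_cast this
  rw [h2] at h
  have h3 : ((ρ : ℂ) + 2) * E₄ ρ = 0 := by linear_combination h
  rcases mul_eq_zero.mp h3 with h4 | h4
  · exfalso
    have him := congrArg Complex.im h4
    have hρ : (ρ : ℂ).im = Real.sqrt 3 / 2 := rfl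
    simp only [Complex.add_im, hρ, Complex.zero_im] at him
    norm_num at him
  · exact h4

theorem E₄_I_ne_zero : E₄ UpperHalfPlane.I ≠ 0 := by
  intro h
  have hΔ := ModularForm.discriminant_eq_E₄_cube_sub_E₆_sq UpperHalfPlane.I
  rw [h, E₆_I] at hΔ
  exact discriminant_ne_zero UpperHalfPlane.I (by simpa using hΔ)

theorem E₆_ρ_ne_zero : E₆ ρ ≠ 0 := by
  intro h
  have hΔ := ModularForm.discriminant_eq_E₄_cube_sub_E₆_sq ρ
  rw [h, E₄_ρ] at hΔ
  exact discriminant_ne_zero ρ (by simpa using hΔ)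

/-- `E₆` has a simple zero at `i`. -/
theorem D_E₆_I_ne_zero : Dn E₆ UpperHalfPlane.I ≠ 0 := by
  intro h
  have hb := bracket_eq UpperHalfPlane.I
  rw [brk, E₆_I, h] at hb
  have : Δ UpperHalfPlane.I = 0 := by linear_combination (1 / 3456 : ℂ) * hb
  exact discriminant_ne_zero _ this

/-- `E₄` has a simple zero at `ρ`. -/
theorem D_E₄_ρ_ne_zero : Dn E₄ ρ ≠ 0 := by
  intro h
  have hb := bracket_eq ρ
  rw [brk, E₄_ρ, h] at hb
  have : Δ ρ = 0 := by linear_combination (1 / 3456 : ℂ) * hb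
  exact discriminant_ne_zero _ this

/-! ### Surjectivity of `j` -/

theorem discriminant_smul (γ : SL(2, ℤ)) (τ : ℍ) : Δ (γ • τ) = denom γ τ ^ (12 : ℤ) * Δ τ := by
  have hs : (Δ : ℍ → ℂ) ∣[(12 : ℤ)] γ = Δ := by
    rw [ModularForm.SL_slash]
    exact SlashInvariantFormClass.slash_action_eq CuspForm.discriminant _
      (MonoidHom.mem_range.mpr ⟨γ, rfl⟩)
  have h := congrFun hs τ
  rw [ModularForm.SL_slash_apply] at h
  have hd : denom γ τ ≠ 0 := denom_ne_zero γ τ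
  rw [← h, zpow_neg]
  field_simp

theorem tendsto_E₄ : Tendsto (fun τ : ℍ => E₄ τ) atImInfty (𝓝 1) := by
  have a4 : ContinuousAt (cuspFunction 1 E₄) 0 :=
    (ModularFormClass.analyticAt_cuspFunction_zero E₄ one_pos one_mem_strictPeriods_SL).continuousAt
  have h := a4.tendsto.comp (qParam_tendsto_atImInfty one_pos)
  rw [cusp_E₄_zero] at h
  refine h.congr fun τ => ?_
  exact SlashInvariantFormClass.eq_cuspFunction (h := 1) E₄ τ one_mem_strictPeriods_SL one_ne_zero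

theorem E₄_differentiableOn : DifferentiableOn ℂ ((E₄ : ℍ → ℂ) ∘ ofComplex) {z | 0 < z.im} :=
  UpperHalfPlane.mdifferentiable_iff.mp (ModularFormClass.holo E₄)

theorem E₆_differentiableOn : DifferentiableOn ℂ ((E₆ : ℍ → ℂ) ∘ ofComplex) {z | 0 < z.im} :=
  UpperHalfPlane.mdifferentiable_iff.mp (ModularFormClass.holo E₆)

theorem discriminant_differentiableOn :
    DifferentiableOn ℂ ((Δ : ℍ → ℂ) ∘ ofComplex) {z | 0 < z.im} :=
  UpperHalfPlane.mdifferentiable_iff.mp (ModularFormClass.holo CuspForm.discriminant)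

/-- **Surjectivity of `j`**: every complex number is a value of `E₄³/Δ`. -/
theorem exists_E₄_cube_eq (c : ℂ) : ∃ τ : ℍ, E₄ τ ^ 3 = c * Δ τ := by
  by_contra hcon
  push Not at hcon
  have hne : ∀ τ, E₄ τ ^ 3 - c * Δ τ ≠ 0 := fun τ => sub_ne_zero.mpr (hcon τ)
  set g : ℍ → ℂ := fun τ => (E₄ τ ^ 3 - c * Δ τ)⁻¹ with hg
  have hg_slash : ∀ γ : SL(2, ℤ), g ∣[(-12 : ℤ)] γ = g := by
    intro γ
    ext τ
    rw [ModularForm.SL_slash_apply]
    simp only [hg]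
    rw [apply_smul_eq E₄ γ τ, discriminant_smul γ τ]
    have hd := denom_ne_zero γ τ
    have hτ := hne τ
    generalize denom γ τ = d at hd ⊢
    have e1 : d ^ (4 : ℤ) = d ^ 4 := by norm_cast
    have e2 : d ^ (12 : ℤ) = d ^ 12 := by norm_cast
    have e3 : d ^ (-(-12 : ℤ)) = d ^ 12 := by
      rw [neg_neg]; norm_cast
    rw [e1, e2, e3]
    have e4 : (d ^ 4 * E₄ τ) ^ 3 - c * (d ^ 12 * Δ τ) = d ^ 12 * (E₄ τ ^ 3 - c * Δ τ) := by ring
    rw [e4, mul_inv]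
    field_simp
  have hg_holo : MDiff g := by
    rw [UpperHalfPlane.mdifferentiable_iff]
    have h1 : DifferentiableOn ℂ
        (fun z => ((E₄ : ℍ → ℂ) ∘ ofComplex) z ^ 3 - c * ((Δ : ℍ → ℂ) ∘ ofComplex) z)
        {z | 0 < z.im} :=
      (E₄_differentiableOn.pow 3).sub (discriminant_differentiableOn.const_mul c)
    exact h1.inv fun z _ => hne _
  have hg_bdd : IsBoundedAtImInfty g := by
    have h1 : Tendsto (fun τ : ℍ => E₄ τ ^ 3 - c * Δ τ) atImInfty (𝓝 (1 ^ 3 - c * 0)) :=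
      (tendsto_E₄.pow 3).sub (discriminant_isZeroAtImInfty.const_mul c)
    have h2 : Tendsto g atImInfty (𝓝 ((1 ^ 3 - c * 0 : ℂ))⁻¹) := h1.inv₀ (by norm_num)
    exact h2.isBigO_one ℝ
  let G : ModularForm 𝒮ℒ (-12) :=
    { toFun := g
      slash_action_eq' := by
        intro A hA
        obtain ⟨A, rfl⟩ := hA
        exact hg_slash A
      holo' := hg_holo
      bdd_at_cusps' := by
        intro c hc
        rw [Subgroup.IsArithmetic.isCusp_iff_isCusp_SL2Z] at hc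
        rw [OnePoint.isBoundedAt_iff_forall_SL2Z hc]
        intro γ _
        rw [hg_slash]
        exact hg_bdd }
  have h0 := levelOne_neg_weight_eq_zero (by norm_num : (-12 : ℤ) < 0) G
  have h1 : g UpperHalfPlane.I = 0 := congrFun h0 UpperHalfPlane.I
  exact inv_ne_zero (hne _) h1

/-! ### The `j`-function -/

/-- The analytic `j`-function `E₄³/Δ` on `ℍ`. -/
def jFun (τ : ℍ) : ℂ := E₄ τ ^ 3 / Δ τ

theorem jFun_surjective : Function.Surjective jFun := fun c => by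
  obtain ⟨τ, h⟩ := exists_E₄_cube_eq c
  refine ⟨τ, ?_⟩
  have hΔ := discriminant_ne_zero τ
  rw [jFun, h]
  field_simp

theorem jFun_sub_1728 (τ : ℍ) : jFun τ - 1728 = E₆ τ ^ 2 / Δ τ := by
  have hΔ := discriminant_ne_zero τ
  have h := ModularForm.discriminant_eq_E₄_cube_sub_E₆_sq τ
  rw [jFun]
  field_simp
  linear_combination (-1728 : ℂ) * h

theorem jFun_I : jFun UpperHalfPlane.I = 1728 := by
  have h := jFun_sub_1728 UpperHalfPlane.I
  rw [E₆_I] at h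
  simpa [sub_eq_zero] using h

theorem jFun_ρ : jFun ρ = 0 := by
  simp [jFun, E₄_ρ]

theorem jFun_smul (γ : SL(2, ℤ)) (τ : ℍ) : jFun (γ • τ) = jFun τ := by
  have hd := denom_ne_zero γ τ
  have hΔ := discriminant_ne_zero τ
  rw [jFun, jFun, apply_smul_eq E₄ γ τ, discriminant_smul γ τ]
  generalize denom γ τ = d at hd ⊢
  have e1 : d ^ (4 : ℤ) = d ^ 4 := by norm_cast
  have e2 : d ^ (12 : ℤ) = d ^ 12 := by norm_cast
  rw [e1, e2]
  field_simp

theorem E₄_ne_zero_of_jFun_ne {τ : ℍ} (h : jFun τ ≠ 0) : E₄ τ ≠ 0 := by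
  intro h0
  exact h (by simp [jFun, h0])

theorem E₆_ne_zero_of_jFun_ne {τ : ℍ} (h : jFun τ ≠ 1728) : E₆ τ ≠ 0 := by
  intro h0
  have h1 := jFun_sub_1728 τ
  rw [h0] at h1
  exact h (by simpa [sub_eq_zero] using h1)

theorem jFun_differentiableOn : DifferentiableOn ℂ (jFun ∘ ofComplex) {z | 0 < z.im} := by
  have h : DifferentiableOn ℂ
      (fun z => ((E₄ : ℍ → ℂ) ∘ ofComplex) z ^ 3 / ((Δ : ℍ → ℂ) ∘ ofComplex) z) {z | 0 < z.im} :=
    (E₄_differentiableOn.pow 3).div discriminant_differentiableOn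
      fun z _ => discriminant_ne_zero _
  exact h

theorem jFun_mdiff : MDiff jFun := UpperHalfPlane.mdifferentiable_iff.mpr jFun_differentiableOn

theorem jFun_analyticAt (τ : ℍ) : AnalyticAt ℂ (jFun ∘ ofComplex) (τ : ℂ) :=
  jFun_differentiableOn.analyticAt (isOpen_upperHalfPlaneSet.mem_nhds τ.im_pos)

theorem E₄_analyticAt (τ : ℍ) : AnalyticAt ℂ ((E₄ : ℍ → ℂ) ∘ ofComplex) (τ : ℂ) :=
  E₄_differentiableOn.analyticAt (isOpen_upperHalfPlaneSet.mem_nhds τ.im_pos)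

theorem E₆_analyticAt (τ : ℍ) : AnalyticAt ℂ ((E₆ : ℍ → ℂ) ∘ ofComplex) (τ : ℂ) :=
  E₆_differentiableOn.analyticAt (isOpen_upperHalfPlaneSet.mem_nhds τ.im_pos)

theorem discriminant_analyticAt (τ : ℍ) : AnalyticAt ℂ ((Δ : ℍ → ℂ) ∘ ofComplex) (τ : ℂ) :=
  discriminant_differentiableOn.analyticAt (isOpen_upperHalfPlaneSet.mem_nhds τ.im_pos)

/-- The bracket identity in terms of ordinary derivatives. -/
theorem bracket_deriv (τ : ℍ) :
    2 * E₄ τ * deriv ((E₆ : ℍ → ℂ) ∘ ofComplex) τ - 3 * E₆ τ * deriv ((E₄ : ℍ → ℂ) ∘ ofComplex) τ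
      = -(2 * π * Complex.I) * (E₄ τ ^ 3 - E₆ τ ^ 2) := by
  have hb := bracket_eq τ
  have hΔ := ModularForm.discriminant_eq_E₄_cube_sub_E₆_sq τ
  have hpi : (2 * π * Complex.I : ℂ) ≠ 0 := by simp [Real.pi_ne_zero]
  simp only [brk, Derivative.normalizedDerivOfComplex] at hb
  rw [hΔ] at hb
  field_simp at hb
  linear_combination (1 / 3456 : ℂ) * hb

/-- **The derivative of `j`**: `j' = -2πi · E₄² E₆ / Δ`. -/
theorem deriv_jFun (τ : ℍ) :
    deriv (jFun ∘ ofComplex) τ = -(2 * π * Complex.I) * E₄ τ ^ 2 * E₆ τ / Δ τ := by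
  have h4 : HasDerivAt ((E₄ : ℍ → ℂ) ∘ ofComplex) (deriv ((E₄ : ℍ → ℂ) ∘ ofComplex) τ) τ :=
    (E₄_analyticAt τ).differentiableAt.hasDerivAt
  have h6 : HasDerivAt ((E₆ : ℍ → ℂ) ∘ ofComplex) (deriv ((E₆ : ℍ → ℂ) ∘ ofComplex) τ) τ :=
    (E₆_analyticAt τ).differentiableAt.hasDerivAt
  have hΔτ := ModularForm.discriminant_eq_E₄_cube_sub_E₆_sq τ
  have hΔne := discriminant_ne_zero τ
  have hj : (jFun ∘ ofComplex) =ᶠ[𝓝 (τ : ℂ)] fun z =>
      ((E₄ : ℍ → ℂ) ∘ ofComplex) z ^ 3 /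
        ((((E₄ : ℍ → ℂ) ∘ ofComplex) z ^ 3 - ((E₆ : ℍ → ℂ) ∘ ofComplex) z ^ 2) / 1728) := by
    filter_upwards [isOpen_upperHalfPlaneSet.mem_nhds τ.im_pos] with w hw
    simp only [Function.comp_apply, jFun, ModularForm.discriminant_eq_E₄_cube_sub_E₆_sq]
  have hden := ((h4.pow 3).sub (h6.pow 2)).div_const 1728
  have hval4 : ((E₄ : ℍ → ℂ) ∘ ofComplex) (τ : ℂ) = E₄ τ := by simp
  have hval6 : ((E₆ : ℍ → ℂ) ∘ ofComplex) (τ : ℂ) = E₆ τ := by simp
  have hne : (((E₄ : ℍ → ℂ) ∘ ofComplex) (τ : ℂ) ^ 3 - ((E₆ : ℍ → ℂ) ∘ ofComplex) (τ : ℂ) ^ 2) / 1728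
      ≠ 0 := by
    rw [hval4, hval6, ← hΔτ]
    exact hΔne
  have hquot := (h4.pow 3).div hden hne
  rw [(hquot.congr_of_eventuallyEq hj).deriv]
  simp only [Pi.sub_apply, Pi.pow_apply, hval4, hval6, Nat.cast_ofNat,
    show (3 : ℕ) - 1 = 2 by norm_num, show (2 : ℕ) - 1 = 1 by norm_num, pow_one]
  have hb := bracket_deriv τ
  rw [hΔτ] at hΔne ⊢
  have hne' : E₄ τ ^ 3 - E₆ τ ^ 2 ≠ 0 := by
    intro h0
    exact hΔne (by rw [h0]; simp)
  generalize deriv ((E₄ : ℍ → ℂ) ∘ ofComplex) τ = a' at hb ⊢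
  generalize deriv ((E₆ : ℍ → ℂ) ∘ ofComplex) τ = b' at hb ⊢
  generalize E₄ τ = a at hb hne' ⊢
  generalize E₆ τ = b at hb hne' ⊢
  field_simp
  linear_combination (a ^ 2 * b) * hb


/-! ### Orders of `j - c` -/

theorem comp_ofComplex_coe (f : ℍ → ℂ) (τ : ℍ) : (f ∘ ofComplex) (τ : ℂ) = f τ := by
  rw [Function.comp_apply, ofComplex_apply]

/-- `E₆` has only simple zeros. -/
theorem deriv_E₆_ne_zero_of_zero {τ : ℍ} (h : E₆ τ = 0) :
    deriv ((E₆ : ℍ → ℂ) ∘ ofComplex) (τ : ℂ) ≠ 0 := by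
  intro hd
  have hb := bracket_eq τ
  rw [brk, h, Derivative.normalizedDerivOfComplex, hd] at hb
  have : Δ τ = 0 := by linear_combination (1 / 3456 : ℂ) * hb
  exact discriminant_ne_zero _ this

/-- `E₄` has only simple zeros. -/
theorem deriv_E₄_ne_zero_of_zero {τ : ℍ} (h : E₄ τ = 0) :
    deriv ((E₄ : ℍ → ℂ) ∘ ofComplex) (τ : ℂ) ≠ 0 := by
  intro hd
  have hb := bracket_eq τ
  simp only [brk, h, Derivative.normalizedDerivOfComplex, hd] at hb
  have : Δ τ = 0 := by linear_combination (1 / 3456 : ℂ) * hb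
  exact discriminant_ne_zero _ this

/-- Away from the elliptic values `0` and `1728`, the function `j - j τ₀` has a simple zero
at `τ₀`. -/
theorem analyticOrderAt_jFun_sub (τ₀ : ℍ) (h0 : jFun τ₀ ≠ 0) (h1 : jFun τ₀ ≠ 1728) :
    analyticOrderAt (fun z => (jFun ∘ ofComplex) z - jFun τ₀) (τ₀ : ℂ) = 1 := by
  have hpi : (2 * π * Complex.I : ℂ) ≠ 0 := by simp [Real.pi_ne_zero]
  have hd : deriv (jFun ∘ ofComplex) τ₀ ≠ 0 := by
    rw [deriv_jFun]
    exact div_ne_zero (mul_ne_zero (mul_ne_zero (neg_ne_zero.mpr hpi)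
      (pow_ne_zero 2 (E₄_ne_zero_of_jFun_ne h0))) (E₆_ne_zero_of_jFun_ne h1))
      (discriminant_ne_zero τ₀)
  have h := (jFun_analyticAt τ₀).analyticOrderAt_sub_eq_one_of_deriv_ne_zero hd
  rw [comp_ofComplex_coe] at h
  exact h

/-- `j - 1728` has a double zero wherever it vanishes. -/
theorem analyticOrderAt_jFun_sub_1728 (τ₀ : ℍ) (h : jFun τ₀ = 1728) :
    analyticOrderAt (fun z => (jFun ∘ ofComplex) z - 1728) (τ₀ : ℂ) = 2 := by
  have hE₆ : E₆ τ₀ = 0 := by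
    have h1 := jFun_sub_1728 τ₀
    rw [h, sub_self] at h1
    have hΔ := discriminant_ne_zero τ₀
    have h2 : E₆ τ₀ ^ 2 = 0 := by
      rcases div_eq_zero_iff.mp h1.symm with h3 | h3
      · exact h3
      · exact absurd h3 hΔ
    exact (pow_eq_zero_iff (by norm_num)).mp h2
  have hΔ : ((Δ : ℍ → ℂ) ∘ ofComplex) (τ₀ : ℂ) ≠ 0 := by
    rw [comp_ofComplex_coe]
    exact discriminant_ne_zero τ₀
  have hinv := (discriminant_analyticAt τ₀).inv hΔ
  have hev : (fun z => (jFun ∘ ofComplex) z - 1728) =ᶠ[𝓝 (τ₀ : ℂ)]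
      (((E₆ : ℍ → ℂ) ∘ ofComplex) ^ 2 * ((Δ : ℍ → ℂ) ∘ ofComplex)⁻¹) := by
    filter_upwards [isOpen_upperHalfPlaneSet.mem_nhds τ₀.im_pos] with w hw
    simp only [Function.comp_apply, Pi.mul_apply, Pi.pow_apply, Pi.inv_apply]
    rw [jFun_sub_1728, div_eq_mul_inv]
  have h1 : analyticOrderAt ((E₆ : ℍ → ℂ) ∘ ofComplex) (τ₀ : ℂ) = 1 :=
    (E₆_analyticAt τ₀).analyticOrderAt_eq_one_of_zero_deriv_ne_zero
      (by rw [comp_ofComplex_coe, hE₆]) (deriv_E₆_ne_zero_of_zero hE₆)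
  have h2 : analyticOrderAt ((Δ : ℍ → ℂ) ∘ ofComplex)⁻¹ (τ₀ : ℂ) = 0 :=
    hinv.analyticOrderAt_eq_zero.mpr (by rw [Pi.inv_apply]; exact inv_ne_zero hΔ)
  rw [analyticOrderAt_congr hev, analyticOrderAt_mul ((E₆_analyticAt τ₀).pow 2) hinv,
    analyticOrderAt_pow (E₆_analyticAt τ₀), h1, h2]
  norm_num

/-- `j` has a triple zero wherever it vanishes. -/
theorem analyticOrderAt_jFun_zero (τ₀ : ℍ) (h : jFun τ₀ = 0) :
    analyticOrderAt (jFun ∘ ofComplex) (τ₀ : ℂ) = 3 := by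
  have hE₄ : E₄ τ₀ = 0 := by
    by_contra hne
    have hΔ := discriminant_ne_zero τ₀
    rw [jFun] at h
    exact (div_ne_zero (pow_ne_zero 3 hne) hΔ) h
  have hΔ : ((Δ : ℍ → ℂ) ∘ ofComplex) (τ₀ : ℂ) ≠ 0 := by
    rw [comp_ofComplex_coe]
    exact discriminant_ne_zero τ₀
  have hinv := (discriminant_analyticAt τ₀).inv hΔ
  have hev : (jFun ∘ ofComplex) =ᶠ[𝓝 (τ₀ : ℂ)]
      (((E₄ : ℍ → ℂ) ∘ ofComplex) ^ 3 * ((Δ : ℍ → ℂ) ∘ ofComplex)⁻¹) := by
    filter_upwards [isOpen_upperHalfPlaneSet.mem_nhds τ₀.im_pos] with w hw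
    simp only [Function.comp_apply, Pi.mul_apply, Pi.pow_apply, Pi.inv_apply, jFun,
      div_eq_mul_inv]
  have h1 : analyticOrderAt ((E₄ : ℍ → ℂ) ∘ ofComplex) (τ₀ : ℂ) = 1 :=
    (E₄_analyticAt τ₀).analyticOrderAt_eq_one_of_zero_deriv_ne_zero
      (by rw [comp_ofComplex_coe, hE₄]) (deriv_E₄_ne_zero_of_zero hE₄)
  have h2 : analyticOrderAt ((Δ : ℍ → ℂ) ∘ ofComplex)⁻¹ (τ₀ : ℂ) = 0 :=
    hinv.analyticOrderAt_eq_zero.mpr (by rw [Pi.inv_apply]; exact inv_ne_zero hΔ)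
  rw [analyticOrderAt_congr hev, analyticOrderAt_mul ((E₄_analyticAt τ₀).pow 3) hinv,
    analyticOrderAt_pow (E₄_analyticAt τ₀), h1, h2]
  norm_num

/-! ### Growth of `j` -/

theorem norm_cexp_two_pi_I_mul (τ : ℍ) :
    ‖Complex.exp (2 * π * Complex.I * τ)‖ = Real.exp (-(2 * π * τ.im)) := by
  rw [Complex.norm_exp]
  congr 1
  have : (2 * π * Complex.I * (τ : ℂ)) = ((2 * π : ℝ) : ℂ) * (Complex.I * (τ : ℂ)) := by
    push_cast; ring
  rw [this, Complex.re_ofReal_mul]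
  simp

theorem qParam_one_eq (z : ℂ) : 𝕢 1 z = Complex.exp (2 * π * Complex.I * z) := by
  simp [Function.Periodic.qParam]

/-- `j(τ) q → 1` as `τ → i∞`. -/
theorem tendsto_jFun_mul_cexp :
    Tendsto (fun τ : ℍ => jFun τ * Complex.exp (2 * π * Complex.I * τ)) atImInfty (𝓝 1) := by
  have h := (tendsto_E₄.pow 3).div tendsto_discriminant_div_q one_ne_zero
  have h1 : ((1 : ℂ) ^ 3 / 1) = 1 := by norm_num
  rw [h1] at h
  refine h.congr fun τ => ?_
  have hq : 𝕢 1 (τ : ℂ) ≠ 0 := Function.Periodic.qParam_ne_zero _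
  have hΔ := discriminant_ne_zero τ
  simp only [Pi.div_apply]
  rw [← qParam_one_eq, jFun]
  field_simp

theorem exists_jFun_upper :
    ∃ A : ℝ, ∀ τ : ℍ, A ≤ τ.im → ‖jFun τ‖ ≤ 2 * Real.exp (2 * π * τ.im) := by
  have h := tendsto_jFun_mul_cexp.norm
  rw [norm_one] at h
  have hev := h.eventually (gt_mem_nhds (show (1 : ℝ) < 2 by norm_num))
  obtain ⟨A, hA⟩ := (atImInfty_mem _).mp hev
  refine ⟨A, fun τ hτ => ?_⟩
  have h2 : ‖jFun τ * Complex.exp (2 * π * Complex.I * τ)‖ < 2 := hA τ hτ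
  rw [norm_mul, norm_cexp_two_pi_I_mul, Real.exp_neg] at h2
  have hpos : 0 < Real.exp (2 * π * τ.im) := Real.exp_pos _
  rw [← div_eq_mul_inv, div_lt_iff₀ hpos] at h2
  exact h2.le

theorem exists_jFun_lower :
    ∃ A : ℝ, ∀ τ : ℍ, A ≤ τ.im → Real.exp (2 * π * τ.im) / 2 ≤ ‖jFun τ‖ := by
  have h := tendsto_jFun_mul_cexp.norm
  rw [norm_one] at h
  have hev := h.eventually (lt_mem_nhds (show (1 / 2 : ℝ) < 1 by norm_num))
  obtain ⟨A, hA⟩ := (atImInfty_mem _).mp hev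
  refine ⟨A, fun τ hτ => ?_⟩
  have h2 : 1 / 2 < ‖jFun τ * Complex.exp (2 * π * Complex.I * τ)‖ := hA τ hτ
  rw [norm_mul, norm_cexp_two_pi_I_mul, Real.exp_neg] at h2
  have hpos : 0 < Real.exp (2 * π * τ.im) := Real.exp_pos _
  rw [← div_eq_mul_inv, lt_div_iff₀ hpos] at h2
  linarith

theorem normSq_denom_eq (γ : SL(2, ℤ)) (τ : ℍ) :
    Complex.normSq (denom γ τ)
      = ((γ 1 0 : ℝ) * τ.re + (γ 1 1 : ℝ)) ^ 2 + ((γ 1 0 : ℝ) * τ.im) ^ 2 := by
  rw [ModularGroup.denom_apply, Complex.normSq_apply]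
  simp
  ring

/-- The imaginary part of a translate is at most `max (im τ) (1 / im τ)`. -/
theorem im_smul_le_max (γ : SL(2, ℤ)) (τ : ℍ) : (γ • τ).im ≤ max τ.im (1 / τ.im) := by
  rw [ModularGroup.im_smul_eq_div_normSq]
  have hpos : 0 < Complex.normSq (denom γ τ) := normSq_denom_pos γ τ.im_ne_zero
  have him := τ.im_pos
  rw [normSq_denom_eq] at hpos ⊢
  by_cases hc : γ 1 0 = 0
  · have hdet : γ 0 0 * γ 1 1 - γ 0 1 * γ 1 0 = 1 := by
      have := γ.det_coe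
      rwa [Matrix.det_fin_two] at this
    rw [hc] at hdet
    have hd : γ 1 1 ≠ 0 := by
      intro h0
      rw [h0] at hdet
      simp at hdet
    have hd1 : (1 : ℤ) ≤ (γ 1 1) ^ 2 := by
      have : 0 < (γ 1 1) ^ 2 := by positivity
      linarith
    have hd2 : (1 : ℝ) ≤ (γ 1 1 : ℝ) ^ 2 := by exact_mod_cast hd1
    apply le_max_of_le_left
    rw [hc]
    simp only [Int.cast_zero, zero_mul, zero_add, ne_eq, OfNat.ofNat_ne_zero, not_false_eq_true,
      zero_pow, add_zero]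
    exact div_le_self him.le hd2
  · have hc1 : (1 : ℤ) ≤ (γ 1 0) ^ 2 := by
      have : 0 < (γ 1 0) ^ 2 := by positivity
      linarith
    have hc2 : (1 : ℝ) ≤ (γ 1 0 : ℝ) ^ 2 := by exact_mod_cast hc1
    apply le_max_of_le_right
    rw [div_le_div_iff₀ hpos him]
    nlinarith [sq_nonneg ((γ 1 0 : ℝ) * τ.re + (γ 1 1 : ℝ)), mul_pos him him,
      mul_pos (mul_pos him him) him]

theorem jFun_bound_strip (A : ℝ) :
    ∃ B : ℝ, ∀ τ : ℍ, |τ.re| ≤ 1 / 2 → 1 / 2 ≤ τ.im → τ.im ≤ A → ‖jFun τ‖ ≤ B := by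
  have hK : IsCompact (Complex.reProdIm (Set.Icc (-(1 / 2) : ℝ) (1 / 2)) (Set.Icc (1 / 2 : ℝ) A)) :=
    isCompact_Icc.reProdIm isCompact_Icc
  have hcont : ContinuousOn (jFun ∘ ofComplex)
      (Complex.reProdIm (Set.Icc (-(1 / 2) : ℝ) (1 / 2)) (Set.Icc (1 / 2 : ℝ) A)) :=
    jFun_differentiableOn.continuousOn.mono (fun z hz => by
      have h2 : (1 / 2 : ℝ) ≤ z.im := hz.2.1
      show 0 < z.im
      linarith)
  obtain ⟨B, hB⟩ := hK.exists_bound_of_continuousOn hcont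
  refine ⟨B, fun τ h1 h2 h3 => ?_⟩
  have hmem : (τ : ℂ) ∈ Complex.reProdIm (Set.Icc (-(1 / 2) : ℝ) (1 / 2)) (Set.Icc (1 / 2 : ℝ) A) :=
    ⟨⟨(abs_le.mp h1).1, (abs_le.mp h1).2⟩, h2, h3⟩
  have := hB (τ : ℂ) hmem
  rwa [comp_ofComplex_coe] at this

/-- Global growth bound for `j`. -/
theorem jFun_global_bound :
    ∃ C : ℝ, ∀ τ : ℍ, ‖jFun τ‖ ≤ C * Real.exp (2 * π * max τ.im (1 / τ.im)) := by
  obtain ⟨A, hA⟩ := exists_jFun_upper
  obtain ⟨B, hB⟩ := jFun_bound_strip A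
  refine ⟨2 + |B|, fun τ => ?_⟩
  obtain ⟨γ, hγ⟩ := ModularGroup.exists_smul_mem_fd τ
  have him : (γ • τ).im ≤ max τ.im (1 / τ.im) := im_smul_le_max γ τ
  have hpi : (0 : ℝ) ≤ 2 * π := by positivity
  have hexp : Real.exp (2 * π * (γ • τ).im) ≤ Real.exp (2 * π * max τ.im (1 / τ.im)) :=
    Real.exp_le_exp.mpr (mul_le_mul_of_nonneg_left him hpi)
  have hB0 : 0 ≤ |B| := abs_nonneg B
  have h1 : ‖jFun τ‖ ≤ (2 + |B|) * Real.exp (2 * π * (γ • τ).im) := by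
    rw [← jFun_smul γ τ]
    by_cases hcase : A ≤ (γ • τ).im
    · calc ‖jFun (γ • τ)‖ ≤ 2 * Real.exp (2 * π * (γ • τ).im) := hA _ hcase
        _ ≤ (2 + |B|) * Real.exp (2 * π * (γ • τ).im) :=
          mul_le_mul_of_nonneg_right (by linarith) (Real.exp_pos _).le
    · have h3 := ModularGroup.three_le_four_mul_im_sq_of_mem_fd hγ
      have hhalf : 1 / 2 ≤ (γ • τ).im := by nlinarith [(γ • τ).im_pos]
      have hb := hB (γ • τ) hγ.2 hhalf (le_of_not_ge hcase)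
      have hone : 1 ≤ Real.exp (2 * π * (γ • τ).im) :=
        Real.one_le_exp (mul_nonneg hpi (γ • τ).im_pos.le)
      calc ‖jFun (γ • τ)‖ ≤ B := hb
        _ ≤ |B| := le_abs_self B
        _ ≤ (2 + |B|) * 1 := by linarith
        _ ≤ (2 + |B|) * Real.exp (2 * π * (γ • τ).im) :=
          mul_le_mul_of_nonneg_left hone (by linarith)
  exact h1.trans (mul_le_mul_of_nonneg_left hexp (by linarith))

/-! ### Invariant functions of moderate growth are polynomials in `j` -/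

/-- Package an `SL(2,ℤ)`-slash-invariant holomorphic function bounded at `i∞` as a modular form. -/
def mkForm (k : ℤ) (g : ℍ → ℂ) (hg : MDiff g)
    (hinv : ∀ γ : SL(2, ℤ), g ∣[k] γ = g) (hb : IsBoundedAtImInfty g) : ModularForm 𝒮ℒ k where
  toFun := g
  slash_action_eq' := fun _ ⟨γ, hγ⟩ ↦ hγ ▸ hinv γ
  holo' := hg
  bdd_at_cusps' {c} hc := by
    rw [Subgroup.IsArithmetic.isCusp_iff_isCusp_SL2Z] at hc
    rw [OnePoint.isBoundedAt_iff_forall_SL2Z hc]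
    intro γ _
    rw [hinv γ]
    exact hb

@[simp]
theorem mkForm_apply (k : ℤ) (g : ℍ → ℂ) (hg : MDiff g)
    (hinv : ∀ γ : SL(2, ℤ), g ∣[k] γ = g) (hb : IsBoundedAtImInfty g) (τ : ℍ) :
    mkForm k g hg hinv hb τ = g τ := rfl

/-- Weight-`k` slash invariance from the pointwise transformation law. -/
theorem slash_eq_of_smul (k : ℤ) (g : ℍ → ℂ)
    (h : ∀ (γ : SL(2, ℤ)) (τ : ℍ), g (γ • τ) = g τ * denom γ τ ^ k) (γ : SL(2, ℤ)) :
    g ∣[k] γ = g := by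
  funext τ
  rw [SL_slash_apply, h γ τ, mul_assoc, ← zpow_add₀ (denom_ne_zero γ τ)]
  simp

/-- A level one modular form tends to the constant term of its `q`-expansion at `i∞`. -/
theorem tendsto_coeff_zero {k : ℤ} (G : ModularForm 𝒮ℒ k) :
    Tendsto G atImInfty (𝓝 ((qExpansion 1 G).coeff 0)) := by
  have hanal := ModularFormClass.analyticAt_cuspFunction_zero G one_pos one_mem_strictPeriods_SL
  have hper := SlashInvariantFormClass.periodic_comp_ofComplex G one_mem_strictPeriods_SL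
  have h0 : (qExpansion 1 G).coeff 0 = cuspFunction 1 G 0 := by
    rw [qExpansion_coeff_zero one_pos hanal hper, cuspFunction_apply_zero one_pos hanal hper]
  rw [h0]
  exact (hanal.continuousAt.tendsto.comp (qParam_tendsto_atImInfty one_pos)).congr
    (fun τ ↦ SlashInvariantFormClass.eq_cuspFunction G τ one_mem_strictPeriods_SL one_ne_zero)

theorem coeff_zero_eq_of_tendsto {k : ℤ} (G : ModularForm 𝒮ℒ k) {c : ℂ}
    (h : Tendsto G atImInfty (𝓝 c)) : (qExpansion 1 G).coeff 0 = c :=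
  tendsto_nhds_unique (tendsto_coeff_zero G) h

theorem discriminant_pow_mul_slash (m : ℕ) (f : ℍ → ℂ)
    (hinv : ∀ (γ : SL(2, ℤ)) (τ : ℍ), f (γ • τ) = f τ) (γ : SL(2, ℤ)) :
    (fun τ ↦ Δ τ ^ m * f τ) ∣[(12 * (m : ℤ))] γ = fun τ ↦ Δ τ ^ m * f τ := by
  refine slash_eq_of_smul _ _ (fun γ τ ↦ ?_) γ
  have hd : denom γ τ ≠ 0 := denom_ne_zero γ τ
  rw [hinv γ τ, discriminant_smul, mul_pow, ← zpow_natCast (denom γ τ ^ (12 : ℤ)) m, ← zpow_mul]
  ring

theorem E₄_pow_slash (n : ℕ) (γ : SL(2, ℤ)) :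
    (fun τ ↦ E₄ τ ^ n) ∣[(4 * (n : ℤ))] γ = fun τ ↦ E₄ τ ^ n := by
  refine slash_eq_of_smul _ _ (fun γ τ ↦ ?_) γ
  rw [apply_smul_eq E₄ γ τ, mul_pow, ← zpow_natCast (denom γ τ ^ (4 : ℤ)) n, ← zpow_mul]
  ring

/-- If `f` is holomorphic, `SL(2,ℤ)`-invariant, and `Δ ^ m * f` is bounded at `i∞`, then
`f = P ∘ j` for a polynomial `P`. -/
theorem exists_polynomial_of_bdd (m : ℕ) (f : ℍ → ℂ) (hf : MDiff f)
    (hinv : ∀ (γ : SL(2, ℤ)) (τ : ℍ), f (γ • τ) = f τ)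
    (hb : IsBoundedAtImInfty (fun τ ↦ Δ τ ^ m * f τ)) :
    ∃ P : Polynomial ℂ, ∀ τ, f τ = P.eval (jFun τ) := by
  induction m generalizing f with
  | zero =>
    have hb' : IsBoundedAtImInfty f := by simpa using hb
    have hsl : ∀ γ : SL(2, ℤ), f ∣[(0 : ℤ)] γ = f :=
      slash_eq_of_smul 0 f (fun γ τ ↦ by rw [hinv γ τ]; simp)
    obtain ⟨c, hc⟩ := ModularFormClass.levelOne_weight_zero_const (mkForm 0 f hf hsl hb')
    refine ⟨Polynomial.C c, fun τ ↦ ?_⟩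
    have := congrFun hc τ
    simpa using this
  | succ m ih =>
    have hΔh : MDiff (Δ : ℍ → ℂ) := CuspForm.discriminant.holo'
    have hE₄h : MDiff (E₄ : ℍ → ℂ) := E₄.holo'
    have hGh : MDiff (fun τ ↦ Δ τ ^ (m + 1) * f τ) := (hΔh.pow (m + 1)).mul hf
    obtain ⟨G, hG⟩ : ∃ G : ModularForm 𝒮ℒ (12 * ((m + 1 : ℕ) : ℤ)),
        ∀ τ, G τ = Δ τ ^ (m + 1) * f τ :=
      ⟨mkForm _ _ hGh (discriminant_pow_mul_slash (m + 1) f hinv) hb, fun _ ↦ rfl⟩
    have hEt : Tendsto (fun τ : ℍ ↦ E₄ τ ^ (3 * (m + 1))) atImInfty (𝓝 1) := by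
      simpa using tendsto_E₄.pow (3 * (m + 1))
    have hEsl : ∀ γ : SL(2, ℤ), (fun τ : ℍ ↦ E₄ τ ^ (3 * (m + 1))) ∣[(12 * ((m + 1 : ℕ) : ℤ))] γ
        = fun τ ↦ E₄ τ ^ (3 * (m + 1)) := by
      intro γ
      have h := E₄_pow_slash (3 * (m + 1)) γ
      have hw : (4 * ((3 * (m + 1) : ℕ) : ℤ)) = 12 * ((m + 1 : ℕ) : ℤ) := by push_cast; ring
      rwa [hw] at h
    obtain ⟨Ep, hEp⟩ : ∃ Ep : ModularForm 𝒮ℒ (12 * ((m + 1 : ℕ) : ℤ)),
        ∀ τ, Ep τ = E₄ τ ^ (3 * (m + 1)) :=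
      ⟨mkForm _ _ (hE₄h.pow (3 * (m + 1))) hEsl (hEt.isBigO_one ℝ), fun _ ↦ rfl⟩
    have hEp0 : (qExpansion 1 Ep).coeff 0 = 1 :=
      coeff_zero_eq_of_tendsto Ep (hEt.congr fun τ ↦ (hEp τ).symm)
    obtain ⟨c, hc⟩ : ∃ c : ℂ, c = (qExpansion 1 G).coeff 0 := ⟨_, rfl⟩
    obtain ⟨H, hH⟩ : ∃ H : ModularForm 𝒮ℒ (12 * ((m + 1 : ℕ) : ℤ)), H = G - c • Ep := ⟨_, rfl⟩
    have hHv : ∀ τ, H τ = G τ - c * Ep τ := fun τ ↦ by rw [hH]; rfl
    have hcusp : ModularForm.IsCuspForm H := by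
      rw [hH, hc]
      exact ModularForm.sub_smul_isCuspForm G Ep hEp0
    have hH0 : (qExpansion 1 H).coeff 0 = 0 :=
      (ModularForm.isCuspForm_iff_coeffZero_eq_zero H).mp hcusp
    obtain ⟨D, hDdef⟩ : ∃ D : ModularForm 𝒮ℒ (12 * ((m + 1 : ℕ) : ℤ) - 12),
        ∀ τ, D τ = H τ / Δ τ :=
      ⟨CuspForm.discriminantEquiv (ModularForm.toCuspForm H hH0), fun τ ↦ by
        rw [CuspForm.discriminantEquiv_apply, ModularForm.toCuspForm_apply]⟩
    have hD : ∀ τ, D τ = Δ τ ^ m * (f τ - c * jFun τ ^ (m + 1)) := by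
      intro τ
      have hΔ : Δ τ ≠ 0 := discriminant_ne_zero τ
      rw [hDdef, hHv, hG, hEp]
      have hj : jFun τ ^ (m + 1) = E₄ τ ^ (3 * (m + 1)) / Δ τ ^ (m + 1) := by
        unfold jFun
        rw [div_pow, ← pow_mul]
      rw [hj]
      field_simp
      ring
    have hf' : MDiff (fun τ ↦ f τ - c * jFun τ ^ (m + 1)) :=
      hf.sub (mdifferentiable_const.mul (jFun_mdiff.pow (m + 1)))
    have hinv' : ∀ (γ : SL(2, ℤ)) (τ : ℍ),
        (fun τ ↦ f τ - c * jFun τ ^ (m + 1)) (γ • τ) = (fun τ ↦ f τ - c * jFun τ ^ (m + 1)) τ := by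
      intro γ τ
      simp only [hinv γ τ, jFun_smul]
    have hb' : IsBoundedAtImInfty (fun τ ↦ Δ τ ^ m * (fun τ ↦ f τ - c * jFun τ ^ (m + 1)) τ) := by
      have hDb : IsBoundedAtImInfty (D : ℍ → ℂ) := ModularFormClass.bdd_at_infty D
      have : (D : ℍ → ℂ) = fun τ ↦ Δ τ ^ m * (fun τ ↦ f τ - c * jFun τ ^ (m + 1)) τ :=
        funext hD
      rwa [this] at hDb
    obtain ⟨P, hP⟩ := ih _ hf' hinv' hb'
    refine ⟨P + Polynomial.C c * Polynomial.X ^ (m + 1), fun τ ↦ ?_⟩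
    have := hP τ
    simp only [Polynomial.eval_add, Polynomial.eval_mul, Polynomial.eval_C, Polynomial.eval_pow,
      Polynomial.eval_X]
    rw [← this]
    ring

theorem exists_discriminant_upper :
    ∃ A : ℝ, ∀ τ : ℍ, A ≤ τ.im → ‖Δ τ‖ ≤ 2 * Real.exp (-(2 * π * τ.im)) := by
  have h := tendsto_discriminant_div_q.norm
  rw [norm_one] at h
  have hev := h.eventually (gt_mem_nhds (show (1 : ℝ) < 2 by norm_num))
  obtain ⟨A, hA⟩ := (atImInfty_mem _).mp hev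
  refine ⟨A, fun τ hτ => ?_⟩
  have h2 : ‖Δ τ / 𝕢 1 τ‖ < 2 := hA τ hτ
  rw [norm_div, qParam_one_eq, norm_cexp_two_pi_I_mul] at h2
  have hpos : 0 < Real.exp (-(2 * π * τ.im)) := Real.exp_pos _
  rw [div_lt_iff₀ hpos] at h2
  exact h2.le

/-- Moderate growth of `f` gives boundedness of `Δ ^ m * f` for some `m`. -/
theorem exists_bdd_of_growth (f : ℍ → ℂ)
    (hg : ∃ C A M : ℝ, ∀ τ : ℍ, A ≤ τ.im → ‖f τ‖ ≤ C * Real.exp (M * τ.im)) :
    ∃ m : ℕ, IsBoundedAtImInfty (fun τ ↦ Δ τ ^ m * f τ) := by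
  obtain ⟨C, A, M, hf⟩ := hg
  obtain ⟨A₂, hΔ⟩ := exists_discriminant_upper
  have hpi : (0 : ℝ) < 2 * π := by positivity
  obtain ⟨m, hm⟩ := exists_nat_ge (M / (2 * π))
  have hm' : M ≤ 2 * π * m := by
    rw [div_le_iff₀ hpi] at hm
    linarith
  refine ⟨m, ?_⟩
  rw [UpperHalfPlane.isBoundedAtImInfty_iff]
  refine ⟨2 ^ m * |C|, max A (max A₂ 0), fun τ hτ => ?_⟩
  have hA : A ≤ τ.im := le_trans (le_max_left _ _) hτ
  have hA₂ : A₂ ≤ τ.im := le_trans (le_trans (le_max_left _ _) (le_max_right _ _)) hτ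
  have h0 : 0 ≤ τ.im := le_trans (le_trans (le_max_right _ _) (le_max_right _ _)) hτ
  have e1 : ‖Δ τ‖ ^ m ≤ (2 * Real.exp (-(2 * π * τ.im))) ^ m :=
    pow_le_pow_left₀ (norm_nonneg _) (hΔ τ hA₂) m
  have e2 : ‖f τ‖ ≤ |C| * Real.exp (M * τ.im) :=
    (hf τ hA).trans (mul_le_mul_of_nonneg_right (le_abs_self C) (Real.exp_pos _).le)
  have e3 : (2 * Real.exp (-(2 * π * τ.im))) ^ m * (|C| * Real.exp (M * τ.im))
      = 2 ^ m * |C| * Real.exp ((M - 2 * π * m) * τ.im) := by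
    rw [mul_pow, ← Real.exp_nat_mul]
    have : Real.exp ((M - 2 * π * m) * τ.im)
        = Real.exp ((m : ℝ) * -(2 * π * τ.im)) * Real.exp (M * τ.im) := by
      rw [← Real.exp_add]
      congr 1
      ring
    rw [this]
    ring
  have e4 : Real.exp ((M - 2 * π * m) * τ.im) ≤ 1 := by
    rw [Real.exp_le_one_iff]
    exact mul_nonpos_of_nonpos_of_nonneg (by linarith) h0
  calc ‖Δ τ ^ m * f τ‖ = ‖Δ τ‖ ^ m * ‖f τ‖ := by rw [norm_mul, norm_pow]
    _ ≤ (2 * Real.exp (-(2 * π * τ.im))) ^ m * (|C| * Real.exp (M * τ.im)) :=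
        mul_le_mul e1 e2 (norm_nonneg _) (by positivity)
    _ = 2 ^ m * |C| * Real.exp ((M - 2 * π * m) * τ.im) := e3
    _ ≤ 2 ^ m * |C| * 1 := mul_le_mul_of_nonneg_left e4 (by positivity)
    _ = 2 ^ m * |C| := mul_one _

theorem rho_eq : (⟨-1 / 2 + (Real.sqrt 3 / 2 : ℝ) * Complex.I, by simp⟩ : ℍ) = ρ := by
  apply UpperHalfPlane.ext
  apply Complex.ext <;> simp [ρ]

end

end Fermat.Agent.S24.L1JAux

open UpperHalfPlane Complex Filter
open scoped MatrixGroups Manifold Topology Real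

namespace Fermat.Agent.S24

noncomputable section

/-- The analytic `j`-function `E₄³/Δ` on the upper half plane. -/
def jC (τ : ℍ) : ℂ := ModularForm.E₄ τ ^ 3 / ModularForm.discriminant τ

/-- The elliptic point `ρ = e^{2πi/3}`. -/
def rhoH : ℍ := ⟨-1 / 2 + (Real.sqrt 3 / 2 : ℝ) * Complex.I, by simp⟩

/-- Exponential growth bound at `i∞` (uniform in the real part). -/
def ModerateGrowth (f : ℍ → ℂ) : Prop :=
  ∃ C A M : ℝ, ∀ τ : ℍ, A ≤ τ.im → ‖f τ‖ ≤ C * Real.exp (M * τ.im)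

theorem jC_eq_L1JAux_jFun : jC = L1JAux.jFun := rfl

theorem rhoH_eq_L1JAux : rhoH = UpperHalfPlane.ρ := L1JAux.rho_eq

/-- (J1) -/
theorem jC_mdiff : MDiff jC := L1JAux.jFun_mdiff

/-- (J2) -/
theorem jC_smul (γ : SL(2, ℤ)) (τ : ℍ) : jC (γ • τ) = jC τ := L1JAux.jFun_smul γ τ

/-- (J3) `j(τ) q → 1` as `τ → i∞`, `q = e^{2πiτ}`. -/
theorem jC_mul_q_tendsto :
    Tendsto (fun τ : ℍ => jC τ * cexp (2 * π * Complex.I * τ)) atImInfty (𝓝 1) :=
  L1JAux.tendsto_jFun_mul_cexp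

/-- (J4) `j` is surjective (`E₄³ - cΔ` zero-free would give a nonzero weight-0 cusp form). -/
theorem jC_surjective : Function.Surjective jC := L1JAux.jFun_surjective

/-- (J5a) -/
theorem jC_I : jC UpperHalfPlane.I = 1728 := L1JAux.jFun_I

/-- (J5b) -/
theorem jC_rhoH : jC rhoH = 0 := by
  rw [rhoH_eq_L1JAux]
  exact L1JAux.jFun_ρ

/-- (J5c) -/
theorem S_smul_I : ModularGroup.S • (UpperHalfPlane.I : ℍ) = UpperHalfPlane.I :=
  L1JAux.S_smul_I

/-- (J5d) -/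
theorem ST_smul_rhoH : (ModularGroup.S * ModularGroup.T) • rhoH = rhoH := by
  rw [rhoH_eq_L1JAux]
  exact L1JAux.ST_smul_ρ

/-- (J6a) `j - j(τ₀)` has a simple zero at `τ₀` when `j(τ₀) ∉ {0, 1728}`
(`D j = -E₄²E₆/Δ`). -/
theorem analyticOrderAt_jC_sub (τ₀ : ℍ) (h0 : jC τ₀ ≠ 0) (h1 : jC τ₀ ≠ 1728) :
    analyticOrderAt (fun z : ℂ => jC (ofComplex z) - jC τ₀) (τ₀ : ℂ) = 1 :=
  L1JAux.analyticOrderAt_jFun_sub τ₀ h0 h1

/-- (J6b) `j - 1728` has a double zero wherever it vanishes. -/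
theorem analyticOrderAt_jC_sub_1728 (τ₀ : ℍ) (h : jC τ₀ = 1728) :
    analyticOrderAt (fun z : ℂ => jC (ofComplex z) - 1728) (τ₀ : ℂ) = 2 :=
  L1JAux.analyticOrderAt_jFun_sub_1728 τ₀ h

/-- (J6c) `j` has a triple zero wherever it vanishes. -/
theorem analyticOrderAt_jC_zero (τ₀ : ℍ) (h : jC τ₀ = 0) :
    analyticOrderAt (fun z : ℂ => jC (ofComplex z)) (τ₀ : ℂ) = 3 :=
  L1JAux.analyticOrderAt_jFun_zero τ₀ h

/-- (J7) global growth bound (fundamental domain + invariance + (J3)). -/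
theorem jC_global_bound :
    ∃ C : ℝ, ∀ τ : ℍ, ‖jC τ‖ ≤ C * Real.exp (2 * π * max τ.im (1 / τ.im)) :=
  L1JAux.jFun_global_bound

/-- (J7') lower bound near `i∞`. -/
theorem jC_lower_bound :
    ∃ A : ℝ, ∀ τ : ℍ, A ≤ τ.im → Real.exp (2 * π * τ.im) / 2 ≤ ‖jC τ‖ :=
  L1JAux.exists_jFun_lower

/-- (J8) A holomorphic `SL(2,ℤ)`-invariant function of moderate growth is a polynomial in `j`
(induction on the growth exponent; weight-0 level-one modular forms are constant). -/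
theorem exists_polynomial_of_invariant (f : ℍ → ℂ) (hf : MDiff f)
    (hinv : ∀ (γ : SL(2, ℤ)) (τ : ℍ), f (γ • τ) = f τ) (hg : ModerateGrowth f) :
    ∃ p : Polynomial ℂ, ∀ τ : ℍ, f τ = p.eval (jC τ) := by
  obtain ⟨m, hm⟩ := L1JAux.exists_bdd_of_growth f hg
  exact L1JAux.exists_polynomial_of_bdd m f hf hinv hm

end

end Fermat.Agent.S24
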