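import Mathlib
import Fermat.Prelude.Def_ModularCurve_GenusNumerics
import Fermat.Agent.S24.CountingBasic

/-!
# The number of `T`-orbits on `SL(2, ℤ) ⧸ Γ₀(N)` is the cusp count

Part of the S24 counting package (helper5004).
-/

set_option autoImplicit false

open Matrix Matrix.SpecialLinearGroup ModularGroup CongruenceSubgroup
open scoped MatrixGroups

namespace Fermat.Agent.S24.Cnt

/-- General principle: orbits of a group action are counted by the range of any complete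
invariant. -/
theorem card_orbitRel_quotient_eq_card_range {G : Type*} [Group G] {X : Type*} [MulAction G X]
    {α : Type*} (f : X → α) (hf : ∀ x y, f x = f y ↔ x ∈ MulAction.orbit G y) :
    Nat.card (MulAction.orbitRel.Quotient G X) = Nat.card (Set.range f) := by
  refine Nat.card_congr (Equiv.ofBijective
    (fun q => Quotient.liftOn' q (fun x => (⟨f x, x, rfl⟩ : Set.range f)) ?_) ⟨?_, ?_⟩)
  · intro a b hab
    exact Subtype.ext ((hf a b).mpr (MulAction.orbitRel_apply.mp hab))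
  · intro q₁ q₂
    induction q₁ using Quotient.inductionOn' with | _ a => ?_
    induction q₂ using Quotient.inductionOn' with | _ b => ?_
    intro h
    have h' : f a = f b := congrArg Subtype.val h
    exact Quotient.sound' (MulAction.orbitRel_apply.mpr ((hf a b).mp h'))
  · rintro ⟨_, x, rfl⟩
    exact ⟨Quotient.mk'' x, rfl⟩

section core

variable (N : ℕ)

theorem cusp_core_gcd_dvd (a₁ c₁ a₂ c₂ : ℤ) (h₁ : IsCoprime a₁ c₁)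
    (h : (N : ℤ) ∣ a₁ * c₂ - c₁ * a₂) : Int.gcd c₁ N ∣ Int.gcd c₂ N := by
  have hd₁c : ((Int.gcd c₁ N : ℕ) : ℤ) ∣ c₁ := Int.gcd_dvd_left _ _
  have hd₁N : ((Int.gcd c₁ N : ℕ) : ℤ) ∣ (N : ℤ) := Int.gcd_dvd_right _ _
  have h1 : ((Int.gcd c₁ N : ℕ) : ℤ) ∣ a₁ * c₂ := by
    have : a₁ * c₂ = (a₁ * c₂ - c₁ * a₂) + c₁ * a₂ := by ring
    rw [this]
    exact dvd_add (dvd_trans hd₁N h) (dvd_mul_of_dvd_left hd₁c _)
  have hcop : IsCoprime ((Int.gcd c₁ N : ℕ) : ℤ) a₁ :=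
    (h₁.symm.of_isCoprime_of_dvd_left hd₁c)
  have h2 : ((Int.gcd c₁ N : ℕ) : ℤ) ∣ c₂ := hcop.dvd_of_dvd_mul_left h1
  exact Int.natCast_dvd_natCast.mp (Int.dvd_coe_gcd h2 hd₁N)

theorem cusp_core_A (hN : N ≠ 0) (a₁ c₁ a₂ c₂ k : ℤ) (h₁ : IsCoprime a₁ c₁)
    (h₂ : IsCoprime a₂ c₂) (h : (N : ℤ) ∣ (a₁ + k * c₁) * c₂ - c₁ * a₂) :
    Int.gcd c₁ N = Int.gcd c₂ N ∧
      ((Nat.gcd (Int.gcd c₁ N) (N / Int.gcd c₁ N) : ℕ) : ℤ) ∣
        a₁ * (c₂ / (Int.gcd c₁ N : ℤ)) - a₂ * (c₁ / (Int.gcd c₁ N : ℤ)) := by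
  have h₁' : IsCoprime (a₁ + k * c₁) c₁ := by
    rw [add_comm]; exact IsCoprime.mul_add_right_left h₁ k
  have hdvd₁ : Int.gcd c₁ N ∣ Int.gcd c₂ N := cusp_core_gcd_dvd N _ _ _ _ h₁' h
  have hdvd₂ : Int.gcd c₂ N ∣ Int.gcd c₁ N := by
    apply cusp_core_gcd_dvd N a₂ c₂ (a₁ + k * c₁) c₁ h₂
    have : a₂ * c₁ - c₂ * (a₁ + k * c₁) = -((a₁ + k * c₁) * c₂ - c₁ * a₂) := by ring
    rw [this]
    exact (dvd_neg).mpr h
  have hd : Int.gcd c₁ N = Int.gcd c₂ N := Nat.dvd_antisymm hdvd₁ hdvd₂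
  refine ⟨hd, ?_⟩
  set d := Int.gcd c₁ N with hd_def
  have hd0 : d ≠ 0 := by
    intro h0
    rw [hd_def, Int.gcd_eq_zero_iff] at h0
    exact hN (by exact_mod_cast h0.2)
  have hd0' : (d : ℤ) ≠ 0 := by exact_mod_cast hd0
  obtain ⟨c₁', hc₁'⟩ : (d : ℤ) ∣ c₁ := Int.gcd_dvd_left _ _
  obtain ⟨c₂', hc₂'⟩ : (d : ℤ) ∣ c₂ := by rw [hd]; exact Int.gcd_dvd_left _ _
  obtain ⟨M, hM⟩ : d ∣ N := Int.natCast_dvd_natCast.mp (Int.gcd_dvd_right _ _)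
  have hq₁ : c₁ / (d : ℤ) = c₁' := by rw [hc₁']; exact Int.mul_ediv_cancel_left _ hd0'
  have hq₂ : c₂ / (d : ℤ) = c₂' := by rw [hc₂']; exact Int.mul_ediv_cancel_left _ hd0'
  have hNd : N / d = M := by rw [hM]; exact Nat.mul_div_cancel_left _ (Nat.pos_of_ne_zero hd0)
  rw [hq₁, hq₂, hNd]
  have hM' : (M : ℤ) ∣ (a₁ + k * (d * c₁')) * c₂' - c₁' * a₂ := by
    have hh : ((d : ℤ) * (M : ℤ)) ∣ (d : ℤ) * ((a₁ + k * (d * c₁')) * c₂' - c₁' * a₂) := by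
      have e : (d : ℤ) * ((a₁ + k * (d * c₁')) * c₂' - c₁' * a₂)
          = (a₁ + k * c₁) * c₂ - c₁ * a₂ := by rw [hc₁', hc₂']; ring
      rw [e]
      have : ((d : ℤ) * (M : ℤ)) = (N : ℤ) := by rw [hM]; push_cast; ring
      rw [this]; exact h
    exact (mul_dvd_mul_iff_left hd0').mp hh
  have hgM : ((Nat.gcd d M : ℕ) : ℤ) ∣ (M : ℤ) := Int.natCast_dvd_natCast.mpr (Nat.gcd_dvd_right _ _)
  have hgd : ((Nat.gcd d M : ℕ) : ℤ) ∣ (d : ℤ) := Int.natCast_dvd_natCast.mpr (Nat.gcd_dvd_left _ _)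
  have e : a₁ * c₂' - a₂ * c₁' = ((a₁ + k * (d * c₁')) * c₂' - c₁' * a₂) - (d : ℤ) * (k * c₁' * c₂') := by
    ring
  rw [e]
  exact dvd_sub (dvd_trans hgM hM') (dvd_mul_of_dvd_left hgd _)

theorem cusp_core_B (hN : N ≠ 0) (a₁ c₁ a₂ c₂ : ℤ)
    (hd : Int.gcd c₁ N = Int.gcd c₂ N)
    (hg : ((Nat.gcd (Int.gcd c₁ N) (N / Int.gcd c₁ N) : ℕ) : ℤ) ∣
        a₁ * (c₂ / (Int.gcd c₁ N : ℤ)) - a₂ * (c₁ / (Int.gcd c₁ N : ℤ))) :
    ∃ k : ℤ, (N : ℤ) ∣ (a₁ + k * c₁) * c₂ - c₁ * a₂ := by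
  have hdpos : 0 < Int.gcd c₁ N := by
    rcases Nat.eq_zero_or_pos (Int.gcd c₁ N) with h0 | h0
    · rw [Int.gcd_eq_zero_iff] at h0
      exact absurd (by exact_mod_cast h0.2) hN
    · exact h0
  have hcop₁ : Int.gcd (c₁ / (Int.gcd c₁ N : ℤ)) ((N : ℤ) / (Int.gcd c₁ N : ℤ)) = 1 :=
    Int.gcd_div_gcd_div_gcd hdpos
  have hcop₂ : Int.gcd (c₂ / (Int.gcd c₁ N : ℤ)) ((N : ℤ) / (Int.gcd c₁ N : ℤ)) = 1 := by
    have hdpos₂ : 0 < Int.gcd c₂ N := hd ▸ hdpos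
    have := Int.gcd_div_gcd_div_gcd hdpos₂
    rwa [← hd] at this
  set d := Int.gcd c₁ N with hd_def
  have hd0 : d ≠ 0 := hdpos.ne'
  have hd0' : (d : ℤ) ≠ 0 := by exact_mod_cast hd0
  obtain ⟨c₁', hc₁'⟩ : (d : ℤ) ∣ c₁ := Int.gcd_dvd_left _ _
  obtain ⟨c₂', hc₂'⟩ : (d : ℤ) ∣ c₂ := by rw [hd]; exact Int.gcd_dvd_left _ _
  obtain ⟨M, hM⟩ : d ∣ N := Int.natCast_dvd_natCast.mp (Int.gcd_dvd_right _ _)
  have hq₁ : c₁ / (d : ℤ) = c₁' := by rw [hc₁']; exact Int.mul_ediv_cancel_left _ hd0'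
  have hq₂ : c₂ / (d : ℤ) = c₂' := by rw [hc₂']; exact Int.mul_ediv_cancel_left _ hd0'
  have hNd : N / d = M := by rw [hM]; exact Nat.mul_div_cancel_left _ (Nat.pos_of_ne_zero hd0)
  have hNd' : (N : ℤ) / (d : ℤ) = (M : ℤ) := by
    rw [hM]; push_cast; exact Int.mul_ediv_cancel_left _ hd0'
  rw [hq₁, hq₂, hNd] at hg
  rw [hq₁, hNd'] at hcop₁
  rw [hq₂, hNd'] at hcop₂
  have hc₁M : IsCoprime c₁' (M : ℤ) := Int.isCoprime_iff_gcd_eq_one.mpr hcop₁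
  have hc₂M : IsCoprime c₂' (M : ℤ) := Int.isCoprime_iff_gcd_eq_one.mpr hcop₂
  obtain ⟨w, z, hwz⟩ : IsCoprime (c₁' * c₂') (M : ℤ) := hc₁M.mul_left hc₂M
  obtain ⟨t, ht⟩ := hg
  have hbez := Nat.gcd_eq_gcd_ab d M
  set x := Nat.gcdA d M
  set y := Nat.gcdB d M
  refine ⟨-t * x * w, ?_⟩
  refine ⟨t * (y + x * d * z), ?_⟩
  rw [hc₁', hc₂', hM]
  push_cast
  have e1 : a₁ * c₂' = a₂ * c₁' + (Nat.gcd d M : ℤ) * t := by linear_combination ht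
  have e2 : (w * (c₁' * c₂')) = 1 - z * (M : ℤ) := by linear_combination hwz
  calc (a₁ + -t * x * w * ((d : ℤ) * c₁')) * ((d : ℤ) * c₂') - (d : ℤ) * c₁' * a₂
      = (d : ℤ) * ((a₁ * c₂' - a₂ * c₁') - t * x * d * (w * (c₁' * c₂'))) := by ring
    _ = (d : ℤ) * (((Nat.gcd d M : ℤ) * t) - t * x * d * (1 - z * (M : ℤ))) := by
        rw [e2]; rw [e1]; ring
    _ = (d : ℤ) * ((((d : ℤ) * x + (M : ℤ) * y) * t) - t * x * d * (1 - z * (M : ℤ))) := by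
        rw [hbez]
    _ = (d : ℤ) * (M : ℤ) * (t * (y + x * d * z)) := by ring

end core

section invariant

/-- `val (a * c⁻¹)` in `ZMod n`. -/
noncomputable def cuspInvAux (n : ℕ) (a c : ℤ) : ℕ :=
  ZMod.val ((a : ZMod n) * (c : ZMod n)⁻¹)

theorem cuspInvAux_eq_iff (n : ℕ) [NeZero n] (a₁ c₁ a₂ c₂ : ℤ) (h₁ : IsCoprime c₁ (n : ℤ))
    (h₂ : IsCoprime c₂ (n : ℤ)) :
    cuspInvAux n a₁ c₁ = cuspInvAux n a₂ c₂ ↔ (n : ℤ) ∣ a₁ * c₂ - a₂ * c₁ := by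
  unfold cuspInvAux
  rw [(ZMod.val_injective n).eq_iff]
  have e₁ := ZMod.coe_int_mul_inv_eq_one h₁
  have e₂ := ZMod.coe_int_mul_inv_eq_one h₂
  rw [← ZMod.intCast_zmod_eq_zero_iff_dvd]
  push_cast
  constructor
  · intro h
    linear_combination ((c₁ : ZMod n) * (c₂ : ZMod n)) * h - (a₁ : ZMod n) * (c₂ : ZMod n) * e₁
      + (a₂ : ZMod n) * (c₁ : ZMod n) * e₂
  · intro h
    linear_combination ((c₁ : ZMod n)⁻¹ * (c₂ : ZMod n)⁻¹) * h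
      - (a₁ : ZMod n) * (c₁ : ZMod n)⁻¹ * e₂ + (a₂ : ZMod n) * (c₂ : ZMod n)⁻¹ * e₁

/-- The cusp invariant of a matrix: `(d, a (c/d)⁻¹ mod gcd(d, N/d))` with `d = gcd(c, N)`. -/
noncomputable def cuspInv (N : ℕ) (g : SL(2, ℤ)) : ℕ × ℕ :=
  (Int.gcd (g 1 0) N,
    cuspInvAux (Nat.gcd (Int.gcd (g 1 0) N) (N / Int.gcd (g 1 0) N)) (g 0 0)
      (g 1 0 / (Int.gcd (g 1 0) N : ℤ)))

variable (N : ℕ)

theorem cusp_gcd_pos (hN : N ≠ 0) (c : ℤ) : 0 < Int.gcd c N := by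
  rcases Nat.eq_zero_or_pos (Int.gcd c N) with h0 | h0
  · rw [Int.gcd_eq_zero_iff] at h0
    exact absurd (by exact_mod_cast h0.2) hN
  · exact h0

theorem cusp_gg_pos (hN : N ≠ 0) (c : ℤ) :
    0 < Nat.gcd (Int.gcd c N) (N / Int.gcd c N) :=
  Nat.gcd_pos_of_pos_left _ (cusp_gcd_pos N hN c)

theorem cusp_isCoprime_quot (hN : N ≠ 0) (c : ℤ) :
    IsCoprime (c / (Int.gcd c N : ℤ))
      ((Nat.gcd (Int.gcd c N) (N / Int.gcd c N) : ℕ) : ℤ) := by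
  have h1 : Int.gcd (c / (Int.gcd c N : ℤ)) ((N : ℤ) / (Int.gcd c N : ℤ)) = 1 :=
    Int.gcd_div_gcd_div_gcd (cusp_gcd_pos N hN c)
  have h2 : IsCoprime (c / (Int.gcd c N : ℤ)) ((N : ℤ) / (Int.gcd c N : ℤ)) :=
    Int.isCoprime_iff_gcd_eq_one.mpr h1
  have h3 : ((Nat.gcd (Int.gcd c N) (N / Int.gcd c N) : ℕ) : ℤ) ∣ (N : ℤ) / (Int.gcd c N : ℤ) := by
    rw [← Int.natCast_div]
    exact Int.natCast_dvd_natCast.mpr (Nat.gcd_dvd_right _ _)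
  exact h2.of_isCoprime_of_dvd_right h3

theorem isCoprime_col (g : SL(2, ℤ)) : IsCoprime (g 0 0) (g 1 0) :=
  ⟨g 1 1, -g 0 1, by linear_combination det_rel g⟩

theorem cusp_isCoprime_a (g : SL(2, ℤ)) :
    IsCoprime (g 0 0)
      ((Nat.gcd (Int.gcd (g 1 0) N) (N / Int.gcd (g 1 0) N) : ℕ) : ℤ) := by
  have h3 : ((Nat.gcd (Int.gcd (g 1 0) N) (N / Int.gcd (g 1 0) N) : ℕ) : ℤ) ∣ g 1 0 :=
    dvd_trans (Int.natCast_dvd_natCast.mpr (Nat.gcd_dvd_left _ _)) (Int.gcd_dvd_left _ _)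
  exact (isCoprime_col g).of_isCoprime_of_dvd_right h3

theorem mem_Gamma0_iff_dvd' (g : SL(2, ℤ)) : g ∈ Gamma0 N ↔ (N : ℤ) ∣ g 1 0 := by
  rw [Gamma0_mem, ZMod.intCast_zmod_eq_zero_iff_dvd]

theorem cuspInv_eq_iff (hN : N ≠ 0) (g₁ g₂ : SL(2, ℤ)) :
    cuspInv N g₁ = cuspInv N g₂ ↔ ∃ k : ℤ, (T ^ k * g₁)⁻¹ * g₂ ∈ Gamma0 N := by
  have hrhs : ∀ k : ℤ, (T ^ k * g₁)⁻¹ * g₂ ∈ Gamma0 N ↔
      (N : ℤ) ∣ (g₁ 0 0 + k * g₁ 1 0) * g₂ 1 0 - g₁ 1 0 * g₂ 0 0 := by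
    intro k
    rw [mem_Gamma0_iff_dvd', inv_mul_apply_one_zero, T_zpow_mul_apply_zero_zero,
      T_zpow_mul_apply_one_zero]
  simp only [hrhs]
  have : NeZero (Nat.gcd (Int.gcd (g₁ 1 0) N) (N / Int.gcd (g₁ 1 0) N)) :=
    ⟨(cusp_gg_pos N hN _).ne'⟩
  constructor
  · intro h
    have hd : Int.gcd (g₁ 1 0) N = Int.gcd (g₂ 1 0) N := congrArg Prod.fst h
    have h2 : cuspInvAux (Nat.gcd (Int.gcd (g₁ 1 0) N) (N / Int.gcd (g₁ 1 0) N)) (g₁ 0 0)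
        (g₁ 1 0 / (Int.gcd (g₁ 1 0) N : ℤ))
        = cuspInvAux (Nat.gcd (Int.gcd (g₂ 1 0) N) (N / Int.gcd (g₂ 1 0) N)) (g₂ 0 0)
        (g₂ 1 0 / (Int.gcd (g₂ 1 0) N : ℤ)) := congrArg Prod.snd h
    rw [← hd] at h2
    have hc₂ : IsCoprime (g₂ 1 0 / (Int.gcd (g₁ 1 0) N : ℤ))
        ((Nat.gcd (Int.gcd (g₁ 1 0) N) (N / Int.gcd (g₁ 1 0) N) : ℕ) : ℤ) := by
      have := cusp_isCoprime_quot N hN (g₂ 1 0)
      rwa [← hd] at this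
    rw [cuspInvAux_eq_iff _ _ _ _ _ (cusp_isCoprime_quot N hN (g₁ 1 0)) hc₂] at h2
    exact cusp_core_B N hN _ _ _ _ hd h2
  · rintro ⟨k, hk⟩
    obtain ⟨hd, hg⟩ := cusp_core_A N hN _ _ _ _ k (isCoprime_col g₁) (isCoprime_col g₂) hk
    have hc₂ : IsCoprime (g₂ 1 0 / (Int.gcd (g₁ 1 0) N : ℤ))
        ((Nat.gcd (Int.gcd (g₁ 1 0) N) (N / Int.gcd (g₁ 1 0) N) : ℕ) : ℤ) := by
      have := cusp_isCoprime_quot N hN (g₂ 1 0)
      rwa [← hd] at this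
    unfold cuspInv
    rw [← hd]
    refine Prod.ext rfl ?_
    exact (cuspInvAux_eq_iff _ _ _ _ _ (cusp_isCoprime_quot N hN (g₁ 1 0)) hc₂).mpr hg

/-- The set of values of the cusp invariant. -/
def cuspSet : Finset (ℕ × ℕ) :=
  N.divisors.biUnion fun d =>
    ((Finset.range (Nat.gcd d (N / d))).filter (Nat.Coprime (Nat.gcd d (N / d)))).image
      (Prod.mk d)

theorem mem_cuspSet {x : ℕ × ℕ} :
    x ∈ cuspSet N ↔ x.1 ∈ N.divisors ∧ x.2 < Nat.gcd x.1 (N / x.1) ∧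
      Nat.Coprime (Nat.gcd x.1 (N / x.1)) x.2 := by
  obtain ⟨d, r⟩ := x
  simp only [cuspSet, Finset.mem_biUnion, Finset.mem_image, Finset.mem_filter, Finset.mem_range,
    Prod.mk.injEq]
  constructor
  · rintro ⟨d', hd', r', ⟨hr', hcop⟩, rfl, rfl⟩
    exact ⟨hd', hr', hcop⟩
  · rintro ⟨hd, hr, hcop⟩
    exact ⟨d, hd, r, ⟨hr, hcop⟩, rfl, rfl⟩

theorem card_cuspSet : (cuspSet N).card = ModularCurve.cuspCount N := by
  unfold cuspSet ModularCurve.cuspCount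
  rw [Finset.card_biUnion]
  · refine Finset.sum_congr rfl fun d _ => ?_
    rw [Finset.card_image_of_injective _ (Prod.mk_right_injective d), Nat.totient_eq_card_coprime]
  · intro d₁ _ d₂ _ hne
    rw [Function.onFun, Finset.disjoint_left]
    intro x hx₁ hx₂
    simp only [Finset.mem_image] at hx₁ hx₂
    obtain ⟨r₁, -, rfl⟩ := hx₁
    obtain ⟨r₂, -, h⟩ := hx₂
    exact hne (congrArg Prod.fst h).symm

theorem cuspInv_mem_cuspSet (hN : N ≠ 0) (g : SL(2, ℤ)) : cuspInv N g ∈ cuspSet N := by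
  rw [mem_cuspSet]
  have : NeZero (Nat.gcd (Int.gcd (g 1 0) N) (N / Int.gcd (g 1 0) N)) :=
    ⟨(cusp_gg_pos N hN _).ne'⟩
  refine ⟨?_, ?_, ?_⟩
  · rw [Nat.mem_divisors]
    exact ⟨Int.natCast_dvd_natCast.mp (Int.gcd_dvd_right _ _), hN⟩
  · exact ZMod.val_lt _
  · show Nat.Coprime _ (cuspInvAux _ _ _)
    unfold cuspInvAux
    set n := Nat.gcd (Int.gcd (g 1 0) N) (N / Int.gcd (g 1 0) N) with hn
    let uA : (ZMod n)ˣ := ZMod.unitOfIsCoprime (g 0 0) (cusp_isCoprime_a N g)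
    let uC : (ZMod n)ˣ := ZMod.unitOfIsCoprime (g 1 0 / (Int.gcd (g 1 0) N : ℤ))
      (cusp_isCoprime_quot N hN (g 1 0))
    have h := ZMod.val_coe_unit_coprime (uA * uC⁻¹)
    exact h.symm

theorem exists_cuspInv_eq (hN : N ≠ 0) {x : ℕ × ℕ} (hx : x ∈ cuspSet N) :
    ∃ g : SL(2, ℤ), cuspInv N g = x := by
  obtain ⟨d, r⟩ := x
  rw [mem_cuspSet] at hx
  obtain ⟨hd, hr, hcop⟩ := hx
  simp only at hd hr hcop
  rw [Nat.mem_divisors] at hd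
  have hd0 : d ≠ 0 := fun h => hN (by rw [h] at hd; exact Nat.eq_zero_of_zero_dvd hd.1)
  have : NeZero d := ⟨hd0⟩
  set n := Nat.gcd d (N / d) with hn
  have hnd : n ∣ d := Nat.gcd_dvd_left _ _
  have hn0 : n ≠ 0 := (Nat.gcd_pos_of_pos_left _ (Nat.pos_of_ne_zero hd0)).ne'
  have : NeZero n := ⟨hn0⟩
  obtain ⟨u, hu⟩ := ZMod.unitsMap_surjective hnd (ZMod.unitOfCoprime r hcop.symm)
  have hcop' : IsCoprime (((u : ZMod d).val : ℕ) : ℤ) (d : ℤ) :=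
    Nat.isCoprime_iff_coprime.mpr (ZMod.val_coe_unit_coprime u)
  obtain ⟨w, v, hwv⟩ := hcop'
  let g : SL(2, ℤ) := ⟨!![(((u : ZMod d).val : ℕ) : ℤ), -v; (d : ℤ), w], by
    rw [Matrix.det_fin_two_of]; linear_combination hwv⟩
  refine ⟨g, ?_⟩
  have hg00 : g 0 0 = (((u : ZMod d).val : ℕ) : ℤ) := rfl
  have hg10 : g 1 0 = (d : ℤ) := rfl
  have hgcd : Int.gcd (g 1 0) N = d := by
    rw [hg10, Int.gcd_natCast_natCast]
    exact Nat.gcd_eq_left hd.1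
  unfold cuspInv
  rw [hgcd]
  refine Prod.ext rfl ?_
  show cuspInvAux n (g 0 0) (g 1 0 / (d : ℤ)) = r
  rw [hg00, hg10, Int.ediv_self (by exact_mod_cast hd0)]
  unfold cuspInvAux
  have h1 : ((((u : ZMod d).val : ℕ) : ℤ) : ZMod n) = (r : ZMod n) := by
    have h2 : ((ZMod.unitsMap hnd u : (ZMod n)ˣ) : ZMod n) = (r : ZMod n) := by
      rw [hu]; rfl
    rw [ZMod.unitsMap_val] at h2
    rw [Int.cast_natCast, ZMod.natCast_val]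
    exact h2
  rw [h1]
  have h1' : ((1 : ℤ) : ZMod n)⁻¹ = 1 := by
    have := ZMod.mul_inv_of_unit (1 : ZMod n) isUnit_one
    rw [one_mul] at this
    rw [Int.cast_one]; exact this
  rw [h1', mul_one]
  exact ZMod.val_natCast_of_lt hr

theorem range_cuspInv (hN : N ≠ 0) : Set.range (cuspInv N) = ↑(cuspSet N) := by
  ext x
  constructor
  · rintro ⟨g, rfl⟩
    exact cuspInv_mem_cuspSet N hN g
  · intro hx
    exact exists_cuspInv_eq N hN hx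

/-- The cusp invariant on cosets. -/
noncomputable def cuspInvQ (hN : N ≠ 0) : SL(2, ℤ) ⧸ Gamma0 N → ℕ × ℕ :=
  fun q => Quotient.liftOn' q (cuspInv N) (by
    intro a b hab
    rw [QuotientGroup.leftRel_apply] at hab
    exact (cuspInv_eq_iff N hN a b).mpr ⟨0, by simpa using hab⟩)

theorem cuspInvQ_mk (hN : N ≠ 0) (g : SL(2, ℤ)) :
    cuspInvQ N hN (QuotientGroup.mk g) = cuspInv N g := rfl

/-- **(C4)** The number of `⟨T⟩`-orbits on `SL(2, ℤ) ⧸ Γ₀(N)` is the cusp count. -/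
theorem card_orbits_T (hN : N ≠ 0) :
    Nat.card (MulAction.orbitRel.Quotient (Subgroup.zpowers T) (SL(2, ℤ) ⧸ Gamma0 N))
      = ModularCurve.cuspCount N := by
  rw [card_orbitRel_quotient_eq_card_range (cuspInvQ N hN)]
  · have hrange : Set.range (cuspInvQ N hN) = ↑(cuspSet N) := by
      rw [← range_cuspInv N hN]
      ext x
      constructor
      · rintro ⟨q, rfl⟩
        obtain ⟨g, rfl⟩ := QuotientGroup.mk_surjective q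
        exact ⟨g, rfl⟩
      · rintro ⟨g, rfl⟩
        exact ⟨QuotientGroup.mk g, rfl⟩
    rw [hrange, Nat.card_coe_set_eq, Set.ncard_coe_finset, card_cuspSet]
  · intro x y
    obtain ⟨g₁, rfl⟩ := QuotientGroup.mk_surjective x
    obtain ⟨g₂, rfl⟩ := QuotientGroup.mk_surjective y
    rw [cuspInvQ_mk, cuspInvQ_mk, eq_comm, cuspInv_eq_iff N hN, MulAction.mem_orbit_iff]
    constructor
    · rintro ⟨k, hk⟩
      refine ⟨⟨T ^ k, Subgroup.zpow_mem_zpowers T k⟩, ?_⟩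
      show (T ^ k) • (QuotientGroup.mk g₂ : SL(2, ℤ) ⧸ Gamma0 N) = QuotientGroup.mk g₁
      rw [MulAction.Quotient.smul_mk, smul_eq_mul]
      exact QuotientGroup.eq.mpr hk
    · rintro ⟨⟨t, ht⟩, h⟩
      obtain ⟨k, rfl⟩ := Subgroup.mem_zpowers_iff.mp ht
      refine ⟨k, ?_⟩
      have h' : (T ^ k) • (QuotientGroup.mk g₂ : SL(2, ℤ) ⧸ Gamma0 N) = QuotientGroup.mk g₁ := h
      rw [MulAction.Quotient.smul_mk, smul_eq_mul] at h'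
      exact QuotientGroup.eq.mp h'

end invariant

end Fermat.Agent.S24.Cnt
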