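import Fermat.Agent.S24.Defs

/-!
# S24, PART C1 helper: counting orbits of an element of prime order (helper4284)

If `g ^ p` acts trivially on a finite set `X` (`p` prime) then every orbit of `⟨g⟩` has size
`1` or `p`, hence `p * (#orbits) = |X| + (p - 1) * |Fix g|`.
-/

set_option autoImplicit false

namespace Fermat.Agent.S24

namespace OrbitCount

variable {G : Type*} [Group G] {X : Type*} [MulAction G X]

theorem orbit_zpowers_eq_singleton (g : G) (x : X) (hx : g • x = x) :
    MulAction.orbit (Subgroup.zpowers g) x = {x} := by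
  ext y
  simp only [Set.mem_singleton_iff]
  constructor
  · rintro ⟨⟨h, hh⟩, rfl⟩
    obtain ⟨k, rfl⟩ := Subgroup.mem_zpowers_iff.mp hh
    show (g ^ k) • x = x
    exact MulAction.zpow_smul_eq_iff_minimalPeriod_dvd.mpr (by
      have : Function.minimalPeriod (g • ·) x = 1 :=
        Function.minimalPeriod_eq_one_iff_isFixedPt.mpr hx
      rw [this]; simp)
  · rintro rfl
    exact MulAction.mem_orbit_self _

theorem card_orbit_zpowers_of_prime [DecidableEq X] (g : G) (p : ℕ) (hp : p.Prime)
    (hg : ∀ x : X, g ^ p • x = x) (x : X) :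
    Nat.card (MulAction.orbit (Subgroup.zpowers g) x) = if g • x = x then 1 else p := by
  have hcard : Nat.card (MulAction.orbit (Subgroup.zpowers g) x)
      = Function.minimalPeriod (g • ·) x := by
    rw [Nat.card_congr (MulAction.orbitZPowersEquiv g x), Nat.card_zmod]
  rw [hcard]
  have hdvd : Function.minimalPeriod (g • ·) x ∣ p := by
    apply Function.IsPeriodicPt.minimalPeriod_dvd
    show Function.IsPeriodicPt (g • ·) p x
    rw [Function.IsPeriodicPt, Function.IsFixedPt, smul_iterate]
    exact hg x
  split_ifs with h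
  · exact Function.minimalPeriod_eq_one_iff_isFixedPt.mpr h
  · rcases (Nat.dvd_prime hp).mp hdvd with h1 | h1
    · exact absurd (Function.minimalPeriod_eq_one_iff_isFixedPt.mp h1) h
    · exact h1

/-- If `g ^ p` acts trivially (`p` prime), then `p * #orbits = |X| + (p - 1) * |Fix g|`. -/
theorem prime_mul_numOrbits [Finite X] (g : G) (p : ℕ) (hp : p.Prime)
    (hg : ∀ x : X, g ^ p • x = x) :
    p * numOrbits X g = Nat.card X + (p - 1) * Nat.card (MulAction.fixedBy X g) := by
  classical
  have := Fintype.ofFinite X
  let Q := MulAction.orbitRel.Quotient (Subgroup.zpowers g) X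
  have : Fintype Q := Fintype.ofFinite Q
  -- the class formula
  have h1 : Nat.card X
      = ∑ ω : Q, Nat.card (MulAction.orbit (Subgroup.zpowers g) (Quotient.out ω)) := by
    rw [Nat.card_congr (MulAction.selfEquivSigmaOrbits (Subgroup.zpowers g) X), Nat.card_sigma]
  simp only [card_orbit_zpowers_of_prime g p hp hg] at h1
  -- the orbits of fixed points
  have h2 : Nat.card (MulAction.fixedBy X g)
      = (Finset.univ.filter fun ω : Q => g • (Quotient.out ω) = Quotient.out ω).card := by
    rw [← Fintype.card_subtype, ← Nat.card_eq_fintype_card]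
    refine Nat.card_congr (Equiv.ofBijective
      (fun x : MulAction.fixedBy X g => (⟨Quotient.mk'' x.1, ?_⟩ :
        {ω : Q // g • (Quotient.out ω) = Quotient.out ω})) ⟨?_, ?_⟩)
    · have hx : g • x.1 = x.1 := x.2
      have hmem : Quotient.out (Quotient.mk'' x.1 : Q)
          ∈ MulAction.orbit (Subgroup.zpowers g) x.1 := by
        have : (Quotient.mk'' (Quotient.out (Quotient.mk'' x.1 : Q)) : Q) = Quotient.mk'' x.1 :=
          Quotient.out_eq' _
        exact MulAction.orbitRel_apply.mp (Quotient.exact' this)
      rw [orbit_zpowers_eq_singleton g x.1 hx, Set.mem_singleton_iff] at hmem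
      rw [hmem]; exact hx
    · intro x y hxy
      have h : (Quotient.mk'' x.1 : Q) = Quotient.mk'' y.1 := congrArg Subtype.val hxy
      have hmem : x.1 ∈ MulAction.orbit (Subgroup.zpowers g) y.1 :=
        MulAction.orbitRel_apply.mp (Quotient.exact' h)
      have hy : g • y.1 = y.1 := y.2
      rw [orbit_zpowers_eq_singleton g y.1 hy, Set.mem_singleton_iff] at hmem
      exact Subtype.ext hmem
    · rintro ⟨ω, hω⟩
      exact ⟨⟨Quotient.out ω, hω⟩, Subtype.ext (Quotient.out_eq' ω)⟩
  have h3 : numOrbits X g = Fintype.card Q := by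
    unfold numOrbits
    exact Nat.card_eq_fintype_card
  rw [Finset.sum_ite, Finset.sum_const, Finset.sum_const, smul_eq_mul, smul_eq_mul, mul_one]
    at h1
  have h4 : (Finset.univ.filter fun ω : Q => g • (Quotient.out ω) = Quotient.out ω).card
      + (Finset.univ.filter fun ω : Q => ¬ g • (Quotient.out ω) = Quotient.out ω).card
      = Fintype.card Q := by
    rw [Finset.card_filter_add_card_filter_not, Finset.card_univ]
  rw [h3, h1, h2, ← h4]
  obtain ⟨q, rfl⟩ : ∃ q, p = q + 1 := ⟨p - 1, (Nat.succ_pred_eq_of_pos hp.pos).symm⟩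
  simp only [Nat.add_sub_cancel]
  ring

end OrbitCount

end Fermat.Agent.S24
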