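import Fermat.Agent.S24.Defs
import Fermat.Agent.S24.CountingBasic
import Fermat.Agent.S24.CountingCusps
import Fermat.Agent.S24.CountingIndex
import Fermat.Agent.S24.OrbitCount

/-!
# S24 skeleton, PART C1: counting on `SL(2,ℤ)/Γ₀(N) ≅ ℙ¹(ℤ/N)` (left multiplication action).

Wired (helper4284) from helper5004's `CountingBasic`, `CountingIndex`, `CountingCusps`
(moved to the sub-namespace `Fermat.Agent.S24.Cnt` so that their short names cannot clash
with other S24 files) and the orbit count `OrbitCount.prime_mul_numOrbits`.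
-/

set_option autoImplicit false
open ModularCurve
open scoped MatrixGroups

namespace Fermat.Agent.S24

open Cnt

variable (N : ℕ) [NeZero N]

/-- PART C1a: `[SL(2,ℤ) : Γ₀(N)] = ψ(N)`. -/
theorem card_Q0 : Nat.card (Q0 N) = dedekindPsi N :=
  card_quotient_Gamma0 N (NeZero.ne N)

/-- `S ^ 2 = -1` acts trivially on the cosets of `Γ₀(N)`. -/
theorem S_sq_smul_Q0 (q : Q0 N) : ModularGroup.S ^ 2 • q = q := by
  obtain ⟨g, rfl⟩ := QuotientGroup.mk_surjective q
  rw [MulAction.Quotient.smul_mk, smul_eq_mul, mk_eq_mk_iff, pow_two, mul_assoc]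
  simp only [S_mul_apply_zero_zero, S_mul_apply_one_zero]
  push_cast
  ring

/-- `(S T) ^ 3 = -1` acts trivially on the cosets of `Γ₀(N)`. -/
theorem ST_cube_smul_Q0 (q : Q0 N) : (ModularGroup.S * ModularGroup.T) ^ 3 • q = q := by
  obtain ⟨g, rfl⟩ := QuotientGroup.mk_surjective q
  rw [MulAction.Quotient.smul_mk, smul_eq_mul, mk_eq_mk_iff, pow_succ, pow_two, mul_assoc,
    mul_assoc (ModularGroup.S * ModularGroup.T)]
  simp only [ST_mul_apply_zero_zero, ST_mul_apply_one_zero]
  push_cast
  ring

/-- PART C1b: `S` has `ν₂` fixed points, all other orbits have size 2. -/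
theorem two_mul_numOrbits_S :
    2 * numOrbits (Q0 N) ModularGroup.S = dedekindPsi N + nuTwo N := by
  rw [OrbitCount.prime_mul_numOrbits ModularGroup.S 2 Nat.prime_two (S_sq_smul_Q0 N), card_Q0,
    card_fixedBy_S]
  simp

/-- PART C1c: `S * T` has `ν₃` fixed points, all other orbits have size 3. -/
theorem three_mul_numOrbits_ST :
    3 * numOrbits (Q0 N) (ModularGroup.S * ModularGroup.T) = dedekindPsi N + 2 * nuThree N := by
  rw [OrbitCount.prime_mul_numOrbits (ModularGroup.S * ModularGroup.T) 3 Nat.prime_three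
    (ST_cube_smul_Q0 N), card_Q0, card_fixedBy_ST]

/-- PART C1d: the number of cusps. -/
theorem numOrbits_T : numOrbits (Q0 N) ModularGroup.T = cuspCount N :=
  card_orbits_T N (NeZero.ne N)

end Fermat.Agent.S24
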