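import Mathlib
import Fermat.Prelude.Def_ModularCurve_ArithmeticGalois
import Fermat.Prelude.Def_ModularCurve_GenusNumerics
import Fermat.Prelude.Def_AlgebraicCurve_CanonicalDivisor

/-!
# S24 skeleton: shared definitions (interface file; keep statements stable)
-/

set_option autoImplicit false
open ModularCurve AlgebraicCurve
open scoped MatrixGroups

namespace Fermat.Agent.S24

section Generic

variable {K F : Type*} [Field K] [Field F] [Algebra K F]

/-- Places of `F` lying over the finite point `x = c`. -/
def placesOver (x : F) (c : K) : Set (Place K F) :=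
  {v | 0 < v.ord (x - algebraMap K F c)}

/-- Places of `F` lying over `x = ∞`. -/
def placesOverInfty (x : F) : Set (Place K F) :=
  {v | v.ord x < 0}

end Generic

/-- Number of orbits (cycles, fixed points included) of the cyclic group generated by `g`. -/
noncomputable def numOrbits {G : Type*} [Group G] (X : Type*) [MulAction G X] (g : G) : ℕ :=
  Nat.card (MulAction.orbitRel.Quotient (Subgroup.zpowers g) X)

/-- The coset space `SL(2,ℤ)/Γ₀(N)` with the left-multiplication action of `SL(2,ℤ)`. -/
abbrev Q0 (N : ℕ) : Type := SL(2, ℤ) ⧸ CongruenceSubgroup.Gamma0 N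

/-- The element `j` of the function field `ℚ̄(X₀(N))`. -/
noncomputable def jBar (N : ℕ) [NeZero N] : ↥(modularFunctionFieldBar N) :=
  ⟨coeffEmb (AlgebraicClosure ℚ) jq, coeffEmb_mem_laurentBaseChange _ (by
    have h := jqd_mem_full N (one_dvd N)
    rwa [qExpand_one_apply] at h)⟩

end Fermat.Agent.S24
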