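import Fermat.Agent.S24.Defs

/-!
# S24, PART C2: permutation lemmas (generic).  (helper6864; complete, no sorry)

Needed because `genus` uses `Int.toNat` and `ℕ`-division: nonnegativity (Ree/Scott) and parity.

* `numOrbits_add_le` : Scott's lemma / Ree's inequality, `c(s) + c(t) + c(st) ≤ |X| + 2`.
* `even_card_add_numOrbits` : parity, `|X| + c(s) + c(t) + c(st)` is even.

All auxiliary declarations live in the namespace `Fermat.Agent.S24.PermLemma`.
-/

set_option autoImplicit false

namespace Fermat.Agent.S24

namespace PermLemma

section Scott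

variable {G : Type*} [Group G]

/-- The permutation representation on `X → ℚ`. -/
noncomputable def permRep (X : Type*) [MulAction G X] (g : G) : (X → ℚ) →ₗ[ℚ] (X → ℚ) :=
  LinearMap.funLeft ℚ ℚ (fun x => g⁻¹ • x)

variable {X : Type*} [MulAction G X]

lemma permRep_apply (g : G) (v : X → ℚ) (x : X) : permRep X g v x = v (g⁻¹ • x) := rfl

lemma permRep_mul (g h : G) : permRep X (g * h) = permRep X g ∘ₗ permRep X h := by
  ext v x
  simp [permRep_apply, mul_smul]

lemma permRep_one : permRep X (1 : G) = LinearMap.id := by
  ext v x
  simp [permRep_apply]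

lemma permRep_inv_permRep (g : G) (v : X → ℚ) : permRep X g⁻¹ (permRep X g v) = v := by
  have := permRep_mul (X := X) g⁻¹ g
  rw [inv_mul_cancel, permRep_one] at this
  exact (LinearMap.congr_fun this v).symm

lemma permRep_single [DecidableEq X] (g : G) (i : X) :
    permRep X g (Pi.single i (1 : ℚ)) = Pi.single (g • i) 1 := by
  ext x
  rw [permRep_apply]
  by_cases h : x = g • i
  · subst h
    simp
  · rw [Pi.single_eq_of_ne h, Pi.single_eq_of_ne]
    intro h'
    apply h
    rw [← h', smul_inv_smul]

/-- A function fixed by `g` is constant on orbits of `zpowers g`. -/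
lemma eq_of_fixed_of_orbitRel (g : G) (v : X → ℚ) (hv : permRep X g v = v) (x y : X)
    (hxy : MulAction.orbitRel (Subgroup.zpowers g) X x y) : v x = v y := by
  have h1 : ∀ z : X, v (g⁻¹ • z) = v z := fun z => by
    have := congrFun hv z
    rwa [permRep_apply] at this
  have h2 : ∀ z : X, v (g • z) = v z := fun z => by
    have := h1 (g • z)
    rw [inv_smul_smul] at this
    exact this.symm
  have h3 : ∀ (n : ℕ) (z : X), v (g ^ n • z) = v z := by
    intro n
    induction n with
    | zero => intro z; simp
    | succ n ih => intro z; rw [pow_succ, mul_smul, ih, h2]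
  have h4 : ∀ (n : ℕ) (z : X), v ((g⁻¹) ^ n • z) = v z := by
    intro n
    induction n with
    | zero => intro z; simp
    | succ n ih => intro z; rw [pow_succ, mul_smul, ih, h1]
  rw [MulAction.orbitRel_apply] at hxy
  obtain ⟨⟨k, hk⟩, rfl⟩ := hxy
  obtain ⟨m, rfl⟩ := hk
  show v ((g ^ m) • y) = v y
  obtain ⟨n, rfl | rfl⟩ := Int.eq_nat_or_neg m
  · rw [zpow_natCast, h3]
  · rw [zpow_neg, zpow_natCast, ← inv_pow, h4]

lemma finrank_ker_one_sub_permRep [Fintype X] (g : G) :
    Module.finrank ℚ (LinearMap.ker (LinearMap.id - permRep X g)) = numOrbits X g := by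
  classical
  let Q := MulAction.orbitRel.Quotient (Subgroup.zpowers g) X
  let _ : Fintype Q := Fintype.ofFinite Q
  let φ : (Q → ℚ) →ₗ[ℚ] (X → ℚ) := LinearMap.funLeft ℚ ℚ (Quotient.mk'' : X → Q)
  have hφ : Function.Injective φ := by
    intro w w' h
    funext q
    induction q using Quotient.inductionOn' with
    | h x => exact congrFun h x
  have hrange : LinearMap.range φ = LinearMap.ker (LinearMap.id - permRep X g) := by
    ext v
    simp only [LinearMap.mem_range, LinearMap.mem_ker, LinearMap.sub_apply, LinearMap.id_coe,
      id_eq, sub_eq_zero]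
    constructor
    · rintro ⟨w, rfl⟩
      funext x
      rw [permRep_apply]
      show w (Quotient.mk'' x) = w (Quotient.mk'' (g⁻¹ • x))
      congr 1
      apply Quotient.sound'
      rw [MulAction.orbitRel_apply]
      exact ⟨⟨g, Subgroup.mem_zpowers g⟩, by simp [Subgroup.smul_def]⟩
    · intro hv
      refine ⟨fun q => Quotient.liftOn' q v ?_, ?_⟩
      · intro x y hxy
        exact eq_of_fixed_of_orbitRel g v hv.symm x y hxy
      · funext x
        rfl
  rw [← hrange, LinearMap.finrank_range_of_inj hφ, Module.finrank_fintype_fun_eq_card, numOrbits,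
    Nat.card_eq_fintype_card]

lemma finrank_range_one_sub_permRep [Fintype X] (g : G) :
    Module.finrank ℚ (LinearMap.range (LinearMap.id - permRep X g)) + numOrbits X g
      = Fintype.card X := by
  rw [← finrank_ker_one_sub_permRep, LinearMap.finrank_range_add_finrank_ker,
    Module.finrank_fintype_fun_eq_card]

lemma numOrbits_inv (g : G) : numOrbits X g⁻¹ = numOrbits X g := by
  unfold numOrbits
  rw [Subgroup.zpowers_inv]

/-- The subgroup of elements `g` such that `v - g v` always lies in a given submodule `W`. -/
private lemma scott_aux_mem_of_closure (W : Submodule ℚ (X → ℚ)) (a b : G)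
    (ha : ∀ v, v - permRep X a v ∈ W) (hb : ∀ v, v - permRep X b v ∈ W)
    (hgen : Subgroup.closure {a, b} = ⊤) (g : G) : ∀ v, v - permRep X g v ∈ W := by
  have hg : g ∈ Subgroup.closure {a, b} := by rw [hgen]; trivial
  induction hg using Subgroup.closure_induction with
  | mem x hx =>
    rcases hx with rfl | rfl
    · exact ha
    · exact hb
  | one => intro v; simp [permRep_one]
  | mul x y _ _ hx hy =>
    intro v
    have h1 : v - permRep X (x * y) v
        = (v - permRep X x v) + ((v - permRep X y v) - ((v - permRep X y v)
            - permRep X x (v - permRep X y v))) := by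
      rw [permRep_mul]
      simp only [LinearMap.comp_apply, map_sub]
      abel
    rw [h1]
    exact W.add_mem (hx v) (W.sub_mem (hy v) (hx _))
  | inv x _ hx =>
    intro v
    have h1 : v - permRep X x⁻¹ v = -(permRep X x⁻¹ v - permRep X x (permRep X x⁻¹ v)) := by
      have := permRep_inv_permRep (X := X) x⁻¹ v
      rw [inv_inv] at this
      rw [this]
      abel
    rw [h1]
    exact W.neg_mem (hx _)

private lemma scott_aux_fixed_const [MulAction.IsPretransitive G X] (a b : G)
    (hgen : Subgroup.closure {a, b} = ⊤) (v : X → ℚ)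
    (ha : permRep X a v = v) (hb : permRep X b v = v) (x₀ : X) :
    v = (v x₀) • (fun _ => (1 : ℚ) : X → ℚ) := by
  have hall : ∀ g : G, permRep X g v = v := by
    intro g
    have hg : g ∈ Subgroup.closure {a, b} := by rw [hgen]; trivial
    induction hg using Subgroup.closure_induction with
    | mem x hx =>
      rcases hx with rfl | rfl
      · exact ha
      · exact hb
    | one => simp [permRep_one]
    | mul x y _ _ hx hy => rw [permRep_mul, LinearMap.comp_apply, hy, hx]
    | inv x _ hx =>
      have := permRep_inv_permRep (X := X) x v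
      rw [hx] at this
      exact this
  funext x
  obtain ⟨g, hg⟩ := MulAction.exists_smul_eq G x x₀
  have := congrFun (hall g⁻¹) x
  rw [permRep_apply, inv_inv, hg] at this
  simp only [Pi.smul_apply, smul_eq_mul, mul_one]
  exact this.symm

theorem scott_ineq_fintype [Fintype X] [MulAction.IsPretransitive G X] [Nonempty X] (a b : G)
    (hgen : Subgroup.closure {a, b} = ⊤) :
    numOrbits X a + numOrbits X b + numOrbits X (a * b) ≤ Fintype.card X + 2 := by
  classical
  obtain ⟨c, hc⟩ : ∃ c : G, c = (a * b)⁻¹ := ⟨_, rfl⟩
  set A : (X → ℚ) →ₗ[ℚ] (X → ℚ) := LinearMap.id - permRep X a with hA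
  set B : (X → ℚ) →ₗ[ℚ] (X → ℚ) := LinearMap.id - permRep X b with hB
  set C : (X → ℚ) →ₗ[ℚ] (X → ℚ) := LinearMap.id - permRep X c with hC
  -- the two maps of the complex
  let β : (X → ℚ) →ₗ[ℚ] (LinearMap.range A × LinearMap.range B × LinearMap.range C) :=
    A.rangeRestrict.prod (B.rangeRestrict.prod C.rangeRestrict)
  let δ : (LinearMap.range A × LinearMap.range B × LinearMap.range C) →ₗ[ℚ] (X → ℚ) :=
    (LinearMap.range A).subtype.coprod
      (((permRep X a) ∘ₗ (LinearMap.range B).subtype).coprod
        ((permRep X a) ∘ₗ (permRep X b) ∘ₗ (LinearMap.range C).subtype))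
  have hδβ : ∀ v, δ (β v) = 0 := by
    intro v
    have habc : permRep X a (permRep X b (permRep X c v)) = v := by
      have h1 := permRep_mul (X := X) (a * b) c
      have h2 := permRep_mul (X := X) a b
      rw [hc, mul_inv_cancel, permRep_one] at h1
      have h3 := LinearMap.congr_fun h1 v
      rw [h2, ← hc] at h3
      exact h3.symm
    show (A v) + (permRep X a (B v) + permRep X a (permRep X b (C v))) = 0
    simp only [hA, hB, hC, LinearMap.sub_apply, LinearMap.id_coe, id_eq, map_sub, habc]
    abel
  -- range β ≤ ker δ
  have h1 : LinearMap.range β ≤ LinearMap.ker δ := by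
    rintro _ ⟨v, rfl⟩
    exact hδβ v
  obtain ⟨x₀⟩ := ‹Nonempty X›
  -- ker β is at most one-dimensional
  have hkerβ : Module.finrank ℚ (LinearMap.ker β) ≤ 1 := by
    have hle : LinearMap.ker β ≤ Submodule.span ℚ {(fun _ => (1 : ℚ) : X → ℚ)} := by
      intro v hv
      have hv' : β v = 0 := hv
      have hAv : A v = 0 := by
        have := congrArg (fun p => (p.1 : X → ℚ)) hv'
        simpa [β] using this
      have hBv : B v = 0 := by
        have := congrArg (fun p => (p.2.1 : X → ℚ)) hv'
        simpa [β] using this
      have hav : permRep X a v = v := by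
        have : v - permRep X a v = 0 := by simpa [hA] using hAv
        exact (sub_eq_zero.mp this).symm
      have hbv : permRep X b v = v := by
        have : v - permRep X b v = 0 := by simpa [hB] using hBv
        exact (sub_eq_zero.mp this).symm
      rw [scott_aux_fixed_const a b hgen v hav hbv x₀]
      exact Submodule.smul_mem _ _ (Submodule.mem_span_singleton_self _)
    refine (Submodule.finrank_mono hle).trans ?_
    have := finrank_span_le_card (R := ℚ) ({(fun _ => (1 : ℚ) : X → ℚ)} : Set (X → ℚ))
    simpa using this
  -- range δ has codimension at most one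
  have hrangeδ : Fintype.card X ≤ Module.finrank ℚ (LinearMap.range δ) + 1 := by
    set W := LinearMap.range δ with hW
    have haW : ∀ v, v - permRep X a v ∈ W := by
      intro v
      refine ⟨(⟨A v, LinearMap.mem_range_self A v⟩, 0, 0), ?_⟩
      simp [δ, hA]
    have haW' : ∀ v, v - permRep X a⁻¹ v ∈ W := by
      intro v
      have h1 : v - permRep X a⁻¹ v = -(permRep X a⁻¹ v - permRep X a (permRep X a⁻¹ v)) := by
        have := permRep_inv_permRep (X := X) a⁻¹ v
        rw [inv_inv] at this
        rw [this]
        abel
      rw [h1]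
      exact W.neg_mem (haW _)
    have hbW : ∀ v, v - permRep X b v ∈ W := by
      intro v
      have h2 : permRep X a (B v) ∈ W := by
        refine ⟨(0, ⟨B v, LinearMap.mem_range_self B v⟩, 0), ?_⟩
        simp [δ]
      have h3 : B v = permRep X a (B v) - (permRep X a (B v) - permRep X a⁻¹ (permRep X a (B v))) := by
        rw [permRep_inv_permRep]
        abel
      have h4 : B v ∈ W := by
        rw [h3]
        exact W.sub_mem h2 (haW' _)
      simpa [hB] using h4
    have hall := fun g => scott_aux_mem_of_closure W a b haW hbW hgen g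
    have htop : (⊤ : Submodule ℚ (X → ℚ)) ≤ W ⊔ Submodule.span ℚ {(Pi.single x₀ (1 : ℚ) : X → ℚ)} := by
      intro v _
      have hv : v = ∑ i, v i • (Pi.single i (1 : ℚ) : X → ℚ) := by
        funext x
        simp [Finset.sum_apply, Pi.single_apply]
      rw [hv]
      refine Submodule.sum_mem _ fun i _ => Submodule.smul_mem _ _ ?_
      obtain ⟨g, hg⟩ := MulAction.exists_smul_eq G x₀ i
      have h5 := hall g (Pi.single x₀ (1 : ℚ))
      rw [permRep_single, hg] at h5
      have h6 : (Pi.single i (1 : ℚ) : X → ℚ)
          = -(Pi.single x₀ (1 : ℚ) - Pi.single i (1 : ℚ)) + Pi.single x₀ (1 : ℚ) := by abel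
      rw [h6]
      exact Submodule.add_mem _ (Submodule.mem_sup_left (W.neg_mem h5))
        (Submodule.mem_sup_right (Submodule.mem_span_singleton_self _))
    have h7 : Module.finrank ℚ (X → ℚ) ≤ Module.finrank ℚ
        ↥(W ⊔ Submodule.span ℚ {(Pi.single x₀ (1 : ℚ) : X → ℚ)}) := by
      rw [← finrank_top ℚ (X → ℚ)]
      exact Submodule.finrank_mono htop
    have h8 := Submodule.finrank_add_le_finrank_add_finrank W
      (Submodule.span ℚ {(Pi.single x₀ (1 : ℚ) : X → ℚ)})
    have h9 : Module.finrank ℚ ↥(Submodule.span ℚ {(Pi.single x₀ (1 : ℚ) : X → ℚ)}) ≤ 1 := by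
      have := finrank_span_le_card (R := ℚ) ({(Pi.single x₀ (1 : ℚ) : X → ℚ)} : Set (X → ℚ))
      simpa using this
    rw [Module.finrank_fintype_fun_eq_card] at h7
    omega
  -- rank-nullity for β and δ
  have hβ : Module.finrank ℚ (LinearMap.range β) + Module.finrank ℚ (LinearMap.ker β)
      = Fintype.card X := by
    rw [LinearMap.finrank_range_add_finrank_ker β, Module.finrank_fintype_fun_eq_card]
  have hδ : Module.finrank ℚ (LinearMap.range δ) + Module.finrank ℚ (LinearMap.ker δ)
      = Module.finrank ℚ (LinearMap.range A) + (Module.finrank ℚ (LinearMap.range B)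
        + Module.finrank ℚ (LinearMap.range C)) := by
    rw [LinearMap.finrank_range_add_finrank_ker δ, Module.finrank_prod, Module.finrank_prod]
  have h2 : Module.finrank ℚ (LinearMap.range β) ≤ Module.finrank ℚ (LinearMap.ker δ) :=
    Submodule.finrank_mono h1
  have hAr : Module.finrank ℚ (LinearMap.range A) + numOrbits X a = Fintype.card X :=
    finrank_range_one_sub_permRep (X := X) a
  have hBr : Module.finrank ℚ (LinearMap.range B) + numOrbits X b = Fintype.card X :=
    finrank_range_one_sub_permRep (X := X) b
  have hCr : Module.finrank ℚ (LinearMap.range C) + numOrbits X (a * b) = Fintype.card X := by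
    have h := finrank_range_one_sub_permRep (X := X) c
    have h' : numOrbits X c = numOrbits X (a * b) := by rw [hc, numOrbits_inv]
    rw [h'] at h
    exact h
  omega

end Scott


section Parity

open Equiv Perm

variable {G : Type*} [Group G] {X : Type*} [MulAction G X]

lemma orbitRel_zpowers_iff_sameCycle (g : G) (x y : X) :
    MulAction.orbitRel (Subgroup.zpowers g) X x y ↔ (MulAction.toPerm g : Perm X).SameCycle y x := by
  rw [MulAction.orbitRel_apply]
  constructor
  · rintro ⟨⟨h, k, rfl⟩, rfl⟩
    refine ⟨k, ?_⟩
    have : (MulAction.toPerm g : Perm X) ^ k = MulAction.toPerm (g ^ k) :=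
      (map_zpow (MulAction.toPermHom G X) g k).symm
    rw [this]
    rfl
  · rintro ⟨k, hk⟩
    refine ⟨⟨g ^ k, k, rfl⟩, ?_⟩
    have : (MulAction.toPerm g : Perm X) ^ k = MulAction.toPerm (g ^ k) :=
      (map_zpow (MulAction.toPermHom G X) g k).symm
    rw [this] at hk
    exact hk

/-- The number of orbits of `zpowers g` is the number of nontrivial cycles plus the number of
fixed points. -/
lemma numOrbits_eq_card_cycleType_add [Fintype X] [DecidableEq X] (g : G) :
    numOrbits X g = Multiset.card (MulAction.toPerm g : Perm X).cycleType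
      + (Fintype.card X - (MulAction.toPerm g : Perm X).support.card) := by
  classical
  set σ : Perm X := MulAction.toPerm g with hσ
  let f : X → Perm X ⊕ X := fun x => if σ x = x then Sum.inr x else Sum.inl (σ.cycleOf x)
  have hker : MulAction.orbitRel (Subgroup.zpowers g) X = Setoid.ker f := by
    ext x y
    rw [orbitRel_zpowers_iff_sameCycle, Setoid.ker_def]
    constructor
    · intro h
      have h' := h.symm
      by_cases hx : σ x = x
      · have hy : σ y = y := (h'.apply_eq_self_iff).mp hx
        have : x = y := h'.eq_of_left hx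
        simp only [f, if_pos hy, this]
      · have hy : ¬ σ y = y := fun hy => hx ((h'.apply_eq_self_iff).mpr hy)
        simp only [f, if_neg hx, if_neg hy]
        exact congrArg Sum.inl h'.cycleOf_eq
    · intro h
      by_cases hx : σ x = x
      · by_cases hy : σ y = y
        · simp only [f, if_pos hx, if_pos hy, Sum.inr.injEq] at h
          subst h
          exact SameCycle.refl _ _
        · simp [f, if_pos hx, if_neg hy] at h
      · by_cases hy : σ y = y
        · simp [f, if_neg hx, if_pos hy] at h
        · simp only [f, if_neg hx, if_neg hy, Sum.inl.injEq] at h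
          exact ((sameCycle_iff_cycleOf_eq_of_mem_support (mem_support.mpr hx)
            (mem_support.mpr hy)).mpr h).symm
  have hrange : Set.range f = ↑((σ.cycleFactorsFinset.map ⟨Sum.inl, Sum.inl_injective⟩) ∪
      ((Finset.univ.filter (fun x => σ x = x)).map ⟨Sum.inr, Sum.inr_injective⟩)) := by
    ext z
    simp only [Set.mem_range, Finset.coe_union, Finset.coe_map, Function.Embedding.coeFn_mk,
      Set.mem_union, Set.mem_image, Finset.mem_coe, Finset.mem_filter, Finset.mem_univ, true_and]
    constructor
    · rintro ⟨x, rfl⟩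
      by_cases hx : σ x = x
      · right
        exact ⟨x, hx, by simp [f, hx]⟩
      · left
        exact ⟨σ.cycleOf x, cycleOf_mem_cycleFactorsFinset_iff.mpr (mem_support.mpr hx),
          by simp [f, hx]⟩
    · rintro (⟨c, hc, rfl⟩ | ⟨x, hx, rfl⟩)
      · obtain ⟨hcyc, hsupp⟩ := mem_cycleFactorsFinset_iff.mp hc
        obtain ⟨x, hx⟩ := hcyc.nonempty_support
        have hx' : σ x ≠ x := by
          rw [← hsupp x hx]
          exact mem_support.mp hx
        refine ⟨x, ?_⟩
        simp only [f, if_neg hx', Sum.inl.injEq]
        exact (cycle_is_cycleOf hx hc).symm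
      · exact ⟨x, by simp [f, hx]⟩
  have hcard : numOrbits X g = Nat.card (Set.range f) := by
    unfold numOrbits MulAction.orbitRel.Quotient
    rw [hker]
    exact Nat.card_congr (Setoid.quotientKerEquivRange f)
  rw [hcard, hrange, Nat.card_coe_set_eq, Set.ncard_coe_finset, Finset.card_union_of_disjoint,
    Finset.card_map, Finset.card_map]
  · congr 1
    · rw [cycleType_def, Multiset.card_map]
      rfl
    · have h1 : (Finset.univ.filter (fun x => σ x = x)) = σ.supportᶜ := by
        ext x
        simp [mem_support]
      rw [h1, Finset.card_compl]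
  · rw [Finset.disjoint_left]
    intro z hz1 hz2
    simp only [Finset.mem_map, Function.Embedding.coeFn_mk] at hz1 hz2
    obtain ⟨c, _, rfl⟩ := hz1
    obtain ⟨x, _, hx⟩ := hz2
    exact Sum.inr_ne_inl hx

/-- The sign of the permutation induced by `g` is `(-1) ^ (|X| + number of cycles)`. -/
theorem sign_toPerm_eq [Fintype X] [DecidableEq X] (g : G) :
    Perm.sign (MulAction.toPerm g : Perm X) = (-1) ^ (Fintype.card X + numOrbits X g) := by
  rw [sign_of_cycleType, numOrbits_eq_card_cycleType_add, sum_cycleType]
  have hle : (MulAction.toPerm g : Perm X).support.card ≤ Fintype.card X :=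
    Finset.card_le_univ _
  set s := (MulAction.toPerm g : Perm X).support.card
  set n := Fintype.card X
  set m := Multiset.card (MulAction.toPerm g : Perm X).cycleType
  have h : n + (m + (n - s)) = (s + m) + 2 * (n - s) := by omega
  rw [h, pow_add (-1 : ℤˣ) (s + m), pow_mul]
  simp

/-- Parity: if `a`, `b` act on a finite set then `|X| + c(a) + c(b) + c(ab)` is even
(`c` = number of cycles); equivalently `(|X| - c(a)) + (|X| - c(b)) + (|X| - c(ab))` is even. -/
theorem even_card_add_numOrbits_fintype [Fintype X] (a b : G) :
    Even (Fintype.card X + numOrbits X a + numOrbits X b + numOrbits X (a * b)) := by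
  classical
  have h1 := sign_toPerm_eq (X := X) a
  have h2 := sign_toPerm_eq (X := X) b
  have h3 := sign_toPerm_eq (X := X) (a * b)
  have hmul : (MulAction.toPerm (a * b) : Perm X) = MulAction.toPerm a * MulAction.toPerm b :=
    map_mul (MulAction.toPermHom G X) a b
  rw [hmul, map_mul, h1, h2, ← pow_add] at h3
  by_contra hodd
  rw [Nat.not_even_iff_odd] at hodd
  have key : ((-1 : ℤˣ)) ^ ((Fintype.card X + numOrbits X a + (Fintype.card X + numOrbits X b))
      + (Fintype.card X + numOrbits X (a * b))) = 1 := by
    rw [pow_add, h3, ← pow_add, ← two_mul, pow_mul]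
    simp
  have hodd' : Odd ((Fintype.card X + numOrbits X a + (Fintype.card X + numOrbits X b))
      + (Fintype.card X + numOrbits X (a * b))) := by
    obtain ⟨k, hk⟩ := hodd
    exact ⟨k + Fintype.card X, by omega⟩
  rw [hodd'.neg_one_pow] at key
  exact absurd key (by decide)

end Parity


end PermLemma

/-- PART C2 (Scott's lemma / Ree's inequality for a transitive action). -/
theorem numOrbits_add_le {G X : Type*} [Group G] [MulAction G X] [Finite X]
    [MulAction.IsPretransitive G X] (s t : G) (hst : Subgroup.closure {s, t} = ⊤) :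
    numOrbits X s + numOrbits X t + numOrbits X (s * t) ≤ Nat.card X + 2 := by
  classical
  have : Fintype X := Fintype.ofFinite X
  rw [Nat.card_eq_fintype_card]
  rcases isEmpty_or_nonempty X with hX | hX
  · have h0 : ∀ g : G, numOrbits X g = 0 := fun g => by
      unfold numOrbits
      have : IsEmpty (MulAction.orbitRel.Quotient (Subgroup.zpowers g) X) :=
        ⟨fun q => Quotient.inductionOn' q fun x => hX.false x⟩
      exact Nat.card_of_isEmpty
    rw [h0, h0, h0]
    omega
  · exact PermLemma.scott_ineq_fintype s t hst

/-- PART C2 (parity, via the sign of permutations: `sign s * sign t = sign (s * t)`). -/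
theorem even_card_add_numOrbits {G X : Type*} [Group G] [MulAction G X] [Finite X]
    (s t : G) :
    Even (Nat.card X + numOrbits X s + numOrbits X t + numOrbits X (s * t)) := by
  classical
  have : Fintype X := Fintype.ofFinite X
  rw [Nat.card_eq_fintype_card]
  exact PermLemma.even_card_add_numOrbits_fintype s t

end Fermat.Agent.S24
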