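import Mathlib

/-!
# S24 component: the cusp `∞` as a valuation (Mathlib-only)

* `HasCuspLeading h g n c` : `q_h^(-n) * g → c ≠ 0` at `i∞` (`q_h = exp (2πiτ/h)`): "`g` has
  order `n` and leading coefficient `c` at `∞` in the local parameter `q_h`".
* uniqueness, multiplicativity, behaviour under translation `τ ↦ τ + k`,
  `k`-periodicity forces `h ∣ k * n`.
* existence for holomorphic, `N`-periodic functions of moderate growth.
* `HolCusp N` : the ring of such functions; `cuspVal N` : the valuation "order at `∞`" on it and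
  `cuspValFrac N` on its fraction field.
-/

set_option autoImplicit false

open UpperHalfPlane Filter Topology Function
open scoped Manifold

namespace Fermat.Agent.S24.B2C

noncomputable section

local notation "𝕢" => Function.Periodic.qParam

/-- `g` has order `n` and leading coefficient `c` at the cusp `∞` w.r.t. the parameter
`q_h = exp(2πiτ/h)`: `q_h^(-n) * g → c ≠ 0` at `i∞`. -/
def HasCuspLeading (h : ℝ) (g : ℍ → ℂ) (n : ℤ) (c : ℂ) : Prop :=
  c ≠ 0 ∧ Tendsto (fun τ : ℍ ↦ 𝕢 h τ ^ (-n) * g τ) atImInfty (𝓝 c)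

theorem qParam_zpow_tendsto_zero {h : ℝ} (hh : 0 < h) {k : ℤ} (hk : 0 < k) :
    Tendsto (fun τ : ℍ ↦ 𝕢 h τ ^ k) atImInfty (𝓝 0) := by
  obtain ⟨m, rfl⟩ : ∃ m : ℕ, k = m := ⟨k.toNat, (Int.toNat_of_nonneg hk.le).symm⟩
  have hm : m ≠ 0 := by rintro rfl; simp at hk
  have h1 : Tendsto (fun τ : ℍ ↦ 𝕢 h τ) atImInfty (𝓝 0) := qParam_tendsto_atImInfty hh
  have h2 := h1.pow m
  simpa [zero_pow hm] using h2

namespace HasCuspLeading

variable {h : ℝ} {g g₁ g₂ : ℍ → ℂ} {n n₁ n₂ : ℤ} {c c₁ c₂ : ℂ}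

theorem le_of_tendsto (hh : 0 < h) (hg : HasCuspLeading h g n c) {m : ℤ} {L : ℂ}
    (hL : Tendsto (fun τ : ℍ ↦ 𝕢 h τ ^ (-m) * g τ) atImInfty (𝓝 L)) : m ≤ n := by
  by_contra hlt
  rw [not_le] at hlt
  have h0 : Tendsto (fun τ : ℍ ↦ 𝕢 h τ ^ (m - n) * (𝕢 h τ ^ (-m) * g τ)) atImInfty (𝓝 (0 * L)) :=
    (qParam_zpow_tendsto_zero hh (sub_pos.mpr hlt)).mul hL
  have h1 : (fun τ : ℍ ↦ 𝕢 h τ ^ (m - n) * (𝕢 h τ ^ (-m) * g τ))
      = fun τ : ℍ ↦ 𝕢 h τ ^ (-n) * g τ := by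
    funext τ
    rw [← mul_assoc, ← zpow_add₀ (Function.Periodic.qParam_ne_zero (τ : ℂ))]
    congr 2
    ring
  rw [h1, zero_mul] at h0
  exact hg.1 (tendsto_nhds_unique hg.2 h0)

theorem unique (hh : 0 < h) (hg : HasCuspLeading h g n c) (hg' : HasCuspLeading h g n₁ c₁) :
    n = n₁ ∧ c = c₁ := by
  have h1 : n₁ ≤ n := hg.le_of_tendsto hh hg'.2
  have h2 : n ≤ n₁ := hg'.le_of_tendsto hh hg.2
  obtain rfl : n = n₁ := le_antisymm h2 h1
  exact ⟨rfl, tendsto_nhds_unique hg.2 hg'.2⟩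

theorem ne_zero (hg : HasCuspLeading h g n c) : g ≠ 0 := by
  rintro rfl
  have : Tendsto (fun τ : ℍ ↦ 𝕢 h τ ^ (-n) * (0 : ℍ → ℂ) τ) atImInfty (𝓝 0) := by
    simp
  exact hg.1 (tendsto_nhds_unique hg.2 this)

theorem mul (hg₁ : HasCuspLeading h g₁ n₁ c₁) (hg₂ : HasCuspLeading h g₂ n₂ c₂) :
    HasCuspLeading h (g₁ * g₂) (n₁ + n₂) (c₁ * c₂) := by
  refine ⟨mul_ne_zero hg₁.1 hg₂.1, ?_⟩
  have := hg₁.2.mul hg₂.2
  refine this.congr fun τ => ?_
  rw [neg_add, zpow_add₀ (Function.Periodic.qParam_ne_zero (τ : ℂ)), Pi.mul_apply]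
  ring

theorem const {a : ℂ} (ha : a ≠ 0) (h : ℝ) : HasCuspLeading h (fun _ => a) 0 a := by
  refine ⟨ha, ?_⟩
  simp

/-- Translation by an integer `k`: the order is unchanged, the leading coefficient is multiplied
by `exp(2πik/h)^n`. -/
theorem comp_vadd (hg : HasCuspLeading h g n c) (k : ℤ) :
    HasCuspLeading h (fun τ : ℍ ↦ g ((k : ℝ) +ᵥ τ)) n
      (Complex.exp (2 * Real.pi * Complex.I * k / h) ^ n * c) := by
  refine ⟨mul_ne_zero (zpow_ne_zero _ (Complex.exp_ne_zero _)) hg.1, ?_⟩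
  have ht : Tendsto (fun τ : ℍ ↦ (k : ℝ) +ᵥ τ) atImInfty atImInfty := by
    simp only [atImInfty, tendsto_comap_iff, Function.comp_def, vadd_im]
    exact tendsto_comap
  have h1 := (hg.2.comp ht).const_mul (Complex.exp (2 * Real.pi * Complex.I * k / h) ^ n)
  refine h1.congr fun τ => ?_
  have hq : 𝕢 h (((k : ℝ) +ᵥ τ : ℍ) : ℂ)
      = 𝕢 h (τ : ℂ) * Complex.exp (2 * Real.pi * Complex.I * k / h) := by
    simp only [Function.Periodic.qParam, coe_vadd, ← Complex.exp_add]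
    congr 1
    push_cast
    ring
  simp only [Function.comp_apply, hq, mul_zpow]
  rw [zpow_neg, zpow_neg (Complex.exp _)]
  field_simp [Complex.exp_ne_zero]

/-- If `g` is invariant under `τ ↦ τ + k` and has order `n` w.r.t. `q_N`, then `N ∣ k * n`. -/
theorem dvd_of_periodic {N : ℕ} (hN : 0 < N) (hg : HasCuspLeading (N : ℝ) g n c) (k : ℤ)
    (hper : ∀ τ : ℍ, g ((k : ℝ) +ᵥ τ) = g τ) : (N : ℤ) ∣ k * n := by
  have hNr : (0 : ℝ) < N := by exact_mod_cast hN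
  have h1 := hg.comp_vadd k
  have h2 : (fun τ : ℍ ↦ g ((k : ℝ) +ᵥ τ)) = g := funext hper
  rw [h2] at h1
  have h3 := (hg.unique hNr h1).2
  have h4 : Complex.exp (2 * Real.pi * Complex.I * k / (N : ℝ)) ^ n = 1 := by
    have : (1 : ℂ) * c = Complex.exp (2 * Real.pi * Complex.I * k / (N : ℝ)) ^ n * c := by
      rw [one_mul]; exact h3
    exact (mul_right_cancel₀ hg.1 this).symm
  rw [← Complex.exp_int_mul, Complex.exp_eq_one_iff] at h4
  obtain ⟨m, hm⟩ := h4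
  refine ⟨m, ?_⟩
  have hN0 : ((N : ℝ) : ℂ) ≠ 0 := by exact_mod_cast hN.ne'
  have hpi : (2 * Real.pi * Complex.I : ℂ) ≠ 0 := Complex.two_pi_I_ne_zero
  have h5 : ((k * n : ℤ) : ℂ) = ((N * m : ℤ) : ℂ) := by
    push_cast
    field_simp at hm
    linear_combination (exp := 1) hm
  exact_mod_cast h5

end HasCuspLeading

/-- `exp(2πik/N)^n = 1` forces `N ∣ k * n`. -/
theorem dvd_of_exp_zpow_eq_one {N : ℕ} (hN : 0 < N) {k n : ℤ}
    (h4 : Complex.exp (2 * Real.pi * Complex.I * k / (N : ℝ)) ^ n = 1) : (N : ℤ) ∣ k * n := by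
  rw [← Complex.exp_int_mul, Complex.exp_eq_one_iff] at h4
  obtain ⟨m, hm⟩ := h4
  refine ⟨m, ?_⟩
  have hN0 : ((N : ℝ) : ℂ) ≠ 0 := by exact_mod_cast hN.ne'
  have hpi : (2 * Real.pi * Complex.I : ℂ) ≠ 0 := Complex.two_pi_I_ne_zero
  have h5 : ((k * n : ℤ) : ℂ) = ((N * m : ℤ) : ℂ) := by
    push_cast
    field_simp at hm
    linear_combination (exp := 1) hm
  exact_mod_cast h5

theorem periodic_qParam_pow_mul_comp_ofComplex {N : ℕ} (k : ℕ) {g : ℍ → ℂ}
    (hper : ∀ τ : ℍ, g ((N : ℝ) +ᵥ τ) = g τ) :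
    Function.Periodic ((fun τ : ℍ ↦ 𝕢 N τ ^ k * g τ) ∘ ofComplex) ((N : ℝ) : ℂ) := by
  intro w
  by_cases hw : 0 < Complex.im w
  · have hw' : 0 < Complex.im (w + ((N : ℝ) : ℂ)) := by simpa using hw
    simp only [Function.comp_apply]
    rw [ofComplex_apply_of_im_pos hw', ofComplex_apply_of_im_pos hw]
    have h1 : (⟨w + ((N : ℝ) : ℂ), hw'⟩ : ℍ) = (N : ℝ) +ᵥ (⟨w, hw⟩ : ℍ) := by
      ext
      simp [add_comm]
    rw [h1, hper]
    congr 2
    by_cases hN : (N : ℝ) = 0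
    · simp [hN]
    · have hN' : ((N : ℝ) : ℂ) ≠ 0 := by exact_mod_cast hN
      have h2 : (((N : ℝ) +ᵥ (⟨w, hw⟩ : ℍ) : ℍ) : ℂ) = ((N : ℝ) : ℂ) + w := by
        rw [coe_vadd]
      rw [h2]
      simp only [Function.Periodic.qParam]
      rw [show 2 * Real.pi * Complex.I * (((N : ℝ) : ℂ) + w) / ((N : ℝ) : ℂ)
          = 2 * Real.pi * Complex.I * w / ((N : ℝ) : ℂ) + 2 * Real.pi * Complex.I by
        field_simp
        ring]
      rw [Complex.exp_add, Complex.exp_two_pi_mul_I, mul_one]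
  · have hw1 : Complex.im w ≤ 0 := not_lt.mp hw
    have hw' : Complex.im (w + ((N : ℝ) : ℂ)) ≤ 0 := by simpa using hw1
    simp only [Function.comp_apply]
    rw [ofComplex_apply_of_im_nonpos hw', ofComplex_apply_of_im_nonpos hw1]

theorem mdifferentiable_qParam_pow (h : ℝ) (k : ℕ) : MDiff (fun τ : ℍ ↦ 𝕢 h τ ^ k) := by
  rw [mdifferentiable_iff]
  have h1 : DifferentiableOn ℂ (fun z : ℂ ↦ 𝕢 h z ^ k) {z | 0 < z.im} :=
    ((Function.Periodic.differentiable_qParam (h := h)).pow k).differentiableOn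
  refine h1.congr fun z hz => ?_
  simp only [Function.comp_apply, ofComplex_apply_of_im_pos hz]

/-- Existence of the order at `∞`: a nonzero holomorphic `N`-periodic function on `ℍ` with
`q_N^k * g` bounded at `i∞` has a leading term `c * q_N^n`. -/
theorem exists_hasCuspLeading {N : ℕ} (hN : 0 < N) {g : ℍ → ℂ} (hg : MDiff g)
    (hper : ∀ τ : ℍ, g ((N : ℝ) +ᵥ τ) = g τ)
    (hbd : ∃ k : ℕ, IsBoundedAtImInfty (fun τ : ℍ ↦ 𝕢 N τ ^ k * g τ)) (hne : g ≠ 0) :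
    ∃ (n : ℤ) (c : ℂ), HasCuspLeading N g n c := by
  obtain ⟨k, hk⟩ := hbd
  have hNr : (0 : ℝ) < N := by exact_mod_cast hN
  set f₁ : ℍ → ℂ := fun τ : ℍ ↦ 𝕢 N τ ^ k * g τ with hf₁
  have hf₁per : Function.Periodic (f₁ ∘ ofComplex) (N : ℝ) :=
    periodic_qParam_pow_mul_comp_ofComplex k hper
  have hf₁hol : MDiff f₁ := (mdifferentiable_qParam_pow N k).mul hg
  set F : ℂ → ℂ := cuspFunction N f₁ with hF
  have hFan0 : AnalyticAt ℂ F 0 := analyticAt_cuspFunction_zero hNr hf₁per hf₁hol hk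
  have hFdiff : DifferentiableOn ℂ F (Metric.ball 0 1) :=
    differentiableOn_cuspFunction_ball hNr hf₁per hf₁hol hk
  have hFeq : ∀ τ : ℍ, F (𝕢 N τ) = f₁ τ := fun τ => eq_cuspFunction τ hNr.ne' hf₁per
  have hord : analyticOrderAt F 0 ≠ ⊤ := by
    intro htop
    rw [analyticOrderAt_eq_top] at htop
    have hzero : Set.EqOn F 0 (Metric.ball 0 1) :=
      (hFdiff.analyticOnNhd Metric.isOpen_ball).eqOn_zero_of_preconnected_of_eventuallyEq_zero
        (convex_ball 0 1).isPreconnected (Metric.mem_ball_self one_pos) htop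
    apply hne
    funext τ
    have h1 : 𝕢 N τ ∈ Metric.ball (0 : ℂ) 1 := by
      rw [mem_ball_zero_iff]
      exact Function.Periodic.norm_qParam_lt_one hNr τ.im_pos
    have h2 := hzero h1
    rw [hFeq] at h2
    have h3 : 𝕢 N τ ^ k * g τ = 0 := h2
    rcases mul_eq_zero.mp h3 with h4 | h4
    · exact absurd h4 (pow_ne_zero _ (Function.Periodic.qParam_ne_zero _))
    · exact h4
  obtain ⟨u, hu_an, hu0, hFu⟩ := hFan0.analyticOrderAt_ne_top.mp hord
  set m : ℕ := analyticOrderNatAt F 0 with hm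
  refine ⟨(m : ℤ) - k, u 0, hu0, ?_⟩
  have hq0 : Tendsto (fun τ : ℍ ↦ 𝕢 N τ) atImInfty (𝓝 0) := qParam_tendsto_atImInfty hNr
  have hlim : Tendsto (fun τ : ℍ ↦ u (𝕢 N τ)) atImInfty (𝓝 (u 0)) :=
    hu_an.continuousAt.tendsto.comp hq0
  refine hlim.congr' ?_
  filter_upwards [hq0.eventually hFu] with τ hτ
  have hqne : 𝕢 N (τ : ℂ) ≠ 0 := Function.Periodic.qParam_ne_zero _
  rw [hFeq] at hτ
  simp only [sub_zero, smul_eq_mul] at hτ
  have h5 : 𝕢 N (τ : ℂ) ^ k * g τ = 𝕢 N (τ : ℂ) ^ m * u (𝕢 N (τ : ℂ)) := hτ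
  have h6 : g τ = 𝕢 N (τ : ℂ) ^ ((m : ℤ) - k) * u (𝕢 N (τ : ℂ)) := by
    rw [zpow_sub₀ hqne, zpow_natCast, zpow_natCast, div_mul_eq_mul_div, ← h5,
      mul_div_cancel_left₀ _ (pow_ne_zero k hqne)]
  rw [h6, ← mul_assoc, ← zpow_add₀ hqne, neg_add_cancel, zpow_zero, one_mul]

/-! ### The ring of holomorphic `N`-periodic functions meromorphic at `∞` -/

theorem norm_qParam_le_one (N : ℕ) (τ : ℍ) : ‖𝕢 N τ‖ ≤ 1 := by
  rw [Function.Periodic.norm_qParam]
  apply Real.exp_le_one_iff.mpr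
  apply div_nonpos_of_nonpos_of_nonneg
  · have h1 := τ.im_pos
    have h2 : (τ : ℂ).im = τ.im := rfl
    rw [h2]
    nlinarith [Real.pi_pos]
  · exact Nat.cast_nonneg N

theorem isBoundedAtImInfty_qParam_pow (N : ℕ) (j : ℕ) :
    IsBoundedAtImInfty (fun τ : ℍ ↦ 𝕢 N τ ^ j) := by
  rw [isBoundedAtImInfty_iff]
  refine ⟨1, 0, fun z _ => ?_⟩
  rw [norm_pow]
  exact pow_le_one₀ (norm_nonneg _) (norm_qParam_le_one N z)

/-- Holomorphic functions on `ℍ` which are `N`-periodic and meromorphic at `∞`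
(`q_N^k * g` bounded at `i∞` for some `k`). -/
def HolCusp (N : ℕ) : Subring (ℍ → ℂ) where
  carrier := {g | MDiff g ∧ (∀ τ : ℍ, g ((N : ℝ) +ᵥ τ) = g τ) ∧
    ∃ k : ℕ, IsBoundedAtImInfty (fun τ : ℍ ↦ 𝕢 N τ ^ k * g τ)}
  mul_mem' := by
    rintro a b ⟨ha, hpa, ka, hka⟩ ⟨hb, hpb, kb, hkb⟩
    refine ⟨ha.mul hb, fun τ => by simp [hpa τ, hpb τ], ka + kb, ?_⟩
    have h1 : IsBoundedAtImInfty
        ((fun τ : ℍ ↦ 𝕢 N τ ^ ka * a τ) * (fun τ : ℍ ↦ 𝕢 N τ ^ kb * b τ)) := hka.mul hkb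
    have h2 : (fun τ : ℍ ↦ 𝕢 N τ ^ (ka + kb) * (a * b) τ)
        = (fun τ : ℍ ↦ 𝕢 N τ ^ ka * a τ) * (fun τ : ℍ ↦ 𝕢 N τ ^ kb * b τ) := by
      funext τ
      simp only [Pi.mul_apply, pow_add]
      ring
    rw [h2]
    exact h1
  one_mem' := by
    refine ⟨mdifferentiable_const, fun τ => rfl, 0, ?_⟩
    simpa using isBoundedAtImInfty_qParam_pow N 0
  add_mem' := by
    rintro a b ⟨ha, hpa, ka, hka⟩ ⟨hb, hpb, kb, hkb⟩
    refine ⟨ha.add hb, fun τ => by simp [hpa τ, hpb τ], ka + kb, ?_⟩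
    have h1 : IsBoundedAtImInfty
        ((fun τ : ℍ ↦ 𝕢 N τ ^ kb) * (fun τ : ℍ ↦ 𝕢 N τ ^ ka * a τ)
          + (fun τ : ℍ ↦ 𝕢 N τ ^ ka) * (fun τ : ℍ ↦ 𝕢 N τ ^ kb * b τ)) :=
      ((isBoundedAtImInfty_qParam_pow N kb).mul hka).add
        ((isBoundedAtImInfty_qParam_pow N ka).mul hkb)
    have h2 : (fun τ : ℍ ↦ 𝕢 N τ ^ (ka + kb) * (a + b) τ)
        = (fun τ : ℍ ↦ 𝕢 N τ ^ kb) * (fun τ : ℍ ↦ 𝕢 N τ ^ ka * a τ)
          + (fun τ : ℍ ↦ 𝕢 N τ ^ ka) * (fun τ : ℍ ↦ 𝕢 N τ ^ kb * b τ) := by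
      funext τ
      simp only [Pi.mul_apply, Pi.add_apply, pow_add]
      ring
    rw [h2]
    exact h1
  zero_mem' := by
    refine ⟨mdifferentiable_const, fun τ => rfl, 0, ?_⟩
    rw [isBoundedAtImInfty_iff]
    exact ⟨0, 0, fun z _ => by simp⟩
  neg_mem' := by
    rintro a ⟨ha, hpa, ka, hka⟩
    refine ⟨ha.neg, fun τ => by simp [hpa τ], ka, ?_⟩
    have h1 : IsBoundedAtImInfty (-(fun τ : ℍ ↦ 𝕢 N τ ^ ka * a τ)) := hka.neg
    have h2 : (fun τ : ℍ ↦ 𝕢 N τ ^ ka * (-a) τ) = -(fun τ : ℍ ↦ 𝕢 N τ ^ ka * a τ) := by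
      funext τ
      simp
    rw [h2]
    exact h1

theorem mem_HolCusp {N : ℕ} {g : ℍ → ℂ} : g ∈ HolCusp N ↔
    MDiff g ∧ (∀ τ : ℍ, g ((N : ℝ) +ᵥ τ) = g τ) ∧
      ∃ k : ℕ, IsBoundedAtImInfty (fun τ : ℍ ↦ 𝕢 N τ ^ k * g τ) := Iff.rfl

variable {N : ℕ} [NeZero N]

theorem HolCusp.exists_leading (g : HolCusp N) (hg : g ≠ 0) :
    ∃ (n : ℤ) (c : ℂ), HasCuspLeading N g.1 n c :=
  exists_hasCuspLeading (Nat.pos_of_ne_zero (NeZero.ne N)) g.2.1 g.2.2.1 g.2.2.2
    (fun h => hg (Subtype.ext h))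

instance instIsDomainHolCusp : IsDomain (HolCusp N) := by
  have : NoZeroDivisors (HolCusp N) := by
    refine ⟨fun {a b} hab => ?_⟩
    by_contra hne
    rw [not_or] at hne
    obtain ⟨n₁, c₁, h₁⟩ := HolCusp.exists_leading a hne.1
    obtain ⟨n₂, c₂, h₂⟩ := HolCusp.exists_leading b hne.2
    have h3 := (h₁.mul h₂).ne_zero
    exact h3 (congrArg Subtype.val hab)
  exact NoZeroDivisors.to_isDomain _

open Classical in
/-- The order at `∞` (in the parameter `q_N`) of an element of `HolCusp N` (`0` for `0`). -/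
def cuspOrd (g : HolCusp N) : ℤ :=
  if h : g = 0 then 0 else (HolCusp.exists_leading g h).choose

theorem cuspOrd_eq {g : HolCusp N} {n : ℤ} {c : ℂ} (h : HasCuspLeading N g.1 n c) :
    cuspOrd g = n := by
  have hg : g ≠ 0 := fun h0 => h.ne_zero (congrArg Subtype.val h0)
  have hNr : (0 : ℝ) < N := by exact_mod_cast Nat.pos_of_ne_zero (NeZero.ne N)
  rw [cuspOrd, dif_neg hg]
  exact ((HolCusp.exists_leading g hg).choose_spec.choose_spec.unique hNr h).1

theorem exists_leading_cuspOrd {g : HolCusp N} (hg : g ≠ 0) :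
    ∃ c : ℂ, HasCuspLeading N g.1 (cuspOrd g) c := by
  obtain ⟨n, c, h⟩ := HolCusp.exists_leading g hg
  exact ⟨c, by rw [cuspOrd_eq h]; exact h⟩

open WithZero Classical in
/-- The valuation "order at `∞`" on `HolCusp N`. -/
def cuspVal (N : ℕ) [NeZero N] : Valuation (HolCusp N) (WithZero (Multiplicative ℤ)) where
  toFun g := if g = 0 then 0 else exp (-(cuspOrd g))
  map_zero' := by simp
  map_one' := by
    have h1 : HasCuspLeading N (1 : HolCusp N).1 0 1 := HasCuspLeading.const one_ne_zero _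
    rw [if_neg one_ne_zero, cuspOrd_eq h1]
    simp
  map_mul' := by
    intro a b
    by_cases ha : a = 0
    · simp [ha]
    by_cases hb : b = 0
    · simp [hb]
    obtain ⟨c₁, h₁⟩ := exists_leading_cuspOrd ha
    obtain ⟨c₂, h₂⟩ := exists_leading_cuspOrd hb
    have h3 : HasCuspLeading N (a * b).1 (cuspOrd a + cuspOrd b) (c₁ * c₂) := h₁.mul h₂
    rw [if_neg ha, if_neg hb, if_neg (mul_ne_zero ha hb), cuspOrd_eq h3, neg_add, exp_add]
  map_add_le_max' := by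
    intro a b
    have hNr : (0 : ℝ) < N := by exact_mod_cast Nat.pos_of_ne_zero (NeZero.ne N)
    by_cases ha : a = 0
    · simp [ha]
    by_cases hb : b = 0
    · simp [hb]
    by_cases hab : a + b = 0
    · simp [hab]
    obtain ⟨c₁, h₁⟩ := exists_leading_cuspOrd ha
    obtain ⟨c₂, h₂⟩ := exists_leading_cuspOrd hb
    obtain ⟨c, h⟩ := exists_leading_cuspOrd hab
    rw [if_neg ha, if_neg hb, if_neg hab, le_max_iff, exp_le_exp, exp_le_exp, neg_le_neg_iff,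
      neg_le_neg_iff, ← min_le_iff]
    -- `q^(-m) (a+b)` has a limit, for `m = min (ord a) (ord b)`
    set m := min (cuspOrd a) (cuspOrd b) with hm
    have key : ∀ {g : ℍ → ℂ} {n : ℤ} {c : ℂ}, HasCuspLeading N g n c → m ≤ n →
        ∃ L : ℂ, Tendsto (fun τ : ℍ ↦ 𝕢 N τ ^ (-m) * g τ) atImInfty (𝓝 L) := by
      intro g n c hg hmn
      rcases hmn.eq_or_lt with rfl | hlt
      · exact ⟨c, hg.2⟩
      · refine ⟨0 * c, ?_⟩
        have h0 := (qParam_zpow_tendsto_zero hNr (sub_pos.mpr hlt)).mul hg.2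
        refine h0.congr fun τ => ?_
        rw [← mul_assoc, ← zpow_add₀ (Function.Periodic.qParam_ne_zero (τ : ℂ))]
        congr 2
        ring
    obtain ⟨L₁, hL₁⟩ := key h₁ (min_le_left _ _)
    obtain ⟨L₂, hL₂⟩ := key h₂ (min_le_right _ _)
    have hsum : Tendsto (fun τ : ℍ ↦ 𝕢 N τ ^ (-m) * (a + b).1 τ) atImInfty (𝓝 (L₁ + L₂)) := by
      refine (hL₁.add hL₂).congr fun τ => ?_
      change _ = 𝕢 N τ ^ (-m) * (a.1 τ + b.1 τ)
      ring
    exact h.le_of_tendsto hNr hsum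

open WithZero Classical in
theorem cuspVal_apply_of_ne_zero {g : HolCusp N} (hg : g ≠ 0) :
    cuspVal N g = exp (-(cuspOrd g)) := by
  change (if g = 0 then 0 else exp (-(cuspOrd g))) = _
  rw [if_neg hg]

open WithZero in
theorem cuspVal_eq_of_leading {g : HolCusp N} {n : ℤ} {c : ℂ} (h : HasCuspLeading N g.1 n c) :
    cuspVal N g = exp (-n) := by
  have hg : g ≠ 0 := fun h0 => h.ne_zero (congrArg Subtype.val h0)
  rw [cuspVal_apply_of_ne_zero hg, cuspOrd_eq h]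

theorem cuspVal_ne_zero {g : HolCusp N} (hg : g ≠ 0) : cuspVal N g ≠ 0 := by
  rw [cuspVal_apply_of_ne_zero hg]
  exact WithZero.exp_ne_zero

/-- The field of "meromorphic functions at the cusp": fraction field of `HolCusp N`. -/
abbrev MerCusp (N : ℕ) [NeZero N] : Type := FractionRing (HolCusp N)

/-- The valuation "order at `∞`" on `MerCusp N`. -/
def cuspValFrac (N : ℕ) [NeZero N] : Valuation (MerCusp N) (WithZero (Multiplicative ℤ)) :=
  (cuspVal N).extendToLocalization (S := nonZeroDivisors (HolCusp N))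
    (fun s hs => by
      have hs0 : s ≠ 0 := nonZeroDivisors.ne_zero hs
      simp only [Ideal.mem_primeCompl_iff, Valuation.mem_supp_iff]
      exact cuspVal_ne_zero hs0) (MerCusp N)

theorem cuspValFrac_algebraMap (g : HolCusp N) :
    cuspValFrac N (algebraMap (HolCusp N) (MerCusp N) g) = cuspVal N g :=
  Valuation.extendToLocalization_apply_map_apply _ _ _ g

/-! ### Translations `τ ↦ τ + k` -/

theorem tendsto_vadd_atImInfty (k : ℤ) :
    Tendsto (fun τ : ℍ ↦ (k : ℝ) +ᵥ τ) atImInfty atImInfty := by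
  simp only [atImInfty, tendsto_comap_iff, Function.comp_def, vadd_im]
  exact tendsto_comap

theorem qParam_vadd (h : ℝ) (k : ℤ) (τ : ℍ) :
    𝕢 h (((k : ℝ) +ᵥ τ : ℍ) : ℂ)
      = 𝕢 h (τ : ℂ) * Complex.exp (2 * Real.pi * Complex.I * k / h) := by
  simp only [Function.Periodic.qParam, coe_vadd, ← Complex.exp_add]
  congr 1
  push_cast
  ring

theorem mdifferentiable_comp_vadd {g : ℍ → ℂ} (hg : MDiff g) (k : ℤ) :
    MDiff (fun τ : ℍ ↦ g ((k : ℝ) +ᵥ τ)) := by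
  have hdet : 0 < ((ModularGroup.T ^ k : Matrix.SpecialLinearGroup (Fin 2) ℤ) :
      GL (Fin 2) ℝ).det.val := by
    have h : (Matrix.SpecialLinearGroup.mapGL ℝ (ModularGroup.T ^ k)).det = 1 :=
      Matrix.SpecialLinearGroup.det_mapGL _
    have h' : ((Matrix.SpecialLinearGroup.mapGL ℝ (ModularGroup.T ^ k)).det).val = 1 :=
      congrArg Units.val h
    exact lt_of_lt_of_eq one_pos h'.symm
  have h1 : (fun τ : ℍ ↦ g ((k : ℝ) +ᵥ τ))
      = g ∘ (fun τ : ℍ ↦ ((ModularGroup.T ^ k : Matrix.SpecialLinearGroup (Fin 2) ℤ) :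
          GL (Fin 2) ℝ) • τ) := by
    funext τ
    simp only [Function.comp_apply]
    rw [← ModularGroup.sl_moeb, modular_T_zpow_smul]
  rw [h1]
  exact hg.comp (mdifferentiable_smul hdet)

/-- Translation `τ ↦ τ + k` as a ring endomorphism of `HolCusp N`. -/
def cuspShift (k : ℤ) : HolCusp N →+* HolCusp N where
  toFun g := ⟨fun τ : ℍ ↦ g.1 ((k : ℝ) +ᵥ τ), by
    obtain ⟨hg, hper, j, hj⟩ := g.2
    refine ⟨mdifferentiable_comp_vadd hg k, fun τ => ?_, j, ?_⟩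
    · have : (N : ℝ) +ᵥ ((k : ℝ) +ᵥ τ) = (k : ℝ) +ᵥ ((N : ℝ) +ᵥ τ) := by
        ext
        simp only [coe_vadd]
        ring
      show g.1 ((k : ℝ) +ᵥ ((N : ℝ) +ᵥ τ)) = g.1 ((k : ℝ) +ᵥ τ)
      rw [← this, hper]
    · have h1 : IsBoundedAtImInfty
          (fun τ : ℍ ↦ 𝕢 N (((k : ℝ) +ᵥ τ : ℍ) : ℂ) ^ j * g.1 ((k : ℝ) +ᵥ τ)) :=
        hj.comp_tendsto (tendsto_vadd_atImInfty k)
      rw [isBoundedAtImInfty_iff] at h1 ⊢
      obtain ⟨M, A, hMA⟩ := h1
      refine ⟨M, A, fun z hz => ?_⟩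
      have h2 := hMA z hz
      rw [qParam_vadd, mul_pow, norm_mul, norm_mul, norm_pow, norm_pow] at h2
      have h3 : ‖Complex.exp (2 * Real.pi * Complex.I * k / (N : ℝ))‖ = 1 := by
        rw [Complex.norm_exp]
        have : (2 * Real.pi * Complex.I * k / ((N : ℝ) : ℂ)).re = 0 := by
          have h4 : (2 * Real.pi * Complex.I * k / ((N : ℝ) : ℂ))
              = ((2 * Real.pi * k / N : ℝ) : ℂ) * Complex.I := by
            push_cast
            ring
          rw [h4, Complex.re_ofReal_mul, Complex.I_re, mul_zero]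
        rw [this, Real.exp_zero]
      rw [h3, one_pow, mul_one] at h2
      rw [norm_mul, norm_pow]
      exact h2⟩
  map_one' := rfl
  map_mul' _ _ := rfl
  map_zero' := rfl
  map_add' _ _ := rfl

omit [NeZero N] in
@[simp]
theorem cuspShift_apply (k : ℤ) (g : HolCusp N) (τ : ℍ) :
    (cuspShift k g).1 τ = g.1 ((k : ℝ) +ᵥ τ) := rfl

omit [NeZero N] in
theorem cuspShift_ne_zero (k : ℤ) {g : HolCusp N} (hg : g ≠ 0) : cuspShift k g ≠ 0 := by
  intro h0
  apply hg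
  apply Subtype.ext
  funext τ
  have h1 := congrFun (congrArg Subtype.val h0) (((-k : ℤ) : ℝ) +ᵥ τ)
  simp only [cuspShift_apply] at h1
  have h2 : (k : ℝ) +ᵥ ((((-k : ℤ) : ℝ)) +ᵥ τ) = τ := by
    ext
    simp only [coe_vadd]
    push_cast
    ring
  rw [h2] at h1
  exact h1

theorem cuspShift_injective (k : ℤ) : Function.Injective (cuspShift (N := N) k) := by
  rw [injective_iff_map_eq_zero]
  intro g hg
  by_contra hne
  exact cuspShift_ne_zero k hne hg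

theorem cuspVal_cuspShift (k : ℤ) (g : HolCusp N) : cuspVal N (cuspShift k g) = cuspVal N g := by
  by_cases hg : g = 0
  · simp [hg]
  obtain ⟨c, hc⟩ := exists_leading_cuspOrd hg
  have h1 : HasCuspLeading N (cuspShift k g).1 (cuspOrd g) _ := hc.comp_vadd k
  rw [cuspVal_eq_of_leading h1, cuspVal_eq_of_leading hc]

/-- Translation `τ ↦ τ + k` on the fraction field `MerCusp N`. -/
def cuspShiftFrac (k : ℤ) : MerCusp N →+* MerCusp N :=
  IsFractionRing.lift (g := (algebraMap (HolCusp N) (MerCusp N)).comp (cuspShift k))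
    ((IsFractionRing.injective (HolCusp N) (MerCusp N)).comp (cuspShift_injective k))

@[simp]
theorem cuspShiftFrac_algebraMap (k : ℤ) (g : HolCusp N) :
    cuspShiftFrac k (algebraMap (HolCusp N) (MerCusp N) g)
      = algebraMap (HolCusp N) (MerCusp N) (cuspShift k g) := by
  rw [cuspShiftFrac, IsFractionRing.lift_algebraMap]
  rfl

theorem cuspValFrac_cuspShiftFrac (k : ℤ) (m : MerCusp N) :
    cuspValFrac N (cuspShiftFrac k m) = cuspValFrac N m := by
  obtain ⟨a, b, hb, rfl⟩ := IsFractionRing.div_surjective (A := HolCusp N) m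
  rw [map_div₀, cuspShiftFrac_algebraMap, cuspShiftFrac_algebraMap, map_div₀, map_div₀,
    cuspValFrac_algebraMap, cuspValFrac_algebraMap, cuspValFrac_algebraMap,
    cuspValFrac_algebraMap, cuspVal_cuspShift, cuspVal_cuspShift]

/-- An element of `MerCusp N` invariant under `τ ↦ τ + k` has order `n` with `N ∣ k * n`. -/
theorem dvd_log_cuspValFrac_of_shift_invariant (k : ℤ) {m : MerCusp N} (hm : m ≠ 0)
    (hinv : cuspShiftFrac k m = m) :
    (N : ℤ) ∣ k * WithZero.log (cuspValFrac N m) := by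
  have hN : 0 < N := Nat.pos_of_ne_zero (NeZero.ne N)
  have hNr : (0 : ℝ) < N := by exact_mod_cast hN
  obtain ⟨a, b, hb, rfl⟩ := IsFractionRing.div_surjective (A := HolCusp N) m
  have hb0 : b ≠ 0 := nonZeroDivisors.ne_zero hb
  have hinj := IsFractionRing.injective (HolCusp N) (MerCusp N)
  have hb0' : algebraMap (HolCusp N) (MerCusp N) b ≠ 0 := by
    rwa [Ne, map_eq_zero_iff _ hinj]
  have ha0 : a ≠ 0 := by
    rintro rfl
    simp at hm
  have hsb0' : algebraMap (HolCusp N) (MerCusp N) (cuspShift k b) ≠ 0 := by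
    rw [Ne, map_eq_zero_iff _ hinj]
    exact cuspShift_ne_zero k hb0
  rw [map_div₀, cuspShiftFrac_algebraMap, cuspShiftFrac_algebraMap,
    div_eq_div_iff hsb0' hb0', ← map_mul, ← map_mul] at hinv
  have hfun : cuspShift k a * b = a * cuspShift k b := hinj hinv
  obtain ⟨ca, ha⟩ := exists_leading_cuspOrd ha0
  obtain ⟨cb, hb'⟩ := exists_leading_cuspOrd hb0
  have h1 : HasCuspLeading N (cuspShift k a * b).1 (cuspOrd a + cuspOrd b) _ :=
    (ha.comp_vadd k).mul hb'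
  have h2 : HasCuspLeading N (a * cuspShift k b).1 (cuspOrd a + cuspOrd b) _ :=
    ha.mul (hb'.comp_vadd k)
  rw [hfun] at h1
  have h3 := (h1.unique hNr h2).2
  set ζ := Complex.exp (2 * Real.pi * Complex.I * k / (N : ℝ)) with hζ
  have hζ0 : ζ ≠ 0 := Complex.exp_ne_zero _
  have h4 : ζ ^ (cuspOrd a - cuspOrd b) = 1 := by
    rw [zpow_sub₀ hζ0, div_eq_one_iff_eq (zpow_ne_zero _ hζ0)]
    have h5 : ζ ^ cuspOrd a * (ca * cb) = ζ ^ cuspOrd b * (ca * cb) := by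
      linear_combination h3
    exact mul_right_cancel₀ (mul_ne_zero ha.1 hb'.1) h5
  have h6 := dvd_of_exp_zpow_eq_one hN h4
  have hlog : WithZero.log (cuspValFrac N (algebraMap (HolCusp N) (MerCusp N) a
      / algebraMap (HolCusp N) (MerCusp N) b)) = -(cuspOrd a - cuspOrd b) := by
    rw [map_div₀, cuspValFrac_algebraMap, cuspValFrac_algebraMap, cuspVal_eq_of_leading ha,
      cuspVal_eq_of_leading hb', ← WithZero.exp_sub, WithZero.log_exp]
    ring
  rw [hlog, mul_neg]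
  exact (dvd_neg).mpr h6

/-- Computing the valuation of an element of `HolCusp N` from its leading term. -/
theorem cuspValFrac_eq_of_leading {g : HolCusp N} {n : ℤ} {c : ℂ}
    (h : HasCuspLeading N g.1 n c) :
    cuspValFrac N (algebraMap (HolCusp N) (MerCusp N) g) = WithZero.exp (-n) := by
  rw [cuspValFrac_algebraMap, cuspVal_eq_of_leading h]

end

end Fermat.Agent.S24.B2C
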