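import Mathlib

/-!
# S24, analytic local fields (Mathlib-only, complete)

`HolH`  : ring of holomorphic functions on the upper half plane `ℍ` (a domain, a `ℂ`-algebra).
`MerH`  : its fraction field ("meromorphic functions on `ℍ`").
`ordValHol τ`, `ordVal τ` : the valuation "order at `τ`" on `HolH`, `MerH`, values in `ℤᵐ⁰`.
`holAut`, `merAut` : the action of `SL(2,ℤ)` by `(γ • f) τ = f (γ⁻¹ • τ)`.
`ordVal_merAut` : `ordVal τ (merAut γ h) = ordVal (γ⁻¹ • τ) h`.
`multiplier_zpow_log_ordVal` : invariance under an elliptic element forces divisibility of the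
order; `two_dvd_log_ordVal_I`, `three_dvd_log_ordVal_rhoH` are the cases `S` at `i`, `S*T` at `ρ`.
-/

set_option autoImplicit false

open UpperHalfPlane Complex
open scoped MatrixGroups Manifold Topology

namespace Fermat.Agent.S24.B2M

noncomputable section

/-- Holomorphic functions on `ℍ`, as a subring of `ℍ → ℂ`. -/
def HolH : Subring (ℍ → ℂ) where
  carrier := {f | MDiff f}
  mul_mem' := fun hf hg => hf.mul hg
  one_mem' := mdifferentiable_const
  add_mem' := fun hf hg => hf.add hg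
  zero_mem' := mdifferentiable_const
  neg_mem' := fun hf => hf.neg

theorem mem_HolH {f : ℍ → ℂ} : f ∈ HolH ↔ MDiff f := Iff.rfl

instance instIsDomainHolH : IsDomain HolH := by
  have : NoZeroDivisors HolH := ⟨by
    intro f g h
    have h' : f.1 * g.1 = 0 := congrArg Subtype.val h
    rcases (UpperHalfPlane.mul_eq_zero_iff f.2 g.2).mp h' with h1 | h1
    · exact Or.inl (Subtype.ext h1)
    · exact Or.inr (Subtype.ext h1)⟩
  exact NoZeroDivisors.to_isDomain _

/-- Constant functions. -/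
def constHol : ℂ →+* HolH where
  toFun c := ⟨fun _ => c, mdifferentiable_const⟩
  map_one' := rfl
  map_mul' _ _ := rfl
  map_zero' := rfl
  map_add' _ _ := rfl

instance instAlgebraHolH : Algebra ℂ HolH := constHol.toAlgebra

theorem algebraMap_HolH_apply (c : ℂ) (τ : ℍ) : (algebraMap ℂ HolH c).1 τ = c := rfl

theorem analyticAt_of_mem_HolH (f : HolH) (τ : ℍ) : AnalyticAt ℂ (f.1 ∘ ofComplex) (τ : ℂ) := by
  have h := UpperHalfPlane.mdifferentiable_iff.mp f.2
  exact h.analyticAt (isOpen_upperHalfPlaneSet.mem_nhds τ.im_pos)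

theorem analyticOrderAt_ne_top_of_ne_zero (f : HolH) (hf : f ≠ 0) (τ : ℍ) :
    analyticOrderAt (f.1 ∘ ofComplex) (τ : ℂ) ≠ ⊤ := by
  intro htop
  apply hf
  apply Subtype.ext
  rw [analyticOrderAt_eq_top] at htop
  have han := (UpperHalfPlane.mdifferentiable_iff.mp f.2).analyticOnNhd isOpen_upperHalfPlaneSet
  have hpc : IsPreconnected upperHalfPlaneSet :=
    (Complex.isConnected_of_upperHalfPlane subset_rfl (by grind)).isPreconnected
  have h0 := han.eqOn_zero_of_preconnected_of_eventuallyEq_zero hpc τ.2 htop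
  ext w
  have := h0 w.2
  simpa [Function.comp_apply, ofComplex_apply] using this

/-- The (natural number) order of vanishing of `f` at `τ`. -/
def ordNat (τ : ℍ) (f : HolH) : ℕ := analyticOrderNatAt (f.1 ∘ ofComplex) (τ : ℂ)

theorem ordNat_mul (τ : ℍ) (f g : HolH) (hf : f ≠ 0) (hg : g ≠ 0) :
    ordNat τ (f * g) = ordNat τ f + ordNat τ g :=
  analyticOrderNatAt_mul (analyticAt_of_mem_HolH f τ) (analyticAt_of_mem_HolH g τ)
    (analyticOrderAt_ne_top_of_ne_zero f hf τ) (analyticOrderAt_ne_top_of_ne_zero g hg τ)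

theorem ordNat_eq_zero_iff (τ : ℍ) (f : HolH) (hf : f ≠ 0) : ordNat τ f = 0 ↔ f.1 τ ≠ 0 := by
  have h1 := (analyticAt_of_mem_HolH f τ).analyticOrderAt_eq_zero
  have h2 := Nat.cast_analyticOrderNatAt (analyticOrderAt_ne_top_of_ne_zero f hf τ)
  rw [ordNat]
  constructor
  · intro h
    rw [h] at h2
    have := h1.mp h2.symm
    simpa [Function.comp_apply, ofComplex_apply] using this
  · intro h
    have h3 : analyticOrderAt (f.1 ∘ ofComplex) (τ : ℂ) = 0 :=
      h1.mpr (by simpa [Function.comp_apply, ofComplex_apply] using h)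
    rw [h3] at h2
    exact_mod_cast h2

theorem ordNat_add (τ : ℍ) (f g : HolH) (hf : f ≠ 0) (hg : g ≠ 0) (hfg : f + g ≠ 0) :
    min (ordNat τ f) (ordNat τ g) ≤ ordNat τ (f + g) := by
  have h := le_analyticOrderAt_add (f := f.1 ∘ ofComplex) (g := g.1 ∘ ofComplex) (z₀ := (τ : ℂ))
  have e1 := Nat.cast_analyticOrderNatAt (analyticOrderAt_ne_top_of_ne_zero f hf τ)
  have e2 := Nat.cast_analyticOrderNatAt (analyticOrderAt_ne_top_of_ne_zero g hg τ)
  have e3 := Nat.cast_analyticOrderNatAt (analyticOrderAt_ne_top_of_ne_zero (f + g) hfg τ)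
  have e4 : (f + g).1 ∘ ofComplex = f.1 ∘ ofComplex + g.1 ∘ ofComplex := rfl
  rw [← e4, ← e1, ← e2, ← e3] at h
  rw [ordNat, ordNat, ordNat]
  rw [min_le_iff] at h ⊢
  rcases h with h | h
  · left; exact_mod_cast h
  · right; exact_mod_cast h

theorem ordNat_one (τ : ℍ) : ordNat τ 1 = 0 := by
  rw [ordNat_eq_zero_iff τ 1 one_ne_zero]
  show (1 : ℂ) ≠ 0
  exact one_ne_zero

open Classical in
/-- The order of vanishing at `τ` of a holomorphic function, as a valuation on `HolH`. -/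
def ordValHol (τ : ℍ) : Valuation HolH (WithZero (Multiplicative ℤ)) where
  toFun f := if f = 0 then 0 else WithZero.exp (-(ordNat τ f : ℤ))
  map_zero' := by simp
  map_one' := by simp [ordNat_one]
  map_mul' f g := by
    by_cases hf : f = 0
    · simp [hf]
    by_cases hg : g = 0
    · simp [hg]
    simp only [hf, hg, mul_eq_zero, or_self, if_false]
    rw [ordNat_mul τ f g hf hg, ← WithZero.exp_add]
    congr 1
    push_cast
    ring
  map_add_le_max' f g := by
    by_cases hf : f = 0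
    · simp [hf]
    by_cases hg : g = 0
    · simp [hg]
    by_cases hfg : f + g = 0
    · simp [hfg]
    simp only [hf, hg, hfg, if_false]
    have h := ordNat_add τ f g hf hg hfg
    rw [le_max_iff, WithZero.exp_le_exp, WithZero.exp_le_exp]
    omega

theorem ordValHol_apply (τ : ℍ) (f : HolH) (hf : f ≠ 0) :
    ordValHol τ f = WithZero.exp (-((analyticOrderNatAt (f.1 ∘ ofComplex) (τ : ℂ) : ℕ) : ℤ)) := by
  classical
  show (if f = 0 then 0 else WithZero.exp (-(ordNat τ f : ℤ))) = _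
  rw [if_neg hf]
  rfl

theorem ordValHol_ne_zero (τ : ℍ) (f : HolH) (hf : f ≠ 0) : ordValHol τ f ≠ 0 := by
  rw [ordValHol_apply τ f hf]
  exact WithZero.exp_ne_zero

theorem ordValHol_le_one (τ : ℍ) (f : HolH) : ordValHol τ f ≤ 1 := by
  by_cases hf : f = 0
  · simp [hf]
  rw [ordValHol_apply τ f hf, ← WithZero.exp_zero, WithZero.exp_le_exp]
  omega

theorem ordValHol_lt_one_iff (τ : ℍ) (f : HolH) : ordValHol τ f < 1 ↔ f.1 τ = 0 := by
  by_cases hf : f = 0
  · simp [hf]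
  rw [ordValHol_apply τ f hf, ← WithZero.exp_zero, WithZero.exp_lt_exp]
  have := ordNat_eq_zero_iff τ f hf
  rw [ordNat] at this
  constructor
  · intro h
    by_contra h'
    have := this.mpr h'
    omega
  · intro h
    have h2 : analyticOrderNatAt (f.1 ∘ ofComplex) (τ : ℂ) ≠ 0 := fun h0 => (this.mp h0) h
    omega

/-- "Meromorphic functions on `ℍ`": the fraction field of `HolH`. -/
abbrev MerH : Type := FractionRing HolH

/-- The order at `τ`, as a valuation on `MerH`. -/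
def ordVal (τ : ℍ) : Valuation MerH (WithZero (Multiplicative ℤ)) :=
  (ordValHol τ).extendToLocalization (S := nonZeroDivisors HolH) (by
    intro f hf
    have hf0 : f ≠ 0 := nonZeroDivisors.ne_zero hf
    show f ∉ (ordValHol τ).supp
    rw [Valuation.mem_supp_iff]
    exact ordValHol_ne_zero τ f hf0) MerH

theorem ordVal_algebraMap (τ : ℍ) (f : HolH) :
    ordVal τ (algebraMap HolH MerH f) = ordValHol τ f :=
  Valuation.extendToLocalization_apply_map_apply _ _ _ _


/-- The `GL(2,ℝ)` element attached to `γ ∈ SL(2,ℤ)`; it has positive determinant. -/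
theorem det_mapGL_pos (γ : SL(2, ℤ)) :
    0 < (Matrix.SpecialLinearGroup.mapGL ℝ γ).det.val := by simp

theorem det_mapGL_pos' (γ : SL(2, ℤ)) :
    0 < (Matrix.SpecialLinearGroup.mapGL ℝ γ).val.det := by
  have h := det_mapGL_pos γ
  rwa [Matrix.GeneralLinearGroup.val_det_apply] at h

theorem sl_smul_def (γ : SL(2, ℤ)) (τ : ℍ) :
    γ • τ = (Matrix.SpecialLinearGroup.mapGL ℝ γ) • τ := rfl

/-- Precomposition with `γ`, as a ring endomorphism of `HolH`. -/
def holPrecomp (γ : SL(2, ℤ)) : HolH →+* HolH where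
  toFun f := ⟨fun τ => f.1 (γ • τ), f.2.comp (mdifferentiable_smul (det_mapGL_pos γ))⟩
  map_one' := rfl
  map_mul' _ _ := rfl
  map_zero' := rfl
  map_add' _ _ := rfl

theorem holPrecomp_apply (γ : SL(2, ℤ)) (f : HolH) (τ : ℍ) :
    (holPrecomp γ f).1 τ = f.1 (γ • τ) := rfl

/-- Precomposition with `γ⁻¹`: `(holAut γ f) τ = f (γ⁻¹ • τ)`. -/
def holAut : SL(2, ℤ) →* (HolH ≃+* HolH) where
  toFun γ :=
    { holPrecomp γ⁻¹ with
      invFun := holPrecomp γ
      left_inv := fun f => Subtype.ext (funext fun τ => by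
        show f.1 (γ⁻¹ • γ • τ) = f.1 τ
        rw [inv_smul_smul])
      right_inv := fun f => Subtype.ext (funext fun τ => by
        show f.1 (γ • γ⁻¹ • τ) = f.1 τ
        rw [smul_inv_smul]) }
  map_one' := by
    ext f τ
    show f.1 ((1 : SL(2, ℤ))⁻¹ • τ) = f.1 τ
    rw [inv_one, one_smul]
  map_mul' γ δ := by
    ext f τ
    show f.1 ((γ * δ)⁻¹ • τ) = f.1 (δ⁻¹ • γ⁻¹ • τ)
    rw [mul_inv_rev, mul_smul]

theorem holAut_apply (γ : SL(2, ℤ)) (f : HolH) (τ : ℍ) :
    (holAut γ f).1 τ = f.1 (γ⁻¹ • τ) := rfl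

/-- The induced action on the fraction field. -/
def merAut : SL(2, ℤ) →* (MerH ≃+* MerH) where
  toFun γ := IsFractionRing.ringEquivOfRingEquiv (holAut γ)
  map_one' := by
    apply RingEquiv.toRingHom_injective
    apply IsLocalization.ringHom_ext (nonZeroDivisors HolH)
    ext f
    simp
  map_mul' γ δ := by
    apply RingEquiv.toRingHom_injective
    apply IsLocalization.ringHom_ext (nonZeroDivisors HolH)
    ext f
    simp

theorem merAut_algebraMap (γ : SL(2, ℤ)) (f : HolH) :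
    merAut γ (algebraMap HolH MerH f) = algebraMap HolH MerH (holAut γ f) :=
  IsFractionRing.ringEquivOfRingEquiv_algebraMap _ _

theorem ordNat_holAut (γ : SL(2, ℤ)) (τ : ℍ) (f : HolH) (hf : f ≠ 0) :
    ordNat τ (holAut γ f) = ordNat (γ⁻¹ • τ) f := by
  have hγf : holAut γ f ≠ 0 := by
    simpa using hf
  have h1 := UpperHalfPlane.meromorphicOrderAt_comp_smul (f := f.1) (τ := τ)
    (g := Matrix.SpecialLinearGroup.mapGL ℝ γ⁻¹) (det_mapGL_pos' γ⁻¹)
  have e1 : (fun z => f.1 ((Matrix.SpecialLinearGroup.mapGL ℝ γ⁻¹) • ofComplex z))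
      = (holAut γ f).1 ∘ ofComplex := rfl
  have e2 : (fun z => f.1 (ofComplex z)) = f.1 ∘ ofComplex := rfl
  rw [e1, e2, (analyticAt_of_mem_HolH (holAut γ f) τ).meromorphicOrderAt_eq,
    (analyticAt_of_mem_HolH f _).meromorphicOrderAt_eq,
    ← Nat.cast_analyticOrderNatAt (analyticOrderAt_ne_top_of_ne_zero _ hγf τ),
    ← Nat.cast_analyticOrderNatAt (analyticOrderAt_ne_top_of_ne_zero f hf _)] at h1
  simp only [ENat.map_natCast] at h1
  rw [ordNat, ordNat]
  have h2 := WithTop.coe_injective h1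
  exact_mod_cast h2

theorem ordValHol_holAut (γ : SL(2, ℤ)) (τ : ℍ) (f : HolH) :
    ordValHol τ (holAut γ f) = ordValHol (γ⁻¹ • τ) f := by
  by_cases hf : f = 0
  · simp [hf]
  have hγf : holAut γ f ≠ 0 := by
    simpa using hf
  rw [ordValHol_apply τ _ hγf, ordValHol_apply _ f hf]
  have := ordNat_holAut γ τ f hf
  rw [ordNat, ordNat] at this
  rw [this]

/-- Transport of the order under the action. -/
theorem ordVal_merAut (γ : SL(2, ℤ)) (τ : ℍ) (h : MerH) :
    ordVal τ (merAut γ h) = ordVal (γ⁻¹ • τ) h := by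
  obtain ⟨a, b, hb, rfl⟩ := IsFractionRing.div_surjective HolH h
  rw [map_div₀, map_div₀, map_div₀, merAut_algebraMap, merAut_algebraMap, ordVal_algebraMap,
    ordVal_algebraMap, ordVal_algebraMap, ordVal_algebraMap, ordValHol_holAut, ordValHol_holAut]


/-- The trailing coefficient of an analytic function with a simple zero is its derivative. -/
theorem trailingCoeff_sub_eq_deriv {φ : ℂ → ℂ} {x : ℂ} (hφ : AnalyticAt ℂ φ x)
    (hd : deriv φ x ≠ 0) :
    meromorphicTrailingCoeffAt (fun z => φ z - φ x) x = deriv φ x := by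
  set ψ : ℂ → ℂ := fun z => φ z - φ x with hψ
  have hψa : AnalyticAt ℂ ψ x := hφ.sub analyticAt_const
  obtain ⟨s, hs, hsd⟩ : ∃ s ∈ 𝓝 x, DifferentiableOn ℂ ψ s :=
    ⟨{y | AnalyticAt ℂ ψ y}, hψa.eventually_analyticAt,
      fun y hy => (show AnalyticAt ℂ ψ y from hy).differentiableAt.differentiableWithinAt⟩
  have hds : AnalyticAt ℂ (dslope ψ x) x :=
    ((Complex.differentiableOn_dslope hs).mpr hsd).analyticAt hs
  have hval : dslope ψ x x = deriv φ x := by
    rw [dslope_same, hψ, deriv_sub_const]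
  have hev : ψ =ᶠ[𝓝[≠] x] fun z => (z - x) ^ (1 : ℤ) • dslope ψ x z := by
    filter_upwards with z
    have h := sub_smul_dslope ψ x z
    have hx : ψ x = 0 := by simp [hψ]
    rw [hx, sub_zero] at h
    rw [zpow_one, h]
  have := AnalyticAt.meromorphicTrailingCoeffAt_of_ne_zero_of_eq_nhdsNE (f := ψ) (n := 1) hds
    (by rw [hval]; exact hd) hev
  rw [this, hval]

/-- The Möbius map `z ↦ γ⁻¹ • z` written on `ℂ`. -/
def moebInv (γ : SL(2, ℤ)) : ℂ → ℂ := fun z => ((γ⁻¹ • ofComplex z : ℍ) : ℂ)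

theorem holAut_comp_ofComplex (γ : SL(2, ℤ)) (f : HolH) :
    (holAut γ f).1 ∘ ofComplex = (f.1 ∘ ofComplex) ∘ moebInv γ := by
  funext z
  show f.1 (γ⁻¹ • ofComplex z) = f.1 (ofComplex ((γ⁻¹ • ofComplex z : ℍ) : ℂ))
  rw [ofComplex_apply]

theorem analyticAt_moebInv (γ : SL(2, ℤ)) (τ : ℍ) : AnalyticAt ℂ (moebInv γ) (τ : ℂ) :=
  UpperHalfPlane.analyticAt_smul (det_mapGL_pos' γ⁻¹) τ

theorem deriv_moebInv_ne_zero (γ : SL(2, ℤ)) (τ : ℍ) : deriv (moebInv γ) (τ : ℂ) ≠ 0 :=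
  UpperHalfPlane.deriv_smul_ne_zero (det_mapGL_pos' γ⁻¹) τ

theorem moebInv_apply_coe (γ : SL(2, ℤ)) (τ : ℍ) : moebInv γ (τ : ℂ) = ((γ⁻¹ • τ : ℍ) : ℂ) := by
  show ((γ⁻¹ • ofComplex (τ : ℂ) : ℍ) : ℂ) = _
  rw [ofComplex_apply]

/-- If `h ≠ 0` is invariant under `γ` and `γ` fixes `τ`, then the multiplier of `γ⁻¹` at `τ`
raised to the order of `h` at `τ` is `1`. -/
theorem multiplier_zpow_log_ordVal (γ : SL(2, ℤ)) (τ : ℍ) (hγ : γ • τ = τ) (h : MerH)
    (h0 : h ≠ 0) (hinv : merAut γ h = h) :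
    deriv (moebInv γ) (τ : ℂ) ^ (WithZero.log (ordVal τ h)) = 1 := by
  obtain ⟨a, b, hb, rfl⟩ := IsFractionRing.div_surjective HolH h
  have hb0 : b ≠ 0 := nonZeroDivisors.ne_zero hb
  have ha0 : a ≠ 0 := by
    rintro rfl
    simp at h0
  have hinj : Function.Injective (algebraMap HolH MerH) := IsFractionRing.injective HolH MerH
  have hbK : algebraMap HolH MerH b ≠ 0 := by
    simpa using hb0
  have hγbK : algebraMap HolH MerH (holAut γ b) ≠ 0 := by
    simpa using hb0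
  -- cross-multiplied invariance
  have hcross : holAut γ a * b = a * holAut γ b := by
    apply hinj
    rw [map_div₀, merAut_algebraMap, merAut_algebraMap, div_eq_div_iff hγbK hbK] at hinv
    rw [map_mul, map_mul, hinv]
  set A : ℂ → ℂ := a.1 ∘ ofComplex with hA
  set B : ℂ → ℂ := b.1 ∘ ofComplex with hB
  set φ := moebInv γ with hφ
  have hτ' : γ⁻¹ • τ = τ := by
    rw [inv_smul_eq_iff, hγ]
  have hφτ : φ (τ : ℂ) = τ := by
    rw [hφ, moebInv_apply_coe, hτ']
  have hfun : (A ∘ φ) * B = A * (B ∘ φ) := by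
    rw [hA, hB, hφ, ← holAut_comp_ofComplex, ← holAut_comp_ofComplex]
    exact congrArg (fun f : HolH => f.1 ∘ ofComplex) hcross
  have hAan : AnalyticAt ℂ A τ := analyticAt_of_mem_HolH a τ
  have hBan : AnalyticAt ℂ B τ := analyticAt_of_mem_HolH b τ
  have hφan : AnalyticAt ℂ φ τ := analyticAt_moebInv γ τ
  have hφd : deriv φ τ ≠ 0 := deriv_moebInv_ne_zero γ τ
  have hAφan : AnalyticAt ℂ (A ∘ φ) τ := by
    rw [hA, hφ, ← holAut_comp_ofComplex]
    exact analyticAt_of_mem_HolH _ τ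
  have hBφan : AnalyticAt ℂ (B ∘ φ) τ := by
    rw [hB, hφ, ← holAut_comp_ofComplex]
    exact analyticAt_of_mem_HolH _ τ
  have hnc : ¬ Filter.EventuallyConst φ (𝓝 (τ : ℂ)) := by
    have hgo : analyticOrderAt (fun z => φ z - φ τ) (τ : ℂ) = 1 :=
      hφan.analyticOrderAt_sub_eq_one_of_deriv_ne_zero hφd
    simp [eventuallyConst_iff_analyticOrderAt_sub_eq_top, hgo]
  have hc : meromorphicTrailingCoeffAt (fun z => φ z - φ τ) (τ : ℂ) = deriv φ τ :=
    trailingCoeff_sub_eq_deriv hφan hφd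
  have hA' : MeromorphicAt A (φ τ) := by rw [hφτ]; exact hAan.meromorphicAt
  have hB' : MeromorphicAt B (φ τ) := by rw [hφτ]; exact hBan.meromorphicAt
  have tA := hA'.meromorphicTrailingCoeffAt_comp hφan hnc
  have tB := hB'.meromorphicTrailingCoeffAt_comp hφan hnc
  rw [hc, hφτ] at tA tB
  have t1 := hAφan.meromorphicAt.meromorphicTrailingCoeffAt_mul hBan.meromorphicAt
  have t2 := hAan.meromorphicAt.meromorphicTrailingCoeffAt_mul hBφan.meromorphicAt
  rw [hfun, t2, tA, tB] at t1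
  -- orders
  have oA : meromorphicOrderAt A (τ : ℂ) = ((ordNat τ a : ℕ) : ℤ) := by
    rw [hAan.meromorphicOrderAt_eq,
      ← Nat.cast_analyticOrderNatAt (analyticOrderAt_ne_top_of_ne_zero a ha0 τ)]
    rfl
  have oB : meromorphicOrderAt B (τ : ℂ) = ((ordNat τ b : ℕ) : ℤ) := by
    rw [hBan.meromorphicOrderAt_eq,
      ← Nat.cast_analyticOrderNatAt (analyticOrderAt_ne_top_of_ne_zero b hb0 τ)]
    rfl
  have hAne : meromorphicTrailingCoeffAt A (τ : ℂ) ≠ 0 :=
    hAan.meromorphicAt.meromorphicTrailingCoeffAt_ne_zero (by rw [oA]; exact WithTop.coe_ne_top)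
  have hBne : meromorphicTrailingCoeffAt B (τ : ℂ) ≠ 0 :=
    hBan.meromorphicAt.meromorphicTrailingCoeffAt_ne_zero (by rw [oB]; exact WithTop.coe_ne_top)
  rw [oA, oB] at t1
  simp only [WithTop.untop₀_coe, smul_eq_mul] at t1
  have hpow : deriv φ τ ^ ((ordNat τ b : ℕ) : ℤ) = deriv φ τ ^ ((ordNat τ a : ℕ) : ℤ) := by
    have h3 : deriv φ τ ^ ((ordNat τ b : ℕ) : ℤ) *
        (meromorphicTrailingCoeffAt A ↑τ * meromorphicTrailingCoeffAt B ↑τ)
        = deriv φ τ ^ ((ordNat τ a : ℕ) : ℤ) *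
        (meromorphicTrailingCoeffAt A ↑τ * meromorphicTrailingCoeffAt B ↑τ) := by
      linear_combination t1
    exact mul_right_cancel₀ (mul_ne_zero hAne hBne) h3
  have hlog : WithZero.log (ordVal τ (algebraMap HolH MerH a / algebraMap HolH MerH b))
      = ((ordNat τ b : ℕ) : ℤ) - ((ordNat τ a : ℕ) : ℤ) := by
    rw [map_div₀, ordVal_algebraMap, ordVal_algebraMap,
      WithZero.log_div (ordValHol_ne_zero τ a ha0) (ordValHol_ne_zero τ b hb0),
      ordValHol_apply τ a ha0, ordValHol_apply τ b hb0, WithZero.log_exp, WithZero.log_exp]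
    rw [ordNat, ordNat]
    ring
  rw [hlog, zpow_sub₀ hφd, hpow, div_self (zpow_ne_zero _ hφd)]


theorem denom_mapGL (γ : SL(2, ℤ)) (z : ℂ) :
    denom (Matrix.SpecialLinearGroup.mapGL ℝ γ) z = ((γ 1 0 : ℤ) : ℂ) * z + ((γ 1 1 : ℤ) : ℂ) := by
  simp [denom]

/-- The multiplier of `γ⁻¹` at a fixed point `τ` of `γ` is `(cτ + d)²`. -/
theorem deriv_moebInv_of_fixed (γ : SL(2, ℤ)) (τ : ℍ) (hγ : γ • τ = τ) :
    deriv (moebInv γ) (τ : ℂ) = (((γ 1 0 : ℤ) : ℂ) * τ + ((γ 1 1 : ℤ) : ℂ)) ^ 2 := by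
  have hτ' : γ⁻¹ • τ = τ := by
    rw [inv_smul_eq_iff, hγ]
  have h1 : deriv (moebInv γ) (τ : ℂ)
      = ((Matrix.SpecialLinearGroup.mapGL ℝ γ⁻¹).val.det : ℂ)
        / denom (Matrix.SpecialLinearGroup.mapGL ℝ γ⁻¹) τ ^ 2 :=
    UpperHalfPlane.deriv_smul (det_mapGL_pos' γ⁻¹) τ
  have hdet : (Matrix.SpecialLinearGroup.mapGL ℝ γ⁻¹).val.det = 1 := by
    have : (Matrix.SpecialLinearGroup.mapGL ℝ γ⁻¹).det.val = 1 := by simp
    rwa [Matrix.GeneralLinearGroup.val_det_apply] at this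
  have hco := denom_cocycle (Matrix.SpecialLinearGroup.mapGL ℝ γ)
    (Matrix.SpecialLinearGroup.mapGL ℝ γ⁻¹) (z := (τ : ℂ)) τ.im_ne_zero
  rw [← map_mul, mul_inv_cancel, map_one] at hco
  have hnum : num (Matrix.SpecialLinearGroup.mapGL ℝ γ⁻¹) τ
      / denom (Matrix.SpecialLinearGroup.mapGL ℝ γ⁻¹) τ = (τ : ℂ) := by
    rw [← UpperHalfPlane.coe_smul_of_det_pos (det_mapGL_pos γ⁻¹) τ, ← sl_smul_def, hτ']
  rw [hnum] at hco
  have hone : denom (1 : GL (Fin 2) ℝ) (τ : ℂ) = 1 := by simp [denom]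
  rw [hone] at hco
  have hd1 := UpperHalfPlane.denom_ne_zero (Matrix.SpecialLinearGroup.mapGL ℝ γ) τ
  have hd2 := UpperHalfPlane.denom_ne_zero (Matrix.SpecialLinearGroup.mapGL ℝ γ⁻¹) τ
  rw [h1, hdet, ← denom_mapGL, div_eq_iff (pow_ne_zero 2 hd2), ← mul_pow, ← hco]
  simp

/-- The elliptic point `ρ = e^{2πi/3}`. -/
def rhoH : ℍ := ⟨-1 / 2 + (Real.sqrt 3 / 2 : ℝ) * Complex.I, by
  simp⟩

theorem rhoH_coe : (rhoH : ℂ) = -1 / 2 + (Real.sqrt 3 / 2 : ℝ) * Complex.I := rfl

theorem rhoH_sq_add : (rhoH : ℂ) ^ 2 + (rhoH : ℂ) + 1 = 0 := by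
  have h3 : (Real.sqrt 3 : ℂ) ^ 2 = 3 := by
    rw [← Complex.ofReal_pow, Real.sq_sqrt (by norm_num)]
    norm_num
  rw [rhoH_coe]
  push_cast
  linear_combination (-1 / 4 : ℂ) * h3 + ((Real.sqrt 3 : ℂ) ^ 2 / 4) * Complex.I_sq

theorem S_smul_I : ModularGroup.S • (UpperHalfPlane.I : ℍ) = UpperHalfPlane.I := by
  rw [UpperHalfPlane.modular_S_smul]
  ext
  simp

theorem ST_smul_rhoH : (ModularGroup.S * ModularGroup.T) • rhoH = rhoH := by
  apply UpperHalfPlane.ext
  rw [UpperHalfPlane.coe_specialLinearGroup_apply]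
  have e00 : (ModularGroup.S * ModularGroup.T : SL(2, ℤ)) 0 0 = 0 := by decide
  have e01 : (ModularGroup.S * ModularGroup.T : SL(2, ℤ)) 0 1 = -1 := by decide
  have e10 : (ModularGroup.S * ModularGroup.T : SL(2, ℤ)) 1 0 = 1 := by decide
  have e11 : (ModularGroup.S * ModularGroup.T : SL(2, ℤ)) 1 1 = 1 := by decide
  rw [e00, e01, e10, e11]
  have hne : (rhoH : ℂ) + 1 ≠ 0 := by
    intro h
    have := congrArg Complex.im h
    simp [rhoH_coe] at this
  have h := rhoH_sq_add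
  simp only [algebraMap_int_eq, Int.coe_castRingHom, Int.cast_zero, Complex.ofReal_zero, zero_mul,
    Int.cast_neg, Int.cast_one, Complex.ofReal_neg, Complex.ofReal_one, zero_add, one_mul]
  rw [div_eq_iff hne]
  linear_combination -h

/-- A meromorphic function invariant under `S` has even order at `i`. -/
theorem two_dvd_log_ordVal_I (h : MerH) (h0 : h ≠ 0) (hS : merAut ModularGroup.S h = h) :
    (2 : ℤ) ∣ WithZero.log (ordVal UpperHalfPlane.I h) := by
  have key := multiplier_zpow_log_ordVal ModularGroup.S UpperHalfPlane.I S_smul_I h h0 hS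
  rw [deriv_moebInv_of_fixed _ _ S_smul_I] at key
  have e10 : (ModularGroup.S : SL(2, ℤ)) 1 0 = 1 := by rfl
  have e11 : (ModularGroup.S : SL(2, ℤ)) 1 1 = 0 := by rfl
  rw [e10, e11] at key
  have hm : (((1 : ℤ) : ℂ) * ((UpperHalfPlane.I : ℍ) : ℂ) + ((0 : ℤ) : ℂ)) ^ 2 = -1 := by
    simp
  rw [hm] at key
  have hprim : IsPrimitiveRoot (-1 : ℂ) 2 := IsPrimitiveRoot.neg_one 0 (by norm_num)
  exact (hprim.zpow_eq_one_iff_dvd _).mp key

/-- A meromorphic function invariant under `S * T` has order divisible by `3` at `ρ`. -/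
theorem three_dvd_log_ordVal_rhoH (h : MerH) (h0 : h ≠ 0)
    (hST : merAut (ModularGroup.S * ModularGroup.T) h = h) :
    (3 : ℤ) ∣ WithZero.log (ordVal rhoH h) := by
  have key := multiplier_zpow_log_ordVal (ModularGroup.S * ModularGroup.T) rhoH ST_smul_rhoH h h0 hST
  rw [deriv_moebInv_of_fixed _ _ ST_smul_rhoH] at key
  have e10 : (ModularGroup.S * ModularGroup.T : SL(2, ℤ)) 1 0 = 1 := by decide
  have e11 : (ModularGroup.S * ModularGroup.T : SL(2, ℤ)) 1 1 = 1 := by decide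
  rw [e10, e11] at key
  have hm : (((1 : ℤ) : ℂ) * (rhoH : ℂ) + ((1 : ℤ) : ℂ)) ^ 2 = (rhoH : ℂ) := by
    have h := rhoH_sq_add
    push_cast
    linear_combination h
  rw [hm] at key
  have hprim : IsPrimitiveRoot (rhoH : ℂ) 3 := by
    rw [← Polynomial.isRoot_cyclotomic_iff, Polynomial.cyclotomic_three]
    simp only [Polynomial.IsRoot.def, Polynomial.eval_add, Polynomial.eval_pow, Polynomial.eval_X,
      Polynomial.eval_one]
    exact rhoH_sq_add
  exact (hprim.zpow_eq_one_iff_dvd _).mp key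

end

end Fermat.Agent.S24.B2M
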