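import Fermat.Agent.S24.Defs
import Fermat.Agent.S24.JLevel
import Fermat.Agent.S24.B4h8917

/-!
# S24 skeleton, PART B4: the bridge between the formal field `F = modularFunctionFieldBar N`
(inside `ℚ̄((q))`) and analytic functions: a ring embedding `Theta N : F →+* ModMer N` sending
the formal series `j(q^d)` to the function `τ ↦ j(dτ)`.

INTERFACE FILE, B4 proved (helper8917): definitions FIXED; `Theta` is constructed from `B4h8917.exists_theta`.
Route: the formal `jq` is the `q`-expansion of `jC` (`EisensteinSeries.E_qExpansion_coeff`,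
`ModularForm.discriminant_eq_q_prod` vs the Prelude `etaProd`); `F` is the fraction field of the
`ℚ̄`-algebra generated by the `j(q^d)`; evaluate convergent series (or compare `q`-expansions in
`ℂ((q))`), then `IsFractionRing.lift`.
-/

set_option autoImplicit false

open UpperHalfPlane Complex Filter ModularCurve
open scoped MatrixGroups Manifold Topology Real

namespace Fermat.Agent.S24

noncomputable section

/-- A fixed embedding `ℚ̄ → ℂ`. -/
def iotaC : AlgebraicClosure ℚ →+* ℂ :=
  haveI : Algebra.IsAlgebraic ℚ (AlgebraicClosure ℚ) := AlgebraicClosure.isAlgebraic ℚ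
  (IsAlgClosed.lift (R := ℚ) (S := AlgebraicClosure ℚ) (M := ℂ)).toRingHom

/-- The formal series `j(q^d)` as an element of the function field `ℚ̄(X₀(N))`, `d ∣ N`. -/
def JdBar (N d : ℕ) [NeZero d] (hd : d ∣ N) : ↥(modularFunctionFieldBar N) :=
  ⟨coeffEmb (AlgebraicClosure ℚ) (qExpand ℚ d jq),
    coeffEmb_mem_laurentBaseChange _ (jqd_mem_full N hd)⟩

theorem JdBar_one (N : ℕ) [NeZero N] : JdBar N 1 (one_dvd N) = jBar N := by
  apply Subtype.ext
  show coeffEmb (AlgebraicClosure ℚ) (qExpand ℚ 1 jq) = coeffEmb (AlgebraicClosure ℚ) jq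
  rw [qExpand_one_apply]

/-- (T0) `F` is generated as a field by the constants and the `j(q^d)`, `d ∣ N`. -/
theorem ringHom_ext_FN (N : ℕ) [NeZero N] {R : Type*} [Field R]
    (φ ψ : ↥(modularFunctionFieldBar N) →+* R)
    (hK : ∀ c : AlgebraicClosure ℚ,
      φ (algebraMap (AlgebraicClosure ℚ) ↥(modularFunctionFieldBar N) c)
        = ψ (algebraMap (AlgebraicClosure ℚ) ↥(modularFunctionFieldBar N) c))
    (hJ : ∀ (d : ℕ) [NeZero d] (hd : d ∣ N), φ (JdBar N d hd) = ψ (JdBar N d hd)) :
    φ = ψ := by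
  refine B4h8917.ringHom_ext' φ ψ hK (fun d => ?_)
  have := d.neZero
  exact hJ d.1 d.2

/-- (T1) THE BRIDGE. -/
def Theta (N : ℕ) [NeZero N] : ↥(modularFunctionFieldBar N) →+* ModMer N :=
  Classical.choose (B4h8917.exists_theta N iotaC)

/-- (T1a) -/
theorem Theta_algebraMap (N : ℕ) [NeZero N] (c : AlgebraicClosure ℚ) :
    Theta N (algebraMap (AlgebraicClosure ℚ) ↥(modularFunctionFieldBar N) c)
      = constM N (iotaC c) :=
  (Classical.choose_spec (B4h8917.exists_theta N iotaC)).1 c

/-- (T1b) -/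
theorem Theta_JdBar (N d : ℕ) [NeZero N] [NeZero d] (hd : d ∣ N) :
    Theta N (JdBar N d hd) = algebraMap (ModHol N) (ModMer N) (jdHol N d hd) :=
  (Classical.choose_spec (B4h8917.exists_theta N iotaC)).2 ⟨d, hd⟩

end

end Fermat.Agent.S24
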