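import Fermat.Agent.S24.LevelOneJ
import Fermat.Agent.S24.B2MerH
import Fermat.Agent.S24.B2Cusp

/-!
# S24 skeleton, PART B2: the field `ModMer N` of "modular functions of level `Γ(N)`",
its `SL(2,ℤ)`-action and its valuations (order at a point of `ℍ`, order at the cusp `∞`).

INTERFACE FILE: definitions are FIXED (do not change them); replace each `sorry`.
The two valuations `ordAt`, `ordInf` are to be CONSTRUCTED (replace the `sorry` in the `def`)
so that the characterising lemmas below hold; consumers use only these lemmas.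
Mathlib only (no Prelude).
-/

set_option autoImplicit false

open UpperHalfPlane Complex Filter
open scoped MatrixGroups Manifold Topology Real

namespace Fermat.Agent.S24

noncomputable section

/-- Holomorphic functions on `ℍ` all of whose `SL(2,ℤ)`-translates are `N`-periodic and of
moderate growth at `i∞`. -/
def IsModHol (N : ℕ) (f : ℍ → ℂ) : Prop :=
  MDiff f ∧ ∀ γ : SL(2, ℤ),
    (∀ τ : ℍ, f (γ • ((N : ℝ) +ᵥ τ)) = f (γ • τ)) ∧ ModerateGrowth (fun τ => f (γ • τ))

theorem isModHol_const (N : ℕ) (c : ℂ) : IsModHol N (fun _ => c) :=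
  ⟨mdifferentiable_const, fun _ => ⟨fun _ => rfl, ⟨‖c‖, 0, 0, fun τ _ => by simp⟩⟩⟩

theorem ModerateGrowth.add {f g : ℍ → ℂ} (hf : ModerateGrowth f) (hg : ModerateGrowth g) :
    ModerateGrowth (f + g) := by
  obtain ⟨C, A, M, h⟩ := hf
  obtain ⟨C', A', M', h'⟩ := hg
  refine ⟨|C| + |C'|, max (max A A') 0, max M M', fun τ hτ => ?_⟩
  have hA : A ≤ τ.im := le_trans (le_trans (le_max_left _ _) (le_max_left _ _)) hτ
  have hA' : A' ≤ τ.im := le_trans (le_trans (le_max_right _ _) (le_max_left _ _)) hτ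
  have h0 : 0 ≤ τ.im := le_trans (le_max_right _ _) hτ
  have e1 : Real.exp (M * τ.im) ≤ Real.exp (max M M' * τ.im) :=
    Real.exp_le_exp.mpr (mul_le_mul_of_nonneg_right (le_max_left _ _) h0)
  have e2 : Real.exp (M' * τ.im) ≤ Real.exp (max M M' * τ.im) :=
    Real.exp_le_exp.mpr (mul_le_mul_of_nonneg_right (le_max_right _ _) h0)
  have b1 : C * Real.exp (M * τ.im) ≤ |C| * Real.exp (max M M' * τ.im) :=
    (mul_le_mul_of_nonneg_right (le_abs_self C) (Real.exp_pos _).le).trans
      (mul_le_mul_of_nonneg_left e1 (abs_nonneg C))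
  have b2 : C' * Real.exp (M' * τ.im) ≤ |C'| * Real.exp (max M M' * τ.im) :=
    (mul_le_mul_of_nonneg_right (le_abs_self C') (Real.exp_pos _).le).trans
      (mul_le_mul_of_nonneg_left e2 (abs_nonneg C'))
  calc ‖(f + g) τ‖ ≤ ‖f τ‖ + ‖g τ‖ := norm_add_le _ _
    _ ≤ C * Real.exp (M * τ.im) + C' * Real.exp (M' * τ.im) := add_le_add (h τ hA) (h' τ hA')
    _ ≤ |C| * Real.exp (max M M' * τ.im) + |C'| * Real.exp (max M M' * τ.im) := add_le_add b1 b2
    _ = (|C| + |C'|) * Real.exp (max M M' * τ.im) := by ring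

theorem ModerateGrowth.mul {f g : ℍ → ℂ} (hf : ModerateGrowth f) (hg : ModerateGrowth g) :
    ModerateGrowth (f * g) := by
  obtain ⟨C, A, M, h⟩ := hf
  obtain ⟨C', A', M', h'⟩ := hg
  refine ⟨|C| * |C'|, max A A', M + M', fun τ hτ => ?_⟩
  have hA : A ≤ τ.im := le_trans (le_max_left _ _) hτ
  have hA' : A' ≤ τ.im := le_trans (le_max_right _ _) hτ
  calc ‖(f * g) τ‖ = ‖f τ‖ * ‖g τ‖ := norm_mul _ _
    _ ≤ (|C| * Real.exp (M * τ.im)) * (|C'| * Real.exp (M' * τ.im)) := by
        apply mul_le_mul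
          ((h τ hA).trans (mul_le_mul_of_nonneg_right (le_abs_self C) (Real.exp_pos _).le))
          ((h' τ hA').trans (mul_le_mul_of_nonneg_right (le_abs_self C') (Real.exp_pos _).le))
          (norm_nonneg _) (by positivity)
    _ = |C| * |C'| * Real.exp ((M + M') * τ.im) := by
        rw [add_mul, Real.exp_add]; ring

theorem ModerateGrowth.neg {f : ℍ → ℂ} (hf : ModerateGrowth f) : ModerateGrowth (-f) := by
  obtain ⟨C, A, M, h⟩ := hf
  exact ⟨C, A, M, fun τ hτ => by simpa using h τ hτ⟩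

/-- The ring of holomorphic modular functions of level `Γ(N)` (finite order poles at cusps). -/
def ModHol (N : ℕ) : Subring (ℍ → ℂ) where
  carrier := {f | IsModHol N f}
  mul_mem' := by
    intro f g hf hg
    refine ⟨hf.1.mul hg.1, fun γ => ⟨fun τ => ?_, (hf.2 γ).2.mul (hg.2 γ).2⟩⟩
    simp only [Pi.mul_apply, (hf.2 γ).1 τ, (hg.2 γ).1 τ]
  one_mem' := isModHol_const N 1
  add_mem' := by
    intro f g hf hg
    refine ⟨hf.1.add hg.1, fun γ => ⟨fun τ => ?_, (hf.2 γ).2.add (hg.2 γ).2⟩⟩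
    simp only [Pi.add_apply, (hf.2 γ).1 τ, (hg.2 γ).1 τ]
  zero_mem' := isModHol_const N 0
  neg_mem' := by
    intro f hf
    refine ⟨hf.1.neg, fun γ => ⟨fun τ => ?_, (hf.2 γ).2.neg⟩⟩
    simp only [Pi.neg_apply, (hf.2 γ).1 τ]

theorem mem_ModHol {N : ℕ} {f : ℍ → ℂ} : f ∈ ModHol N ↔ IsModHol N f := Iff.rfl

/-- (M1) identity theorem on the connected `ℍ` (`UpperHalfPlane.mul_eq_zero_iff`). -/
instance instIsDomainModHol (N : ℕ) : IsDomain (ModHol N) := by
  have : NoZeroDivisors (ModHol N) := ⟨by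
    intro f g h
    have h' : f.1 * g.1 = 0 := congrArg Subtype.val h
    rcases (UpperHalfPlane.mul_eq_zero_iff f.2.1 g.2.1).mp h' with h1 | h1
    · exact Or.inl (Subtype.ext h1)
    · exact Or.inr (Subtype.ext h1)⟩
  exact NoZeroDivisors.to_isDomain _

/-- "Meromorphic modular functions of level `Γ(N)`": the fraction field of `ModHol N`. -/
abbrev ModMer (N : ℕ) : Type := FractionRing (ModHol N)

/-- (M2) translates stay in the ring. -/
theorem isModHol_comp_smul {N : ℕ} {f : ℍ → ℂ} (hf : IsModHol N f) (γ : SL(2, ℤ)) :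
    IsModHol N (fun τ => f (γ • τ)) := by
  refine ⟨hf.1.comp (mdifferentiable_smul (B2M.det_mapGL_pos γ)), fun δ => ⟨fun τ => ?_, ?_⟩⟩
  · have h := (hf.2 (γ * δ)).1 τ
    simpa only [mul_smul] using h
  · have h := (hf.2 (γ * δ)).2
    simpa only [mul_smul] using h

/-- The action of `γ` on `ModHol N` by `(γ f)(τ) = f(γ⁻¹ τ)`. -/
def modHolAut (N : ℕ) (γ : SL(2, ℤ)) : ModHol N ≃+* ModHol N where
  toFun f := ⟨fun τ => f.1 (γ⁻¹ • τ), isModHol_comp_smul f.2 γ⁻¹⟩
  invFun f := ⟨fun τ => f.1 (γ • τ), isModHol_comp_smul f.2 γ⟩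
  left_inv f := by
    apply Subtype.ext
    funext τ
    simp
  right_inv f := by
    apply Subtype.ext
    funext τ
    simp
  map_mul' _ _ := rfl
  map_add' _ _ := rfl

@[simp]
theorem modHolAut_apply (N : ℕ) (γ : SL(2, ℤ)) (f : ModHol N) (τ : ℍ) :
    (modHolAut N γ f).1 τ = f.1 (γ⁻¹ • τ) := rfl

/-- The induced action on the fraction field. -/
def modAut (N : ℕ) (γ : SL(2, ℤ)) : ModMer N ≃+* ModMer N :=
  IsFractionRing.ringEquivOfRingEquiv (modHolAut N γ)

theorem modAut_algebraMap (N : ℕ) (γ : SL(2, ℤ)) (f : ModHol N) :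
    modAut N γ (algebraMap (ModHol N) (ModMer N) f)
      = algebraMap (ModHol N) (ModMer N) (modHolAut N γ f) :=
  IsFractionRing.ringEquivOfRingEquiv_algebraMap _ _

theorem modAut_mul (N : ℕ) (γ δ : SL(2, ℤ)) (φ : ModMer N) :
    modAut N (γ * δ) φ = modAut N γ (modAut N δ φ) := by
  obtain ⟨a, b, hb, rfl⟩ := IsFractionRing.div_surjective (A := ModHol N) φ
  have h : ∀ f : ModHol N, modHolAut N (γ * δ) f = modHolAut N γ (modHolAut N δ f) := by
    intro f
    apply Subtype.ext
    funext τ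
    simp only [modHolAut_apply, mul_inv_rev, mul_smul]
  simp only [map_div₀, modAut_algebraMap, h]

theorem modAut_one (N : ℕ) (φ : ModMer N) : modAut N 1 φ = φ := by
  obtain ⟨a, b, hb, rfl⟩ := IsFractionRing.div_surjective (A := ModHol N) φ
  have h : ∀ f : ModHol N, modHolAut N 1 f = f := by
    intro f
    apply Subtype.ext
    funext τ
    simp only [modHolAut_apply, inv_one, one_smul]
  simp only [map_div₀, modAut_algebraMap, h]

/-- Constant functions. -/
def constHol (N : ℕ) : ℂ →+* ModHol N where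
  toFun c := ⟨fun _ => c, isModHol_const N c⟩
  map_one' := rfl
  map_mul' _ _ := rfl
  map_zero' := rfl
  map_add' _ _ := rfl

/-- Constants in the field. -/
def constM (N : ℕ) : ℂ →+* ModMer N := (algebraMap (ModHol N) (ModMer N)).comp (constHol N)

theorem modAut_constM (N : ℕ) (γ : SL(2, ℤ)) (c : ℂ) : modAut N γ (constM N c) = constM N c := by
  show modAut N γ (algebraMap (ModHol N) (ModMer N) (constHol N c))
    = algebraMap (ModHol N) (ModMer N) (constHol N c)
  rw [modAut_algebraMap]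
  rfl

/-! ### Valuations -/

/-- `ModHol N` inside the ring `B2M.HolH` of all holomorphic functions on `ℍ`. -/
def modHolToHolH (N : ℕ) : ModHol N →+* B2M.HolH :=
  Subring.inclusion (fun _ hf => hf.1)

theorem modHolToHolH_injective (N : ℕ) : Function.Injective (modHolToHolH N) :=
  Subring.inclusion_injective _

theorem modHolToHolH_modHolAut (N : ℕ) (γ : SL(2, ℤ)) (f : ModHol N) :
    modHolToHolH N (modHolAut N γ f) = B2M.holAut γ (modHolToHolH N f) := rfl

/-- The induced embedding of fraction fields `ModMer N → B2M.MerH`. -/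
def modMerToMerH (N : ℕ) : ModMer N →+* B2M.MerH :=
  IsFractionRing.lift (g := (algebraMap B2M.HolH B2M.MerH).comp (modHolToHolH N))
    ((IsFractionRing.injective B2M.HolH B2M.MerH).comp (modHolToHolH_injective N))

theorem modMerToMerH_algebraMap (N : ℕ) (f : ModHol N) :
    modMerToMerH N (algebraMap (ModHol N) (ModMer N) f)
      = algebraMap B2M.HolH B2M.MerH (modHolToHolH N f) := by
  rw [modMerToMerH, IsFractionRing.lift_algebraMap]
  rfl

theorem modMerToMerH_modAut (N : ℕ) (γ : SL(2, ℤ)) (φ : ModMer N) :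
    modMerToMerH N (modAut N γ φ) = B2M.merAut γ (modMerToMerH N φ) := by
  obtain ⟨a, b, hb, rfl⟩ := IsFractionRing.div_surjective (A := ModHol N) φ
  simp only [map_div₀, modAut_algebraMap, modMerToMerH_algebraMap, B2M.merAut_algebraMap,
    modHolToHolH_modHolAut]

/-- (M3) The valuation "order at `τ`" on `ModMer N` (construct it: generic lemma
"additive order function on a domain ⇒ valuation on the fraction field"). -/
def ordAt (N : ℕ) (τ : ℍ) : Valuation (ModMer N) (WithZero (Multiplicative ℤ)) :=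
  (B2M.ordVal τ).comap (modMerToMerH N)

/-- (M3a) characterisation on holomorphic elements. -/
theorem ordAt_algebraMap (N : ℕ) (τ : ℍ) (f : ModHol N) (hf : f ≠ 0) :
    ordAt N τ (algebraMap (ModHol N) (ModMer N) f)
      = WithZero.exp (-((analyticOrderNatAt (fun z : ℂ => f.1 (ofComplex z)) (τ : ℂ) : ℕ) : ℤ)) := by
  have hf' : modHolToHolH N f ≠ 0 := fun h =>
    hf ((map_eq_zero_iff _ (modHolToHolH_injective N)).mp h)
  show B2M.ordVal τ (modMerToMerH N (algebraMap (ModHol N) (ModMer N) f)) = _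
  rw [modMerToMerH_algebraMap, B2M.ordVal_algebraMap, B2M.ordValHol_apply τ _ hf']
  rfl

/-- (M3b) transport under the action. -/
theorem ordAt_modAut (N : ℕ) (γ : SL(2, ℤ)) (τ : ℍ) (φ : ModMer N) :
    ordAt N τ (modAut N γ φ) = ordAt N (γ⁻¹ • τ) φ := by
  show B2M.ordVal τ (modMerToMerH N (modAut N γ φ))
    = B2M.ordVal (γ⁻¹ • τ) (modMerToMerH N φ)
  rw [modMerToMerH_modAut, B2M.ordVal_merAut]

/-- Moderate growth gives boundedness at `i∞` after multiplication by a power of `q_N`. -/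
theorem exists_isBoundedAtImInfty_qParam_pow_mul {N : ℕ} [NeZero N] {f : ℍ → ℂ}
    (hf : ModerateGrowth f) :
    ∃ k : ℕ, IsBoundedAtImInfty
      (fun τ : ℍ => Function.Periodic.qParam (N : ℝ) τ ^ k * f τ) := by
  obtain ⟨C, A, M, h⟩ := hf
  have hN : (0 : ℝ) < N := by exact_mod_cast Nat.pos_of_ne_zero (NeZero.ne N)
  obtain ⟨k, hk⟩ := exists_nat_ge (M * N / (2 * π))
  refine ⟨k, ?_⟩
  rw [isBoundedAtImInfty_iff]
  refine ⟨|C|, A, fun τ hτ => ?_⟩
  have h1 := h τ hτ
  have him : (τ : ℂ).im = τ.im := rfl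
  have hk' : M * N ≤ k * (2 * π) := by
    rwa [div_le_iff₀ (by positivity)] at hk
  rw [norm_mul, norm_pow, Function.Periodic.norm_qParam, him, ← Real.exp_nat_mul]
  calc Real.exp (k * (-2 * π * τ.im / N)) * ‖f τ‖
      ≤ Real.exp (k * (-2 * π * τ.im / N)) * (|C| * Real.exp (M * τ.im)) := by
        apply mul_le_mul_of_nonneg_left _ (Real.exp_pos _).le
        exact h1.trans (mul_le_mul_of_nonneg_right (le_abs_self C) (Real.exp_pos _).le)
    _ = |C| * Real.exp (k * (-2 * π * τ.im / N) + M * τ.im) := by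
        rw [Real.exp_add]; ring
    _ ≤ |C| * 1 := by
        apply mul_le_mul_of_nonneg_left _ (abs_nonneg C)
        rw [Real.exp_le_one_iff]
        have him_pos := τ.im_pos
        have e : (k : ℝ) * (-2 * π * τ.im / N) + M * τ.im
            = (M * N - k * (2 * π)) * τ.im / N := by
          field_simp
          ring
        rw [e]
        apply div_nonpos_of_nonpos_of_nonneg _ hN.le
        exact mul_nonpos_of_nonpos_of_nonneg (by linarith) him_pos.le
    _ = |C| := mul_one _

/-- `ModHol N` inside the ring `B2C.HolCusp N` of holomorphic `N`-periodic functions that are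
meromorphic at `∞`. -/
def modHolToHolCusp (N : ℕ) [NeZero N] : ModHol N →+* B2C.HolCusp N :=
  Subring.inclusion (fun f hf => ⟨hf.1, fun τ => by simpa only [one_smul] using (hf.2 1).1 τ,
    exists_isBoundedAtImInfty_qParam_pow_mul (by simpa only [one_smul] using (hf.2 1).2)⟩)

theorem modHolToHolCusp_injective (N : ℕ) [NeZero N] :
    Function.Injective (modHolToHolCusp N) :=
  Subring.inclusion_injective _

theorem modHolToHolCusp_modHolAut_T_zpow (N : ℕ) [NeZero N] (k : ℤ) (f : ModHol N) :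
    modHolToHolCusp N (modHolAut N (ModularGroup.T ^ k) f)
      = B2C.cuspShift (-k) (modHolToHolCusp N f) := by
  apply Subtype.ext
  funext τ
  show f.1 ((ModularGroup.T ^ k)⁻¹ • τ) = f.1 (((-k : ℤ) : ℝ) +ᵥ τ)
  rw [← zpow_neg, UpperHalfPlane.modular_T_zpow_smul]

/-- The induced embedding of fraction fields `ModMer N → B2C.MerCusp N`. -/
def modMerToMerCusp (N : ℕ) [NeZero N] : ModMer N →+* B2C.MerCusp N :=
  IsFractionRing.lift
    (g := (algebraMap (B2C.HolCusp N) (B2C.MerCusp N)).comp (modHolToHolCusp N))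
    ((IsFractionRing.injective (B2C.HolCusp N) (B2C.MerCusp N)).comp
      (modHolToHolCusp_injective N))

theorem modMerToMerCusp_algebraMap (N : ℕ) [NeZero N] (f : ModHol N) :
    modMerToMerCusp N (algebraMap (ModHol N) (ModMer N) f)
      = algebraMap (B2C.HolCusp N) (B2C.MerCusp N) (modHolToHolCusp N f) := by
  rw [modMerToMerCusp, IsFractionRing.lift_algebraMap]
  rfl

theorem modMerToMerCusp_modAut_T_zpow (N : ℕ) [NeZero N] (k : ℤ) (φ : ModMer N) :
    modMerToMerCusp N (modAut N (ModularGroup.T ^ k) φ)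
      = B2C.cuspShiftFrac (-k) (modMerToMerCusp N φ) := by
  obtain ⟨a, b, hb, rfl⟩ := IsFractionRing.div_surjective (A := ModHol N) φ
  simp only [map_div₀, modAut_algebraMap, modMerToMerCusp_algebraMap,
    B2C.cuspShiftFrac_algebraMap, modHolToHolCusp_modHolAut_T_zpow]

/-- (M4) The valuation "order at the cusp `∞` in the local parameter `q^(1/N) = e^{2πiτ/N}`". -/
def ordInf (N : ℕ) [NeZero N] : Valuation (ModMer N) (WithZero (Multiplicative ℤ)) :=
  (B2C.cuspValFrac N).comap (modMerToMerCusp N)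

/-- (M4a) characterisation: `f(τ) e^{-2πi v τ/N} → c ≠ 0` means order `v`. -/
theorem ordInf_algebraMap (N : ℕ) [NeZero N] (f : ModHol N) (v : ℤ) (c : ℂ) (hc : c ≠ 0)
    (h : Tendsto (fun τ : ℍ => f.1 τ * cexp (-(2 * π * Complex.I * v * τ / N))) atImInfty (𝓝 c)) :
    ordInf N (algebraMap (ModHol N) (ModMer N) f) = WithZero.exp (-v) := by
  have hlead : B2C.HasCuspLeading (N : ℝ) (modHolToHolCusp N f).1 v c := by
    refine ⟨hc, h.congr fun τ => ?_⟩
    show f.1 τ * cexp (-(2 * π * Complex.I * v * τ / N))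
      = Function.Periodic.qParam (N : ℝ) τ ^ (-v) * f.1 τ
    rw [Function.Periodic.qParam, ← Complex.exp_int_mul, mul_comm]
    congr 2
    push_cast
    ring
  show B2C.cuspValFrac N (modMerToMerCusp N (algebraMap (ModHol N) (ModMer N) f)) = _
  rw [modMerToMerCusp_algebraMap]
  exact B2C.cuspValFrac_eq_of_leading hlead

/-- (M4b) invariance under `T`. -/
theorem ordInf_modAut_T (N : ℕ) [NeZero N] (φ : ModMer N) :
    ordInf N (modAut N ModularGroup.T φ) = ordInf N φ := by
  have h := modMerToMerCusp_modAut_T_zpow N 1 φ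
  rw [zpow_one] at h
  show B2C.cuspValFrac N (modMerToMerCusp N (modAut N ModularGroup.T φ))
    = B2C.cuspValFrac N (modMerToMerCusp N φ)
  rw [h, B2C.cuspValFrac_cuspShiftFrac]

/-- (M5) A function invariant under `S` has even order at `i`. -/
theorem two_dvd_log_ordAt_I (N : ℕ) (φ : ModMer N) (h0 : φ ≠ 0)
    (hS : modAut N ModularGroup.S φ = φ) :
    (2 : ℤ) ∣ WithZero.log (ordAt N UpperHalfPlane.I φ) := by
  have h0' : modMerToMerH N φ ≠ 0 := (map_ne_zero _).mpr h0
  have hS' : B2M.merAut ModularGroup.S (modMerToMerH N φ) = modMerToMerH N φ := by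
    rw [← modMerToMerH_modAut, hS]
  exact B2M.two_dvd_log_ordVal_I _ h0' hS'

/-- (M6) A function invariant under `S * T` has order divisible by `3` at `ρ`. -/
theorem three_dvd_log_ordAt_rhoH (N : ℕ) (φ : ModMer N) (h0 : φ ≠ 0)
    (hST : modAut N (ModularGroup.S * ModularGroup.T) φ = φ) :
    (3 : ℤ) ∣ WithZero.log (ordAt N rhoH φ) := by
  have h0' : modMerToMerH N φ ≠ 0 := (map_ne_zero _).mpr h0
  have hST' : B2M.merAut (ModularGroup.S * ModularGroup.T) (modMerToMerH N φ)
      = modMerToMerH N φ := by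
    rw [← modMerToMerH_modAut, hST]
  exact B2M.three_dvd_log_ordVal_rhoH _ h0' hST'

/-- (M7) A function invariant under `T ^ s` (`s ∣ N`) has order at `∞` divisible by `N / s`. -/
theorem dvd_log_ordInf (N : ℕ) [NeZero N] (φ : ModMer N) (h0 : φ ≠ 0) (s : ℕ) (hs : s ∣ N)
    (hT : modAut N (ModularGroup.T ^ s) φ = φ) :
    ((N / s : ℕ) : ℤ) ∣ WithZero.log (ordInf N φ) := by
  have h0' : modMerToMerCusp N φ ≠ 0 := (map_ne_zero _).mpr h0
  have hT' : B2C.cuspShiftFrac (-(s : ℤ)) (modMerToMerCusp N φ) = modMerToMerCusp N φ := by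
    rw [← modMerToMerCusp_modAut_T_zpow, zpow_natCast, hT]
  have key := B2C.dvd_log_cuspValFrac_of_shift_invariant (-(s : ℤ)) h0' hT'
  show ((N / s : ℕ) : ℤ) ∣ WithZero.log (B2C.cuspValFrac N (modMerToMerCusp N φ))
  generalize WithZero.log (B2C.cuspValFrac N (modMerToMerCusp N φ)) = L at key ⊢
  have hs0 : s ≠ 0 := by
    rintro rfl
    exact NeZero.ne N (Nat.eq_zero_of_zero_dvd hs)
  have hNr : (N : ℤ) = (s : ℤ) * ((N / s : ℕ) : ℤ) := by
    exact_mod_cast (Nat.mul_div_cancel' hs).symm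
  have key2 : (s : ℤ) * ((N / s : ℕ) : ℤ) ∣ (s : ℤ) * (-L) := by
    have e : -(s : ℤ) * L = (s : ℤ) * (-L) := by ring
    rw [← e, ← hNr]
    exact key
  have key3 := (mul_dvd_mul_iff_left (by exact_mod_cast hs0 : (s : ℤ) ≠ 0)).mp key2
  exact (dvd_neg).mp key3

end

end Fermat.Agent.S24
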